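import Fermat.Agent.WeilPairing.OneSubFrobenius
import Fermat.Agent.Reduction.GoodPrime
import Fermat.Prelude.Def_FLTPrelim_Modularity
import Mathlib.FieldTheory.IsAlgClosed.Basic
import Mathlib.Algebra.Algebra.Rat

/-!
# The trace of Frobenius on `E[p]` at a prime of good reduction
-/

set_option autoImplicit false
set_option linter.unusedSectionVars false

open scoped WeierstrassCurve.Affine
open WeierstrassCurve WeierstrassCurve.Affine IsLocalRing

namespace FLTAgent.WeilPairing

noncomputable section

open FLTAgent.Reduction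

local notation "Qbar" => AlgebraicClosure ℚ

theorem isAlgClosed_residueField {L : Type*} [Field L] [IsAlgClosed L] (A : ValuationSubring L) :
    IsAlgClosed (ResidueField A) := by
  refine IsAlgClosed.of_exists_root _ fun p hp hirr => ?_
  obtain ⟨q, hq, hdeg, hmon⟩ := Polynomial.lifts_and_degree_eq_and_monic
    (f := residue A) (show p ∈ Polynomial.lifts (residue A) from
      (Polynomial.map_surjective _ residue_surjective) p) hp
  obtain ⟨z, hz⟩ := IsAlgClosed.exists_root (q.map A.subtype) (by
    rw [Polynomial.degree_map_eq_of_injective Subtype.coe_injective, hdeg]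
    exact (Polynomial.degree_pos_of_irreducible hirr).ne')
  have hint : IsIntegral A z := ⟨q, hmon, by
    rw [Polynomial.IsRoot, Polynomial.eval_map] at hz; exact hz⟩
  obtain ⟨a, rfl⟩ := IsIntegrallyClosed.isIntegral_iff.mp hint
  refine ⟨residue A a, ?_⟩
  rw [← hq, Polynomial.eval_map, Polynomial.eval₂_hom]
  have : q.eval a = 0 := by
    apply Subtype.coe_injective
    show A.subtype (q.eval a) = _
    rw [← Polynomial.eval₂_hom, ← Polynomial.eval_map]
    exact hz
  rw [this, map_zero]

/-- Transport of points along an equality of curves. -/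
def pointCongr {K : Type*} [Field K] [DecidableEq K] {C C' : WeierstrassCurve K} (h : C = C') :
    C.toAffine.Point ≃+ C'.toAffine.Point := by subst h; exact AddEquiv.refl _

theorem pointCongr_some {K : Type*} [Field K] [DecidableEq K] {C C' : WeierstrassCurve K}
    (h : C = C') {x y : K} (hxy : C.toAffine.Nonsingular x y) :
    pointCongr h (Point.some x y hxy) = Point.some x y (h ▸ hxy) := by
  subst h; rfl

variable (W : WeierstrassCurve ℤ) (p : ℕ) [hp : Fact p.Prime] {l : ℕ}

theorem charP_residueField {A : ValuationSubring Qbar} (hl : l.Prime) (hA : A.LiesOverPrime l) :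
    CharP (ResidueField A) l :=
  ⟨fun n => residue_natCast_eq_zero_iff hA hl n⟩

theorem isElliptic_reduction {A : ValuationSubring Qbar} (hl : l.Prime) (hA : A.LiesOverPrime l)
    (hgood : W.IsGoodPrimeFor l) : (W.map (Int.castRingHom (ResidueField A))).IsElliptic := by
  refine ⟨?_⟩
  rw [isUnit_iff_ne_zero, WeierstrassCurve.map_Δ, eq_intCast]
  have := charP_residueField hl hA
  exact fun h => hgood ((CharP.intCast_eq_zero_iff (ResidueField A) l W.Δ).mp h)

theorem isElliptic_rat (hgood : W.IsGoodPrimeFor l) : (W.map (Int.castRingHom ℚ)).IsElliptic := by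
  refine ⟨?_⟩
  rw [isUnit_iff_ne_zero, WeierstrassCurve.map_Δ, eq_intCast, Int.cast_ne_zero]
  intro h
  exact hgood (h ▸ dvd_zero _)

/-- The trace of a Frobenius at a good prime `l ≠ p` on `E[p]` is `a_l` modulo `p`. -/
theorem galoisTrace_frobenius (hl : l.Prime) (hgood : W.IsGoodPrimeFor l) (hlp : l ≠ p)
    (A : ValuationSubring Qbar) (hA : A.LiesOverPrime l) (σ : Qbar ≃ₐ[ℚ] Qbar)
    (hσ : A.IsFrobeniusAt σ l) :
    Point.galoisTrace ℚ (K := Qbar) (W.map (Int.castRingHom ℚ)) p σ = (W.apOfModel l : ZMod p) := by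
  classical
  obtain ⟨hσd, hσres⟩ := hσ
  set k := ResidueField A
  have : Fact l.Prime := ⟨hl⟩
  have : CharP k l := charP_residueField hl hA
  let _ : Algebra (ZMod l) k := ZMod.algebra k l
  have : IsAlgClosed k := isAlgClosed_residueField A
  let W' : Affine (ZMod l) := W.reductionMod l
  have hWk : (W'⁄k : WeierstrassCurve k) = W.map (Int.castRingHom k) := by
    show (W.map (Int.castRingHom (ZMod l))).map (algebraMap (ZMod l) k) = _
    rw [WeierstrassCurve.map_map]
    congr 1
    exact Subsingleton.elim _ _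
  have hWk' : redCurve (Reduction.integralAt W A) = (W'⁄k : WeierstrassCurve k) :=
    (redCurve_integralAt W A).trans hWk.symm
  have : (W'⁄k).IsElliptic := by
    rw [hWk]; exact isElliptic_reduction W hl hA hgood
  have : (W.map (Int.castRingHom ℚ)).IsElliptic := isElliptic_rat W hgood
  have : ((W.map (Int.castRingHom ℚ))⁄Qbar).toAffine.IsElliptic := isElliptic_qbar _
  have hlp' : ¬ l ∣ p := fun h => hlp ((Nat.prime_dvd_prime_iff_eq hl hp.out).mp h)
  have hpk : (p : k) ≠ 0 := fun h => hlp' ((residue_natCast_eq_zero_iff hA hl p).mp h)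
  have hpQ : (p : Qbar) ≠ 0 := Nat.cast_ne_zero.mpr hp.out.ne_zero
  -- the reduction map on `E[p]`
  have hE0 : ∀ P : (WQbar W).toAffine.Point, P ∈ zeroSubgroup (Reduction.integralAt W A) := fun P => by
    rw [zeroSubgroup_eq_top_of_good hA hl hgood]; trivial
  let red : (WQbar W).toAffine.Point →+ (W'⁄k).Point :=
    ((pointCongr hWk').toAddMonoidHom.comp (redHom (Reduction.integralAt W A))).comp
      { toFun := fun P => ⟨P, hE0 P⟩
        map_zero' := rfl
        map_add' := fun _ _ => rfl }
  let T := Submodule.torsionBy ℤ ((W.map (Int.castRingHom ℚ))⁄Qbar).toAffine.Point (p : ℤ)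
  let Tk := Submodule.torsionBy ℤ (W'⁄k).Point (p : ℤ)
  let f : T →+ Tk :=
    { toFun := fun x => ⟨red x.1, by
        rw [Submodule.mem_torsionBy_iff, ← map_zsmul, (Submodule.mem_torsionBy_iff _ _).mp x.2,
          map_zero]⟩
      map_zero' := Subtype.ext (map_zero red)
      map_add' := fun x y => Subtype.ext (map_add red x.1 y.1) }
  have hinj : Function.Injective f := fun x y h => by
    have h' : red x.1 = red y.1 := congrArg Subtype.val h
    exact Subtype.ext (redPt_injective_of_torsion hA hl hlp' (hE0 _) (hE0 _)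
      (nsmul_coe_torsionBy x) (nsmul_coe_torsionBy y) ((pointCongr hWk').injective h'))
  have : Finite Tk := FLTAgent.Torsion.finite_torsionBy (W := (W'⁄k)) hp.out.ne_zero
  have hbij : Function.Bijective f := by
    refine hinj.bijective_of_nat_card_le ?_
    rw [FLTAgent.Torsion.natCard_torsionBy (W := (W'⁄k)) p hpk,
      FLTAgent.Torsion.natCard_torsionBy
        (W := ((W.map (Int.castRingHom ℚ))⁄Qbar).toAffine) p hpQ]
  let e : T ≃ₗ[ZMod p] Tk := LinearEquiv.ofBijective
    ({ toFun := f, map_add' := f.map_add, map_smul' := fun c x => ZMod.map_smul f c x } :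
      T →ₗ[ZMod p] Tk) hbij
  -- Frobenius on the residue field
  have hfb : Function.Bijective (FiniteField.frobeniusAlgHom (ZMod l) k) :=
    ⟨(FiniteField.frobeniusAlgHom (ZMod l) k).injective, fun x => by
      obtain ⟨y, hy⟩ := IsAlgClosed.exists_pow_nat_eq x (n := Fintype.card (ZMod l)) Fintype.card_pos
      exact ⟨y, hy⟩⟩
  let φ : k ≃ₐ[ZMod l] k := AlgEquiv.ofBijective (FiniteField.frobeniusAlgHom (ZMod l) k) hfb
  have hcard : Fintype.card (ZMod l) = l := ZMod.card l
  have hφ : ∀ x : k, φ x = x ^ Fintype.card (ZMod l) := fun x => rfl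
  have hequiv : ∀ x : T, e (σ • x) = φ • e x := by
    intro x
    apply Subtype.ext
    show red (σ • x.1) = φ • red x.1
    rcases InZero.cases (hE0 x.1) with h1 | ⟨a, b, hab, he, hns⟩
    · have h2 : InOne A (σ • x.1) := smul_mem_oneSubgroup (W := W) hσd h1
      have e1 : red x.1 = 0 :=
        (congrArg (pointCongr hWk') (redPt_of_inOne _ h1)).trans (map_zero _)
      have e2 : red (σ • x.1) = 0 :=
        (congrArg (pointCongr hWk') (redPt_of_inOne _ h2)).trans (map_zero _)
      rw [e1, e2]
      exact rfl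
    · rw [he]
      obtain ⟨hs, hra, hrb⟩ := redPt_smul_coe (W := W) hσd hab
      rw [hs]
      have hns' : (redCurve (Reduction.integralAt W A)).toAffine.Nonsingular
          (residue A ((⟨σ, hσd⟩ : A.decompositionSubgroup ℚ) • a))
          (residue A ((⟨σ, hσd⟩ : A.decompositionSubgroup ℚ) • b)) := by
        rcases InZero.cases (hE0 (σ • x.1)) with h1 | ⟨a', b', hab', he', hns''⟩
        · rw [he, hs] at h1
          exact absurd ((⟨σ, hσd⟩ : A.decompositionSubgroup ℚ) • a).2 h1
        · rw [he, hs, Point.some.injEq] at he'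
          rwa [Subtype.coe_injective he'.1, Subtype.coe_injective he'.2]
      simp only [red, AddMonoidHom.comp_apply, AddMonoidHom.coe_mk, ZeroHom.coe_mk,
        AddEquiv.coe_toAddMonoidHom, redHom_apply]
      rw [redPt_coe (Reduction.integralAt W A) hab hns,
        redPt_coe (Reduction.integralAt W A) _ hns', pointCongr_some, pointCongr_some,
        Point.algEquiv_smul_def, Point.map_some, Point.some.injEq]
      constructor
      · rw [hra, hσres]; show _ = φ (residue A a); rw [hφ, hcard]
      · rw [hrb, hσres]; show _ = φ (residue A b); rw [hφ, hcard]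
  rw [Point.galoisTrace_def, ← LinearMap.trace_conj'
      (Point.galoisRepModuleEnd ℚ (W.map (Int.castRingHom ℚ)).toAffine p σ) e,
    show e.conj (Point.galoisRepModuleEnd ℚ (W.map (Int.castRingHom ℚ)).toAffine p σ) =
      Point.galoisRepModuleEnd (ZMod l) W' p φ from LinearMap.ext fun y => by
        rw [LinearEquiv.conj_apply_apply]
        show e (σ • e.symm y) = φ • y
        rw [hequiv, e.apply_symm_apply],
    ← Point.galoisTrace_def,
    galoisTrace_frobenius_finiteField hpk φ hφ, hcard]
  simp only [WeierstrassCurve.apOfModel, WeierstrassCurve.traceOfFrobenius, WeierstrassCurve.card,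
    Nat.card_zmod]
  push_cast
  rfl

/-- The determinant of a Frobenius at a good prime `l ≠ p` on `E[p]` is `l`. -/
theorem det_frobenius (hl : l.Prime) (hgood : W.IsGoodPrimeFor l) (hlp : l ≠ p)
    (A : ValuationSubring Qbar) (hA : A.LiesOverPrime l) (σ : Qbar ≃ₐ[ℚ] Qbar)
    (hσ : A.IsFrobeniusAt σ l) :
    LinearMap.det (Point.galoisRepModuleEnd (S := ℚ) (K := Qbar) (W.map (Int.castRingHom ℚ)) p σ)
      = (l : ZMod p) := by
  have : (W.map (Int.castRingHom ℚ)).IsElliptic := isElliptic_rat W hgood
  have : ((W.map (Int.castRingHom ℚ))⁄Qbar).toAffine.IsElliptic := isElliptic_qbar _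
  refine det_galoisRepModuleEnd_eq_of_forall_pow _ p (Nat.cast_ne_zero.mpr hp.out.ne_zero) σ l
    fun ζ hζ => ?_
  obtain ⟨hσd, hσres⟩ := hσ
  have hlp' : ¬ l ∣ p := fun h => hlp ((Nat.prime_dvd_prime_iff_eq hl hp.out).mp h)
  have hmem : ζ ∈ A := by
    apply A.mem_of_valuation_le_one
    by_contra hlt
    rw [not_le] at hlt
    have := one_lt_pow₀ hlt hp.out.ne_zero
    rw [← map_pow, hζ, map_one] at this
    exact lt_irrefl _ this
  set z : A := ⟨ζ, hmem⟩
  set w : A := (⟨σ, hσd⟩ : A.decompositionSubgroup ℚ) • z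
  have hz : residue A w = residue A (z ^ l) := by
    rw [ResidueField.residue_smul, hσres, map_pow]
  have hwp : (w : Qbar) ^ p = 1 := by
    show (σ ζ) ^ p = 1
    rw [← map_pow, hζ, map_one]
  have hzp : ((z ^ l : A) : Qbar) ^ p = 1 := by
    show (ζ ^ l) ^ p = 1
    rw [← pow_mul, mul_comm, pow_mul, hζ, one_pow]
  by_contra hne
  have hne' : (w : Qbar) ≠ ((z ^ l : A) : Qbar) := hne
  -- two distinct roots of `X ^ p - 1` have distinct residues
  obtain ⟨g, hg⟩ : ((w : Qbar) - ((z ^ l : A) : Qbar)) ∣ ((w : Qbar) ^ p - ((z ^ l : A) : Qbar) ^ p) :=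
    sub_dvd_pow_sub_pow _ _ p
  have hgeo : ∑ i ∈ Finset.range p, w ^ i * (z ^ l) ^ (p - 1 - i) = 0 := by
    apply Subtype.coe_injective
    have h := geom_sum₂_mul (w : Qbar) ((z ^ l : A) : Qbar) p
    rw [hwp, hzp, sub_self, mul_eq_zero, or_iff_left (sub_ne_zero.mpr hne')] at h
    simpa using h
  have h2 := congrArg (residue A) hgeo
  rw [map_sum, map_zero] at h2
  simp only [map_mul, map_pow, hz] at h2
  rw [Finset.sum_congr rfl fun i hi => by
    rw [← pow_add, Nat.add_sub_cancel' (Nat.le_sub_one_of_lt (Finset.mem_range.mp hi))],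
    Finset.sum_const, Finset.card_range, nsmul_eq_mul, mul_eq_zero] at h2
  rcases h2 with h2 | h2
  · exact hlp' ((residue_natCast_eq_zero_iff hA hl p).mp h2)
  · rw [← map_pow, ← map_pow] at h2
    have : IsUnit ((z ^ l) ^ (p - 1)) := by
      refine (IsUnit.pow l ?_).pow _
      refine IsUnit.of_mul_eq_one (z ^ (p - 1)) ?_
      rw [← pow_succ', Nat.sub_add_cancel hp.out.one_le]
      exact Subtype.ext hζ
    exact (this.map (residue A)).ne_zero h2

/-- The characteristic identity in one statement. -/
theorem trace_and_det_frobenius (hl : l.Prime) (hgood : W.IsGoodPrimeFor l) (hlp : l ≠ p)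
    (A : ValuationSubring Qbar) (hA : A.LiesOverPrime l) (σ : Qbar ≃ₐ[ℚ] Qbar)
    (hσ : A.IsFrobeniusAt σ l) :
    LinearMap.trace (ZMod p) _
        (Point.galoisRepModuleEnd (S := ℚ) (K := Qbar) (W.map (Int.castRingHom ℚ)) p σ) =
        (W.apOfModel l : ZMod p) ∧
      LinearMap.det (Point.galoisRepModuleEnd (S := ℚ) (K := Qbar) (W.map (Int.castRingHom ℚ)) p σ)
        = (l : ZMod p) :=
  ⟨galoisTrace_frobenius W p hl hgood hlp A hA σ hσ, det_frobenius W p hl hgood hlp A hA σ hσ⟩

end

end FLTAgent.WeilPairing
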