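import Fermat.Agent.WeilPairing.FrobeniusTrace
import Fermat.Prelude.Def_GaloisRep_ComplexConjugation
import Mathlib.LinearAlgebra.Matrix.Charpoly.Coeff
import Mathlib.LinearAlgebra.Charpoly.ToMatrix

/-!
# Characteristic polynomial of Frobenius, determinant of complex conjugation
-/

set_option autoImplicit false
set_option linter.unusedSectionVars false

open scoped WeierstrassCurve.Affine
open WeierstrassCurve WeierstrassCurve.Affine Polynomial

namespace FLTAgent.WeilPairing

noncomputable section

local notation "Qbar" => AlgebraicClosure ℚ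

variable (p : ℕ) [hp : Fact p.Prime]

theorem charpoly_of_trace_det {V : Type*} [AddCommGroup V] [Module (ZMod p) V]
    [Module.Finite (ZMod p) V] (hV : Module.finrank (ZMod p) V = 2) (f : Module.End (ZMod p) V)
    {t d : ZMod p} (ht : LinearMap.trace (ZMod p) V f = t) (hd : LinearMap.det f = d) :
    f.charpoly = X ^ 2 - C t * X + C d := by
  let b := Module.finBasisOfFinrankEq (ZMod p) V hV
  rw [← LinearMap.charpoly_toMatrix f b, Matrix.charpoly_fin_two,
    ← LinearMap.trace_eq_matrix_trace (ZMod p) b, LinearMap.det_toMatrix, ht, hd]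

/-- The characteristic polynomial of Frobenius at a good prime `l ≠ p`. -/
theorem charpoly_frobenius (W : WeierstrassCurve ℤ) {l : ℕ} (hl : l.Prime)
    (hgood : W.IsGoodPrimeFor l) (hlp : l ≠ p) (A : ValuationSubring Qbar)
    (hA : A.LiesOverPrime l) (σ : Qbar ≃ₐ[ℚ] Qbar) (hσ : A.IsFrobeniusAt σ l)
    [Module.Finite (ZMod p)
      (Submodule.torsionBy ℤ ((W.map (Int.castRingHom ℚ))⁄Qbar).toAffine.Point (p : ℤ))] :
    (Point.galoisRepModuleEnd (S := ℚ) (K := Qbar) (W.map (Int.castRingHom ℚ)) p σ).charpoly =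
      X ^ 2 - C (W.apOfModel l : ZMod p) * X + C (l : ZMod p) := by
  have : (W.map (Int.castRingHom ℚ)).IsElliptic := isElliptic_rat W hgood
  have : ((W.map (Int.castRingHom ℚ))⁄Qbar).toAffine.IsElliptic := isElliptic_qbar _
  exact charpoly_of_trace_det p
    (FLTAgent.Torsion.finrank_torsionBy_prime (W.map (Int.castRingHom ℚ)).toAffine p
      (Nat.cast_ne_zero.mpr hp.out.ne_zero)) _
    (galoisTrace_frobenius W p hl hgood hlp A hA σ hσ) (det_frobenius W p hl hgood hlp A hA σ hσ)

/-- Complex conjugation has determinant `-1` on `E[p]`. -/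
theorem det_complexConjugation (W : WeierstrassCurve ℚ) [W.IsElliptic] :
    LinearMap.det (Point.galoisRepModuleEnd (S := ℚ) (K := Qbar) W p complexConjugation) = -1 := by
  have := isElliptic_qbar W
  rw [det_galoisRepModuleEnd_eq_of_forall_pow W p (Nat.cast_ne_zero.mpr hp.out.ne_zero) _ (p - 1)
    fun ζ hζ => ?_, Nat.cast_sub hp.out.one_le, ZMod.natCast_self]
  · simp
  apply complexEmbedding.toRingHom.injective
  show complexEmbedding (complexConjugation ζ) = complexEmbedding (ζ ^ (p - 1))
  rw [complexEmbedding_complexConjugation, map_pow]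
  set z := complexEmbedding ζ
  have hz : z ^ p = 1 := by rw [← map_pow, hζ, map_one]
  have hnorm : ‖z‖ = 1 := Complex.norm_eq_one_of_pow_eq_one hz hp.out.ne_zero
  rw [← Complex.inv_eq_conj hnorm]
  refine inv_eq_of_mul_eq_one_right ?_
  rw [← pow_succ', Nat.sub_add_cancel hp.out.one_le, hz]

end

end FLTAgent.WeilPairing
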