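import Fermat.Agent.WeilPairing.Det
import Fermat.Prelude.Def_EllipticCurve_FrobeniusTrace
import Fermat.Prelude.Def_FreyPackage_DetCyclotomic
import Fermat.Prelude.Def_ExtCitation_KummerBridge
import Fermat.Prelude.Def_GaloisRep_ModThreeCyclotomic
import Mathlib.Algebra.Algebra.Rat

/-!
# The determinant of the mod `p` representation is the cyclotomic character
-/

set_option autoImplicit false
set_option linter.unusedSectionVars false

open scoped WeierstrassCurve.Affine
open WeierstrassCurve WeierstrassCurve.Affine WeierstrassCurve.Affine.Point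

namespace FLTAgent.WeilPairing

noncomputable section

section General

variable {F k : Type*} [Field F] [Field k] [Algebra F k] [IsAlgClosed k] [DecidableEq k]
  (W : Affine F) [(W⁄k).IsElliptic] (p : ℕ) [hp : Fact p.Prime]

/-- An automorphism raising the `p`-th roots of unity to the power `m` has determinant `m` on
`E[p]`. -/
theorem det_galoisRepModuleEnd_eq_of_forall_pow (hpk : (p : k) ≠ 0) (σ : k ≃ₐ[F] k) (m : ℕ)
    (hm : ∀ ζ : k, ζ ^ p = 1 → σ ζ = ζ ^ m) :
    LinearMap.det (galoisRepModuleEnd (S := F) (K := k) W p σ) = (m : ZMod p) := by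
  refine det_eq_of_pairing hpk _ m fun S T => ?_
  rw [← hm _ (pairing_pow hpk S T)]
  exact weilPairing_map (W' := W) hpk σ (toTors S) (toTors T)

theorem det_galoisRepModuleEnd_general (hpk : (p : k) ≠ 0)
    (hcard : Nat.card (rootsOfUnity p k) = p) (σ : k ≃ₐ[F] k) :
    LinearMap.det (galoisRepModuleEnd (S := F) (K := k) W p σ) =
      ((modularCyclotomicCharacter k hcard (σ : k ≃+* k) : (ZMod p)ˣ) : ZMod p) := by
  rw [det_galoisRepModuleEnd_eq_of_forall_pow W p hpk σ
    ((modularCyclotomicCharacter k hcard (σ : k ≃+* k) : (ZMod p)ˣ) : ZMod p).val fun ζ hζ => ?_,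
    ZMod.natCast_zmod_val]
  have hu : IsUnit ζ := by
    refine isUnit_iff_ne_zero.mpr fun h => ?_
    rw [h, zero_pow hp.out.ne_zero] at hζ
    exact zero_ne_one hζ
  have ht : hu.unit ∈ rootsOfUnity p k := by
    rw [mem_rootsOfUnity]
    exact Units.ext (by simp [hζ])
  simpa using modularCyclotomicCharacter.spec k hcard (σ : k ≃+* k) ht

end General

local notation "Qbar" => AlgebraicClosure ℚ

variable (W : WeierstrassCurve ℚ) [W.IsElliptic] (p : ℕ) [Fact p.Prime]

theorem isElliptic_qbar : (W⁄Qbar).toAffine.IsElliptic :=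
  inferInstanceAs (W.map (algebraMap ℚ Qbar)).IsElliptic

theorem det_galoisRepModuleEnd (σ : Qbar ≃ₐ[ℚ] Qbar) :
    LinearMap.det (galoisRepModuleEnd (S := ℚ) (K := Qbar) W p σ) =
      ((modularCyclotomicCharacter Qbar (IsAlgClosed.card_rootsOfUnity_eq Qbar p)
        (σ : Qbar ≃+* Qbar) : (ZMod p)ˣ) : ZMod p) :=
  haveI := isElliptic_qbar W
  det_galoisRepModuleEnd_general W p (Nat.cast_ne_zero.mpr (Fact.out : p.Prime).ne_zero)
    (IsAlgClosed.card_rootsOfUnity_eq Qbar p) σ

theorem galoisRepDetEqCyclotomic (hn : Nat.card (rootsOfUnity p Qbar) = p) :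
    GaloisRepDetEqCyclotomic (K := Qbar) ℚ W p hn := by
  intro σ
  refine Units.ext ?_
  rw [galoisRepDet_apply, LinearEquiv.coe_det]
  exact det_galoisRepModuleEnd W p σ

/-- The determinant in terms of `cycloChar`. -/
theorem det_galoisRepModuleEnd_eq_cycloChar (σ : Qbar ≃ₐ[ℚ] Qbar) :
    LinearMap.det (galoisRepModuleEnd (S := ℚ) (K := Qbar) W p σ) =
      ((ExtCitation.cycloChar p σ : (ZMod p)ˣ) : ZMod p) :=
  det_galoisRepModuleEnd W p σ

theorem det_galoisRepModuleEnd_three (σ : Qbar ≃ₐ[ℚ] Qbar) :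
    haveI : Fact (Nat.Prime 3) := ⟨Nat.prime_three⟩
    LinearMap.det (galoisRepModuleEnd (S := ℚ) (K := Qbar) W 3 σ) =
      ((WeierstrassCurve.modThreeCyclotomicChar σ : (ZMod 3)ˣ) : ZMod 3) :=
  haveI : Fact (Nat.Prime 3) := ⟨Nat.prime_three⟩
  det_galoisRepModuleEnd W 3 σ

end

end FLTAgent.WeilPairing
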