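import Mathlib.AlgebraicGeometry.EllipticCurve.Affine.Point
import Mathlib.RingTheory.DedekindDomain.AdicValuation
import Mathlib.RingTheory.Finiteness.Nakayama
import Mathlib.RingTheory.Jacobson.Ring
import Mathlib.FieldTheory.IsAlgClosed.Basic

/-!
# The coordinate ring of an elliptic curve over an algebraically closed field is Dedekind

Every maximal ideal is `⟨X - x, Y - y⟩` for a point `(x, y)` of the curve, hence invertible, and
a noetherian domain all whose maximal ideals are invertible is a Dedekind domain.
-/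

set_option autoImplicit false

open scoped nonZeroDivisors Polynomial.Bivariate
open Polynomial
open WeierstrassCurve WeierstrassCurve.Affine WeierstrassCurve.Affine.CoordinateRing

namespace FLTAgent.WeilPairing

section Generic

variable {A : Type*} [CommRing A] [IsDomain A]

/-- A noetherian domain in which every maximal ideal is invertible has all nonzero ideals
invertible. -/
theorem isUnit_coeIdeal_of_forall_maximal [IsNoetherianRing A]
    (h : ∀ m : Ideal A, m.IsMaximal → IsUnit (m : FractionalIdeal A⁰ (FractionRing A)))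
    (I : Ideal A) (hI : I ≠ ⊥) : IsUnit (I : FractionalIdeal A⁰ (FractionRing A)) := by
  revert hI
  induction I using WellFoundedGT.induction with
  | ind I ih =>
    intro hI
    by_cases htop : I = ⊤
    · subst htop; simp
    obtain ⟨m, hm, hIm⟩ := Ideal.exists_le_maximal I htop
    obtain ⟨u, hu⟩ := h m hm
    have hle : (I : FractionalIdeal A⁰ (FractionRing A)) * ↑u⁻¹ ≤ 1 := by
      calc (I : FractionalIdeal A⁰ (FractionRing A)) * ↑u⁻¹
          ≤ (m : FractionalIdeal A⁰ (FractionRing A)) * ↑u⁻¹ := by
            gcongr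
        _ = 1 := by rw [← hu, Units.mul_inv]
    obtain ⟨J, hJ⟩ := FractionalIdeal.le_one_iff_exists_coeIdeal.mp hle
    have hIJ : I = J * m := by
      apply FractionalIdeal.coeIdeal_injective (K := FractionRing A)
      beta_reduce
      rw [FractionalIdeal.coeIdeal_mul, hJ, ← hu, mul_assoc, Units.inv_mul, mul_one]
    have hlt : I < J := by
      refine lt_of_le_of_ne (hIJ ▸ Ideal.mul_le_left) fun hEq => ?_
      have hin : I ≤ m • I := by
        rw [smul_eq_mul, mul_comm]
        exact le_of_eq (by nth_rw 1 [hIJ]; rw [hEq])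
      obtain ⟨r, hr, hr0⟩ := Submodule.exists_sub_one_mem_and_smul_eq_zero_of_fg_of_le_smul m I
        (IsNoetherian.noetherian I) hin
      obtain ⟨a, ha, ha0⟩ := (Submodule.ne_bot_iff _).mp hI
      have := hr0 a ha
      rw [smul_eq_mul, mul_eq_zero, or_iff_left ha0] at this
      subst this
      exact hm.ne_top ((Ideal.eq_top_iff_one m).mpr (by simpa using m.neg_mem hr))
    have hJ0 : J ≠ ⊥ := fun e => hI (le_bot_iff.mp (e ▸ hlt.le))
    rw [hIJ, FractionalIdeal.coeIdeal_mul]
    exact (ih J hlt hJ0).mul ⟨u, hu⟩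

theorem isDedekindDomain_of_forall_maximal_isUnit [IsNoetherianRing A]
    (h : ∀ m : Ideal A, m.IsMaximal → IsUnit (m : FractionalIdeal A⁰ (FractionRing A))) :
    IsDedekindDomain A := by
  refine (isDedekindDomain_iff_mul_inv_cancel (K := FractionRing A)).mpr fun I hI => ?_
  obtain ⟨a, J, ha, hJ⟩ := FractionalIdeal.exists_eq_spanSingleton_mul I
  have hJ0 : J ≠ ⊥ := by
    rintro rfl
    exact hI (by rw [hJ]; simp)
  have hs : IsUnit (FractionalIdeal.spanSingleton A⁰ ((algebraMap A (FractionRing A) a)⁻¹)) := by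
    refine IsUnit.of_mul_eq_one (FractionalIdeal.spanSingleton A⁰ (algebraMap A (FractionRing A) a)) ?_
    rw [FractionalIdeal.spanSingleton_mul_spanSingleton, inv_mul_cancel₀,
      FractionalIdeal.spanSingleton_one]
    exact (map_ne_zero_iff _ (IsFractionRing.injective A (FractionRing A))).mpr ha
  obtain ⟨u, hu⟩ := hs.mul (isUnit_coeIdeal_of_forall_maximal h J hJ0)
  rw [FractionalIdeal.mul_inv_cancel_iff_isUnit]
  exact ⟨u, hu.trans hJ.symm⟩

end Generic

variable {k : Type*} [Field k] {W : Affine k}

theorem isMaximal_XYIdeal {x y : k} (h : W.Equation x y) : (XYIdeal W x (C y)).IsMaximal :=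
  Ideal.Quotient.maximal_of_isField _
    ((quotientXYIdealEquiv h).toMulEquiv.isField (Field.toIsField k))

instance finiteType_coordinateRing : Algebra.FiniteType k W.CoordinateRing := by
  have : Module.Finite k[X] W.CoordinateRing :=
    Module.Finite.of_basis (CoordinateRing.basis W)
  exact Algebra.FiniteType.trans (S := k[X]) inferInstance inferInstance

variable [IsAlgClosed k] [W.IsElliptic]

theorem exists_eq_XYIdeal (M : Ideal W.CoordinateRing) [hM : M.IsMaximal] :
    ∃ x y : k, ∃ _ : W.Nonsingular x y, M = XYIdeal W x (C y) := by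
  let : Field (W.CoordinateRing ⧸ M) := Ideal.Quotient.field M
  have : Algebra.FiniteType k (W.CoordinateRing ⧸ M) :=
    .of_surjective (Ideal.Quotient.mkₐ k M) (Ideal.Quotient.mkₐ_surjective k M)
  have : Module.Finite k (W.CoordinateRing ⧸ M) := finite_of_finite_type_of_isJacobsonRing k _
  have hb := IsAlgClosed.algebraMap_bijective_of_isIntegral (k := k) (K := W.CoordinateRing ⧸ M)
  let e : k ≃+* W.CoordinateRing ⧸ M := RingEquiv.ofBijective _ hb
  let v : k[X][Y] →+* k := (e.symm.toRingHom.comp (Ideal.Quotient.mk M)).comp (mk W)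
  have hvC : ∀ c : k, v (C (C c)) = c := fun c => e.symm_apply_eq.mpr rfl
  let x := v (C X)
  let y := v Y
  have hv : v = Polynomial.evalEvalRingHom x y := by
    ext c <;> simp [x, y, hvC]
  have hker : ∀ f : k[X][Y], f.evalEval x y = 0 ↔ mk W f ∈ M := fun f => by
    rw [← Polynomial.coe_evalEvalRingHom, ← hv, ← Ideal.Quotient.eq_zero_iff_mem]
    exact map_eq_zero_iff e.symm.toRingHom e.symm.injective
  have heq : W.Equation x y := (hker _).mpr (by simp [AdjoinRoot.mk_self])
  refine ⟨x, y, equation_iff_nonsingular.mp heq, ?_⟩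
  refine ((isMaximal_XYIdeal heq).eq_of_le hM.ne_top ?_).symm
  rw [XYIdeal, Ideal.span_le]
  rintro f (rfl | rfl)
  · exact (hker _).mp (by simp [evalEval_C])
  · exact (hker _).mp (by simp [evalEval_C])

instance isDedekindDomain_coordinateRing : IsDedekindDomain W.CoordinateRing := by
  refine isDedekindDomain_of_forall_maximal_isUnit fun m hm => ?_
  obtain ⟨x, y, h, rfl⟩ := exists_eq_XYIdeal m
  exact ⟨XYIdeal' h, rfl⟩

end FLTAgent.WeilPairing
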