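import Fermat.Agent.WeilPairing.Galois
import Fermat.Prelude.Def_FLTPrelim_GaloisRep
import Fermat.Agent.Torsion.Structure
import Mathlib.LinearAlgebra.Determinant
import Mathlib.LinearAlgebra.Trace

/-!
# Determinants of endomorphisms of `E[p]` from the Weil pairing
-/

set_option autoImplicit false
set_option linter.unusedSectionVars false

open scoped WeierstrassCurve.Affine
open WeierstrassCurve WeierstrassCurve.Affine

namespace FLTAgent.WeilPairing

noncomputable section

variable {F k : Type*} [CommRing F] [Field k] [Algebra F k] {W' : Affine F} [IsAlgClosed k]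
  [(W'⁄k).IsElliptic] [DecidableEq k] {p : ℕ} [hp : Fact p.Prime]

/-- The torsion, seen from the pairing. -/
def toTors (x : Submodule.torsionBy ℤ (W'⁄k).Point (p : ℤ)) : Tors (W'⁄k) p :=
  ⟨(x : (W'⁄k).Point), x.2⟩

/-- The Weil pairing on the torsion of a base changed curve. -/
def pairing (hpk : (p : k) ≠ 0) (S T : Submodule.torsionBy ℤ (W'⁄k).Point (p : ℤ)) : k :=
  weilPairing (W := (W'⁄k)) hpk (toTors S) (toTors T)

theorem pairing_add_left (hpk : (p : k) ≠ 0) (S S' T : Submodule.torsionBy ℤ (W'⁄k).Point (p : ℤ)) :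
    pairing hpk (S + S') T = pairing hpk S T * pairing hpk S' T :=
  weilPairing_add_left hpk (toTors S) (toTors S') (toTors T)

theorem pairing_add_right (hpk : (p : k) ≠ 0) (S T T' : Submodule.torsionBy ℤ (W'⁄k).Point (p : ℤ)) :
    pairing hpk S (T + T') = pairing hpk S T * pairing hpk S T' :=
  weilPairing_add_right hpk (toTors S) (toTors T) (toTors T')

theorem pairing_self (hpk : (p : k) ≠ 0) (T : Submodule.torsionBy ℤ (W'⁄k).Point (p : ℤ)) :
    pairing hpk T T = 1 :=
  weilPairing_self hpk (toTors T)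

theorem pairing_swap (hpk : (p : k) ≠ 0) (S T : Submodule.torsionBy ℤ (W'⁄k).Point (p : ℤ)) :
    pairing hpk S T * pairing hpk T S = 1 :=
  weilPairing_swap hpk (toTors S) (toTors T)

theorem pairing_pow (hpk : (p : k) ≠ 0) (S T : Submodule.torsionBy ℤ (W'⁄k).Point (p : ℤ)) :
    pairing hpk S T ^ p = 1 :=
  weilPairing_pow hpk (toTors S) (toTors T)

theorem pairing_smul_left (hpk : (p : k) ≠ 0) (a : ZMod p)
    (S T : Submodule.torsionBy ℤ (W'⁄k).Point (p : ℤ)) :
    pairing hpk (a • S) T = pairing hpk S T ^ a.val := by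
  conv_lhs => rw [← ZMod.natCast_zmod_val a, Nat.cast_smul_eq_nsmul]
  exact weilPairing_nsmul_left hpk a.val (toTors S) (toTors T)

theorem pairing_smul_right (hpk : (p : k) ≠ 0) (a : ZMod p)
    (S T : Submodule.torsionBy ℤ (W'⁄k).Point (p : ℤ)) :
    pairing hpk S (a • T) = pairing hpk S T ^ a.val := by
  have h1 := pairing_swap hpk S (a • T)
  have h2 := congrArg (· ^ a.val) (pairing_swap hpk S T)
  simp only [mul_pow, one_pow] at h2
  rw [pairing_smul_left] at h1
  exact mul_right_cancel₀ (pow_ne_zero _ (weilPairing_ne_zero hpk (toTors T) (toTors S)))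
    (h1.trans h2.symm)

theorem pow_eq_pow_iff {ζ : k} (hζ : ζ ^ p = 1) (hζ1 : ζ ≠ 1) {a b : ℕ} :
    ζ ^ a = ζ ^ b ↔ (a : ZMod p) = b := by
  have hord : orderOf ζ = p := orderOf_eq_prime hζ hζ1
  have hne : ζ ≠ 0 := fun h => by rw [h, zero_pow hp.out.ne_zero] at hζ; exact zero_ne_one hζ
  have hord' : orderOf (Units.mk0 ζ hne) = p := by rw [← orderOf_units, Units.val_mk0, hord]
  rw [ZMod.natCast_eq_natCast_iff', ← hord', ← pow_inj_mod, Units.ext_iff, Units.val_pow_eq_pow_val,
    Units.val_pow_eq_pow_val, Units.val_mk0]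

/-- An endomorphism of `E[p]` multiplying the pairing by the power `m` has determinant `m`. -/
theorem det_eq_of_pairing (hpk : (p : k) ≠ 0)
    (f : Module.End (ZMod p) (Submodule.torsionBy ℤ (W'⁄k).Point (p : ℤ))) (m : ℕ)
    (hf : ∀ S T, pairing hpk (f S) (f T) = pairing hpk S T ^ m) :
    LinearMap.det f = (m : ZMod p) := by
  have hfr : Module.finrank (ZMod p) (Submodule.torsionBy ℤ (W'⁄k).Point (p : ℤ)) = 2 :=
    FLTAgent.Torsion.finrank_torsionBy_prime W' p hpk
  have : Module.Finite (ZMod p) (Submodule.torsionBy ℤ (W'⁄k).Point (p : ℤ)) :=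
    Module.finite_of_finrank_eq_succ hfr
  let b := Module.finBasisOfFinrankEq (ZMod p) (Submodule.torsionBy ℤ (W'⁄k).Point (p : ℤ)) hfr
  have hsum : ∀ S, S = b.repr S 0 • b 0 + b.repr S 1 • b 1 := fun S => by
    conv_lhs => rw [← b.sum_repr S, Fin.sum_univ_two]
  set ζ := pairing hpk (b 0) (b 1) with hζ
  have hζp : ζ ^ p = 1 := pairing_pow hpk _ _
  have hζ1 : ζ ≠ 1 := by
    intro h1
    apply b.ne_zero 1
    have := eq_zero_of_forall_weilPairing_eq_one hpk (T := toTors (b 1)) fun S => by
      show pairing hpk ⟨(S : (W'⁄k).Point), S.2⟩ (b 1) = 1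
      rw [hsum ⟨(S : (W'⁄k).Point), S.2⟩, pairing_add_left, pairing_smul_left, pairing_smul_left,
        ← hζ, h1, pairing_self, one_pow, one_pow, one_mul]
    exact Subtype.ext (congrArg (fun t : Tors (W'⁄k) p => (t : (W'⁄k).Point)) this)
  set M := LinearMap.toMatrix b b f with hM
  have hcol : ∀ j, f (b j) = M 0 j • b 0 + M 1 j • b 1 := fun j => by
    rw [hsum (f (b j)), hM, LinearMap.toMatrix_apply, LinearMap.toMatrix_apply]
  have hswap : pairing hpk (b 1) (b 0) * ζ = 1 := pairing_swap hpk _ _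
  have key := hf (b 0) (b 1)
  rw [hcol, hcol, pairing_add_left, pairing_add_right, pairing_add_right, pairing_smul_left,
    pairing_smul_left, pairing_smul_left, pairing_smul_left, pairing_smul_right,
    pairing_smul_right, pairing_smul_right, pairing_smul_right, pairing_self, pairing_self,
    ← hζ] at key
  simp only [one_pow, one_mul, mul_one, ← pow_mul] at key
  have h2 : (pairing hpk (b 1) (b 0)) ^ ((M 0 1).val * (M 1 0).val) *
      ζ ^ ((M 0 1).val * (M 1 0).val) = 1 := by rw [← mul_pow, hswap, one_pow]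
  have key2 : ζ ^ ((M 1 1).val * (M 0 0).val) = ζ ^ (m + (M 0 1).val * (M 1 0).val) := by
    rw [pow_add, ← key, mul_assoc, h2, mul_one]
  rw [pow_eq_pow_iff hζp hζ1] at key2
  simp only [Nat.cast_add, Nat.cast_mul, ZMod.natCast_zmod_val] at key2
  rw [← LinearMap.det_toMatrix b, ← hM, Matrix.det_fin_two]
  linear_combination key2

end

end FLTAgent.WeilPairing
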