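import Fermat.Agent.WeilPairing.Valuation
import Mathlib.RingTheory.Ideal.Norm.RelNorm
import Mathlib.RingTheory.IntegralClosure.IntegralRestrict
import Mathlib.Data.Finsupp.Multiset
import Mathlib.Algebra.BigOperators.Finsupp.Basic

/-!
# Principal divisors on an elliptic curve

A divisor is principal iff it has degree zero and the sum of its points is zero.
-/

set_option autoImplicit false
set_option linter.unusedSectionVars false

open scoped nonZeroDivisors Polynomial.Bivariate
open Polynomial WithZero UniqueFactorizationMonoid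
open WeierstrassCurve WeierstrassCurve.Affine WeierstrassCurve.Affine.CoordinateRing

namespace FLTAgent.WeilPairing

noncomputable section

variable {k : Type*} [Field k] {W : Affine k} [IsAlgClosed k] [W.IsElliptic]

theorem finite_coordinateRing : Module.Finite k[X] W.CoordinateRing :=
  Module.Finite.of_basis (CoordinateRing.basis W)

local instance : Module.Finite k[X] W.CoordinateRing := finite_coordinateRing

/-- The ideal of an affine point, and the unit ideal for the point at infinity. -/
def idealOf : W.Point → Ideal W.CoordinateRing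
  | .zero => ⊤
  | .some x y _ => XYIdeal W x (C y)

/-- The invertible fractional ideal of a point. -/
def idealUnit : W.Point → (FractionalIdeal W.CoordinateRing⁰ W.FunctionField)ˣ
  | .zero => 1
  | .some _ _ h => XYIdeal' h

theorem coe_idealUnit (P : W.Point) :
    (idealUnit P : FractionalIdeal W.CoordinateRing⁰ W.FunctionField) = idealOf P := by
  rcases P with _ | _
  · simp [idealUnit, idealOf]
  · rfl

theorem toClass_eq [DecidableEq k] (P : W.Point) :
    Point.toClass P = Additive.ofMul (ClassGroup.mk W.FunctionField (idealUnit P)) := by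
  rcases P with _ | ⟨x, y, h⟩
  · simp [idealUnit, ← Point.zero_def]
  · exact Point.toClass_some h

theorem idealOf_isMaximal {P : W.Point} (hP : P ≠ 0) : (idealOf P).IsMaximal := by
  rcases P with _ | ⟨x, y, h⟩
  · exact absurd rfl hP
  · exact isMaximal_XYIdeal h.left

theorem idealOf_ne_bot (P : W.Point) : idealOf P ≠ ⊥ := by
  rcases P with _ | ⟨x, y, h⟩
  · exact top_ne_bot
  · exact (heightOne h).ne_bot

theorem idealOf_prime {P : W.Point} (hP : P ≠ 0) : Prime (idealOf P) :=
  Ideal.prime_of_isPrime (idealOf_ne_bot P) (idealOf_isMaximal hP).isPrime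

theorem eq_of_XYIdeal_eq {x y x' y' : k} (h : W.Nonsingular x y)
    (he : XYIdeal W x (C y) = XYIdeal W x' (C y')) : x = x' ∧ y = y' := by
  have hI : ∀ c : k, algebraMap k W.CoordinateRing c ∈ XYIdeal W x (C y) → c = 0 := fun c hc => by
    by_contra hc0
    exact (isMaximal_XYIdeal h.left).ne_top
      (Ideal.eq_top_of_isUnit_mem _ hc ((Ne.isUnit hc0).map _))
  have hcc : ∀ c : k, algebraMap k W.CoordinateRing c = mk W (C (C c)) := fun c => rfl
  constructor
  · have hmem := (XYIdeal W x (C y)).sub_mem (Ideal.subset_span (Set.mem_insert _ _))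
      (he.symm ▸ Ideal.subset_span (Set.mem_insert _ _) : XClass W x' ∈ XYIdeal W x (C y))
    rw [XClass, XClass, ← map_sub, ← C_sub, sub_sub_sub_cancel_left, ← C_sub, ← hcc] at hmem
    exact (sub_eq_zero.mp (hI _ hmem)).symm
  · have hmem := (XYIdeal W x (C y)).sub_mem
      (Ideal.subset_span (Set.mem_insert_of_mem _ rfl))
      (he.symm ▸ Ideal.subset_span (Set.mem_insert_of_mem _ rfl) :
        YClass W (C y') ∈ XYIdeal W x (C y))
    rw [YClass, YClass, ← map_sub, sub_sub_sub_cancel_left, ← C_sub, ← C_sub, ← hcc] at hmem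
    exact (sub_eq_zero.mp (hI _ hmem)).symm

theorem idealOf_injective : Function.Injective (idealOf (W := W)) := by
  rintro (_ | ⟨x, y, h⟩) (_ | ⟨x', y', h'⟩) he
  · rfl
  · exact absurd he.symm (isMaximal_XYIdeal h'.left).ne_top
  · exact absurd he (isMaximal_XYIdeal h.left).ne_top
  · obtain ⟨rfl, rfl⟩ := eq_of_XYIdeal_eq h he
    rfl

theorem exists_multiset (I : Ideal W.CoordinateRing) (hI : I ≠ ⊥) :
    ∃ S : Multiset W.Point, (0 : W.Point) ∉ S ∧ (S.map idealOf).prod = I := by
  induction I using UniqueFactorizationMonoid.induction_on_prime with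
  | h₁ => exact absurd rfl hI
  | h₂ J hJ => exact ⟨0, by simp, by rw [Ideal.isUnit_iff.mp hJ]; simp⟩
  | h₃ J P hJ hP ih =>
    have hJ' : J ≠ ⊥ := hJ
    obtain ⟨S, hS, rfl⟩ := ih hJ'
    have := (Ideal.isPrime_of_prime hP).isMaximal hP.ne_zero
    obtain ⟨x, y, h, rfl⟩ := exists_eq_XYIdeal P
    refine ⟨Point.some x y h ::ₘ S, ?_, by simp [idealOf]⟩
    simpa [eq_comm] using hS

theorem normalizedFactors_prod_idealOf {S : Multiset W.Point} (hS : (0 : W.Point) ∉ S) :
    normalizedFactors (S.map idealOf).prod = S.map idealOf := by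
  refine normalizedFactors_prod_of_prime fun J hJ => ?_
  obtain ⟨P, hP, rfl⟩ := Multiset.mem_map.mp hJ
  exact idealOf_prime fun h0 => hS (h0 ▸ hP)

theorem ord_eq_count [DecidableEq W.Point] {S : Multiset W.Point} (hS : (0 : W.Point) ∉ S)
    {a : W.CoordinateRing} (ha : a ≠ 0) (hprod : (S.map idealOf).prod = Ideal.span {a})
    {x y : k} (h : W.Nonsingular x y) :
    ord (Point.some x y h) (algebraMap W.CoordinateRing W.FunctionField a) =
      S.count (Point.some x y h) := by
  classical
  have hs : Ideal.span {a} ≠ 0 := by simpa using ha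
  have hirr : Irreducible (XYIdeal W x (C y)) :=
    (idealOf_prime (Point.some_ne_zero h)).irreducible
  have hmult : emultiplicity (heightOne h).asIdeal (Ideal.span {a}) =
      (S.count (Point.some x y h) : ℕ∞) := by
    rw [emultiplicity_eq_count_normalizedFactors (by exact hirr) hs, normalize_eq, ← hprod,
      normalizedFactors_prod_idealOf hS]
    exact congrArg Nat.cast
      (Multiset.count_map_eq_count' idealOf S idealOf_injective (Point.some x y h))
  simp only [ord, valAt]
  rw [IsDedekindDomain.HeightOneSpectrum.valuation_of_algebraMap,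
    (heightOne h).intValuation_eq_exp_neg_multiplicity ha,
    multiplicity_eq_of_emultiplicity_eq_some hmult, log_exp, neg_neg]

theorem relNorm_XYIdeal {x y : k} (h : W.Nonsingular x y) :
    Ideal.relNorm k[X] (XYIdeal W x (C y)) = Ideal.span {X - C x} := by
  have hne : Ideal.span {X - C x} ≠ (⊤ : Ideal k[X]) := by
    rw [Ne, Ideal.span_singleton_eq_top]
    exact not_isUnit_X_sub_C x
  have hmax : (Ideal.span {X - C x} : Ideal k[X]).IsMaximal :=
    PrincipalIdealRing.isMaximal_of_irreducible (irreducible_X_sub_C x)
  have hle : ∀ z : k, W.Nonsingular x z →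
      Ideal.relNorm k[X] (XYIdeal W x (C z)) ≤ Ideal.span {X - C x} := by
    intro z hz
    refine (Ideal.relNorm_le_comap k[X] _).trans ?_
    have hm := (isMaximal_XYIdeal hz.left).ne_top
    refine (hmax.eq_of_le (fun e => hm ?_) ?_).ge
    · rw [Ideal.eq_top_iff_one] at e ⊢
      simpa using e
    · rw [Ideal.span_le, Set.singleton_subset_iff]
      exact Ideal.subset_span (Set.mem_insert _ _)
  have hmul := congrArg (Ideal.relNorm k[X]) (XYIdeal_neg_mul h)
  rw [map_mul, XIdeal, Ideal.relNorm_singleton, Algebra.intNorm_eq_norm,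
    show XClass W x = algebraMap k[X] W.CoordinateRing (X - C x) from rfl,
    Algebra.norm_algebraMap_of_basis (CoordinateRing.basis W), Fintype.card_fin, pow_two,
    ← Ideal.span_singleton_mul_span_singleton] at hmul
  have h0 : (Ideal.span {X - C x} : Ideal k[X]) ≠ 0 := by simpa using X_sub_C_ne_zero x
  obtain ⟨A, hA⟩ := Ideal.dvd_iff_le.mpr (hle _ ((nonsingular_neg ..).mpr h))
  obtain ⟨B, hB⟩ := Ideal.dvd_iff_le.mpr (hle y h)
  rw [hA, hB, mul_mul_mul_comm] at hmul
  have hAB : A * B = 1 := by
    apply mul_left_cancel₀ (mul_ne_zero h0 h0)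
    rw [hmul, mul_one]
  have hBu : B = ⊤ := Ideal.isUnit_iff.mp (IsUnit.of_mul_eq_one A (by rw [mul_comm]; exact hAB))
  rw [hB, hBu, Ideal.mul_top]

theorem card_eq_natDegree_norm {S : Multiset W.Point} (hS : (0 : W.Point) ∉ S)
    {a : W.CoordinateRing} (hprod : (S.map idealOf).prod = Ideal.span {a}) :
    S.card = (Algebra.norm k[X] a).natDegree := by
  let xOf : W.Point → k := fun P => match P with
    | .zero => 0
    | .some x _ _ => x
  have key : ∀ T : Multiset W.Point, (0 : W.Point) ∉ T →
      Ideal.relNorm k[X] (T.map idealOf).prod =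
        Ideal.span {(T.map fun P => X - C (xOf P)).prod} := by
    intro T
    induction T using Multiset.induction_on with
    | empty => intro _; simp
    | cons P T ih =>
      intro hT
      rw [Multiset.map_cons, Multiset.prod_cons, map_mul, ih (fun h => hT (Multiset.mem_cons_of_mem h)),
        Multiset.map_cons, Multiset.prod_cons, ← Ideal.span_singleton_mul_span_singleton]
      rcases P with _ | ⟨x, y, h⟩
      · exact absurd (Multiset.mem_cons_self _ _) hT
      · rw [idealOf, relNorm_XYIdeal h]
  have h := key S hS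
  rw [hprod, Ideal.relNorm_singleton, Algebra.intNorm_eq_norm,
    Ideal.span_singleton_eq_span_singleton] at h
  rw [natDegree_eq_of_degree_eq (degree_eq_degree_of_associated h),
    natDegree_multiset_prod_of_monic _ (fun f hf => by
      obtain ⟨P, -, rfl⟩ := Multiset.mem_map.mp hf; exact monic_X_sub_C _)]
  simp [Multiset.map_map]

theorem sum_eq_zero_of_prod_eq_span [DecidableEq k] {S : Multiset W.Point}
    {a : W.CoordinateRing} (ha : a ≠ 0) (hprod : (S.map idealOf).prod = Ideal.span {a}) :
    S.sum = 0 := by
  rw [← Point.toClass_eq_zero, map_multiset_sum]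
  have hu : ∀ T : Multiset W.Point,
      ((T.map idealUnit).prod : FractionalIdeal W.CoordinateRing⁰ W.FunctionField) =
        ((T.map idealOf).prod : Ideal W.CoordinateRing) := by
    intro T
    induction T using Multiset.induction_on with
    | empty => simp
    | cons P T ih => simp [ih, coe_idealUnit]
  have hm : (S.map Point.toClass).sum =
      Additive.ofMul (ClassGroup.mk W.FunctionField (S.map idealUnit).prod) := by
    rw [map_multiset_prod, Multiset.map_map]
    have : S.map Point.toClass =
        (S.map (ClassGroup.mk W.FunctionField ∘ idealUnit)).map Additive.ofMul := by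
      rw [Multiset.map_map]; exact Multiset.map_congr rfl fun P _ => toClass_eq P
    rw [this, ← ofMul_multiset_prod]
  rw [hm, ofMul_eq_zero, ClassGroup.mk_eq_one_of_coe_ideal (hu S)]
  exact ⟨a, ha, hprod⟩

/-- The zeros of a regular function, with multiplicities. -/
theorem exists_zeros [DecidableEq k] [DecidableEq W.Point] {a : W.CoordinateRing} (ha : a ≠ 0) :
    ∃ S : Multiset W.Point, (0 : W.Point) ∉ S ∧ S.sum = 0 ∧
      (∀ P : W.Point, ord P (algebraMap W.CoordinateRing W.FunctionField a) =
        (S.count P : ℤ) - if P = 0 then (S.card : ℤ) else 0) := by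
  obtain ⟨S, hS, hprod⟩ := exists_multiset (Ideal.span {a}) (by simpa using ha)
  refine ⟨S, hS, sum_eq_zero_of_prod_eq_span ha hprod, fun P => ?_⟩
  rcases P with _ | ⟨x, y, h⟩
  · simp [← Point.zero_def, ord_zero_algebraMap ha, Multiset.count_eq_zero.mpr hS,
      card_eq_natDegree_norm hS hprod]
  · rw [ord_eq_count hS ha hprod h, if_neg (Point.some_ne_zero h), sub_zero]

/-- Degree of a divisor. -/
def degree : (W.Point →₀ ℤ) →+ ℤ := Finsupp.liftAddHom fun _ => AddMonoidHom.id ℤ

/-- Sum of the points of a divisor in the group law. -/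
def pointSum [DecidableEq k] : (W.Point →₀ ℤ) →+ W.Point :=
  Finsupp.liftAddHom fun P => zmultiplesHom W.Point P

@[simp] theorem degree_single (P : W.Point) (m : ℤ) : degree (Finsupp.single P m) = m := by
  simp [degree]

@[simp] theorem pointSum_single [DecidableEq k] (P : W.Point) (m : ℤ) :
    pointSum (Finsupp.single P m) = m • P := by
  simp [pointSum]

/-- The divisor of a multiset of points. -/
def divisorOf (S : Multiset W.Point) : W.Point →₀ ℤ :=
  (S.map fun P => Finsupp.single P (1 : ℤ)).sum

theorem divisorOf_apply [DecidableEq W.Point] (S : Multiset W.Point) (P : W.Point) :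
    divisorOf S P = S.count P := by
  induction S using Multiset.induction_on with
  | empty => simp [divisorOf]
  | cons Q T ih =>
    simp only [divisorOf, Multiset.map_cons, Multiset.sum_cons, Finsupp.add_apply] at ih ⊢
    rw [ih, Multiset.count_cons, Finsupp.single_apply, Nat.cast_add, add_comm]
    simp [eq_comm]

theorem degree_divisorOf (S : Multiset W.Point) : degree (divisorOf S) = S.card := by
  simp [divisorOf, map_multiset_sum]

theorem pointSum_divisorOf [DecidableEq k] (S : Multiset W.Point) :
    pointSum (divisorOf S) = S.sum := by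
  simp [divisorOf, map_multiset_sum]

theorem exists_divisor [DecidableEq k] {f : W.FunctionField} (hf : f ≠ 0) :
    ∃ D : W.Point →₀ ℤ, (∀ P, D P = ord P f) ∧ degree D = 0 ∧ pointSum D = 0 := by
  classical
  obtain ⟨a, b, hb, rfl⟩ := IsFractionRing.div_surjective (A := W.CoordinateRing) f
  have hb0 : b ≠ 0 := nonZeroDivisors.ne_zero hb
  have ha0 : a ≠ 0 := by rintro rfl; simp at hf
  obtain ⟨S, -, hS0, hS⟩ := exists_zeros ha0
  obtain ⟨T, -, hT0, hT⟩ := exists_zeros hb0
  refine ⟨divisorOf S - Finsupp.single 0 (S.card : ℤ) -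
    (divisorOf T - Finsupp.single 0 (T.card : ℤ)), fun P => ?_, ?_, ?_⟩
  · rw [ord_div P ((map_ne_zero_iff _ (IsFractionRing.injective _ _)).mpr ha0)
      ((map_ne_zero_iff _ (IsFractionRing.injective _ _)).mpr hb0), hS, hT]
    simp [divisorOf_apply, Finsupp.single_apply, eq_comm]
  · simp [degree_divisorOf]
  · simp [pointSum_divisorOf, hS0, hT0]

/-- The divisor of a nonzero function. -/
def divisor [DecidableEq k] (f : W.FunctionField) : W.Point →₀ ℤ :=
  letI := Classical.propDecidable (f = 0)
  if hf : f = 0 then 0 else (exists_divisor hf).choose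

theorem divisor_apply [DecidableEq k] (f : W.FunctionField) (P : W.Point) :
    divisor f P = ord P f := by
  rcases eq_or_ne f 0 with rfl | hf
  · simp [divisor]
  · rw [divisor, dif_neg hf]
    exact (exists_divisor hf).choose_spec.1 P

theorem degree_divisor [DecidableEq k] (f : W.FunctionField) : degree (divisor f) = 0 := by
  rcases eq_or_ne f 0 with rfl | hf
  · simp [divisor]
  · rw [divisor, dif_neg hf]
    exact (exists_divisor hf).choose_spec.2.1

theorem pointSum_divisor [DecidableEq k] (f : W.FunctionField) : pointSum (divisor f) = 0 := by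
  rcases eq_or_ne f 0 with rfl | hf
  · simp [divisor]
  · rw [divisor, dif_neg hf]
    exact (exists_divisor hf).choose_spec.2.2

end

end FLTAgent.WeilPairing
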