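import Fermat.Agent.WeilPairing.Pairing

/-!
# The Weil pairing commutes with field automorphisms fixing the coefficients
-/

set_option autoImplicit false
set_option linter.unusedSectionVars false

open scoped nonZeroDivisors Polynomial.Bivariate WeierstrassCurve.Affine
open Polynomial WithZero
open WeierstrassCurve WeierstrassCurve.Affine WeierstrassCurve.Affine.CoordinateRing

namespace FLTAgent.WeilPairing

noncomputable section

variable {F k : Type*} [CommRing F] [Field k] [Algebra F k] {W' : Affine F}

theorem galConj_equation (σ : k ≃ₐ[F] k) :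
    ((W'⁄k).map ((const (W'⁄k)).comp (σ : k →+* k))).toAffine.Equation
      (xfun (W'⁄k)) (yfun (W'⁄k)) := by
  have : (W'⁄k).map ((const (W'⁄k)).comp (σ : k →+* k)) =
      ((W'⁄k) : Affine k)⁄(W'⁄k).FunctionField := by
    ext <;> simp [WeierstrassCurve.baseChange, algebraMap_functionField]
  rw [this]
  exact functionField_equation

/-- The action of an automorphism of the base field on the coordinate ring. -/
def galConjRing (σ : k ≃ₐ[F] k) : (W'⁄k).CoordinateRing →+* (W'⁄k).FunctionField :=
  evalHom ((const (W'⁄k)).comp (σ : k →+* k)) (xfun (W'⁄k)) (yfun (W'⁄k)) (galConj_equation σ)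

theorem galConjRing_apply (σ : k ≃ₐ[F] k) (p q : k[X]) :
    galConjRing (W' := W') σ (p • 1 + q • CoordinateRing.mk (W'⁄k) Y) =
      algebraMap (W'⁄k).CoordinateRing (W'⁄k).FunctionField
        (p.map (σ : k →+* k) • 1 + q.map (σ : k →+* k) • CoordinateRing.mk (W'⁄k) Y) := by
  have hp : ∀ r : k[X], galConjRing (W' := W') σ (CoordinateRing.mk (W'⁄k) (C r)) =
      algebraMap (W'⁄k).CoordinateRing (W'⁄k).FunctionField
        (CoordinateRing.mk (W'⁄k) (C (r.map (σ : k →+* k)))) := by
    intro r
    have : (galConjRing (W' := W') σ).comp ((CoordinateRing.mk (W'⁄k)).comp C) =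
        ((algebraMap (W'⁄k).CoordinateRing (W'⁄k).FunctionField).comp
          ((CoordinateRing.mk (W'⁄k)).comp C)).comp (mapRingHom (σ : k →+* k)) := by
      refine Polynomial.ringHom_ext (fun c => ?_) ?_
      · simp only [RingHom.comp_apply, galConjRing, evalHom_mk_C_C, coe_mapRingHom, map_C]
        rfl
      · simp only [RingHom.comp_apply, galConjRing, evalHom_X, coe_mapRingHom, map_X]
        rfl
    exact DFunLike.congr_fun this r
  rw [CoordinateRing.smul, CoordinateRing.smul, mul_one, map_add, map_mul, hp, hp,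
    CoordinateRing.smul, CoordinateRing.smul, mul_one, map_add, map_mul,
    show galConjRing (W' := W') σ (CoordinateRing.mk (W'⁄k) Y) = yfun (W'⁄k) from evalHom_Y _ _ _ _]
  rfl

variable [IsAlgClosed k] [(W'⁄k).IsElliptic]

theorem degree_norm_map (σ : k ≃ₐ[F] k) (p q : k[X]) :
    (Algebra.norm k[X] (p.map (σ : k →+* k) • (1 : (W'⁄k).CoordinateRing) +
      q.map (σ : k →+* k) • CoordinateRing.mk (W'⁄k) Y)).degree =
    (Algebra.norm k[X] (p • (1 : (W'⁄k).CoordinateRing) + q • CoordinateRing.mk (W'⁄k) Y)).degree := by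
  rw [degree_norm_smul_basis, degree_norm_smul_basis,
    degree_map_eq_of_injective σ.injective, degree_map_eq_of_injective σ.injective]

theorem galConjRing_injective (σ : k ≃ₐ[F] k) :
    Function.Injective (galConjRing (W' := W') σ) := by
  rw [injective_iff_map_eq_zero]
  intro a ha
  obtain ⟨p, q, rfl⟩ := exists_smul_basis_eq a
  rw [galConjRing_apply, map_eq_zero_iff _ (IsFractionRing.injective _ _)] at ha
  obtain ⟨hp, hq⟩ := smul_basis_eq_zero ha
  rw [Polynomial.map_eq_zero] at hp hq
  simp [hp, hq]

/-- The action of an automorphism of the base field on functions. -/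
def galConj (σ : k ≃ₐ[F] k) : (W'⁄k).FunctionField →+* (W'⁄k).FunctionField :=
  IsFractionRing.lift (galConjRing_injective (W' := W') σ)

theorem galConj_algebraMap (σ : k ≃ₐ[F] k) (a : (W'⁄k).CoordinateRing) :
    galConj (W' := W') σ (algebraMap _ _ a) = galConjRing σ a :=
  IsFractionRing.lift_algebraMap _ _

@[simp] theorem galConj_const (σ : k ≃ₐ[F] k) (c : k) :
    galConj (W' := W') σ (const (W'⁄k) c) = const (W'⁄k) (σ c) :=
  (galConj_algebraMap σ _).trans (evalHom_algebraMap _ _ _ (galConj_equation σ) c)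

@[simp] theorem galConj_xfun (σ : k ≃ₐ[F] k) :
    galConj (W' := W') σ (xfun (W'⁄k)) = xfun (W'⁄k) :=
  (galConj_algebraMap σ _).trans (evalHom_X _ _ _ _)

@[simp] theorem galConj_yfun (σ : k ≃ₐ[F] k) :
    galConj (W' := W') σ (yfun (W'⁄k)) = yfun (W'⁄k) :=
  (galConj_algebraMap σ _).trans (evalHom_Y _ _ _ _)

theorem ord_zero_galConj (σ : k ≃ₐ[F] k) (f : (W'⁄k).FunctionField) :
    ord (0 : (W'⁄k).Point) (galConj (W' := W') σ f) = ord (0 : (W'⁄k).Point) f := by
  have key : ∀ a : (W'⁄k).CoordinateRing, a ≠ 0 →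
      ord (0 : (W'⁄k).Point) (galConjRing (W' := W') σ a) =
        ord (0 : (W'⁄k).Point) (algebraMap _ (W'⁄k).FunctionField a) := by
    intro a ha
    obtain ⟨p, q, rfl⟩ := exists_smul_basis_eq a
    have hne := (map_ne_zero_iff _ (galConjRing_injective (W' := W') σ)).mpr ha
    rw [galConjRing_apply] at hne ⊢
    rw [ord_zero_algebraMap ha, ord_zero_algebraMap ((map_ne_zero_iff _
      (IsFractionRing.injective _ _)).mp hne), natDegree_eq_of_degree_eq (degree_norm_map σ p q)]
  rcases eq_or_ne f 0 with rfl | hf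
  · simp
  obtain ⟨a, b, hb, rfl⟩ := IsFractionRing.div_surjective (A := (W'⁄k).CoordinateRing) f
  have ha : a ≠ 0 := by rintro rfl; simp at hf
  have hb' := nonZeroDivisors.ne_zero hb
  have inj := IsFractionRing.injective (W'⁄k).CoordinateRing (W'⁄k).FunctionField
  have inj' := galConjRing_injective (W' := W') σ
  rw [map_div₀, galConj_algebraMap, galConj_algebraMap,
    ord_div _ ((map_ne_zero_iff _ inj').mpr ha) ((map_ne_zero_iff _ inj').mpr hb'), key a ha,
    key b hb', ord_div _ ((map_ne_zero_iff _ inj).mpr ha) ((map_ne_zero_iff _ inj).mpr hb')]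

variable [DecidableEq k]

theorem translate_some_formula {W : Affine k} [W.IsElliptic] {a b : k} (h : W.Nonsingular a b) :
    translate (Point.some a b h) (xfun W) =
      ((yfun W - const W b) / (xfun W - const W a)) ^ 2 +
        const W W.a₁ * ((yfun W - const W b) / (xfun W - const W a)) - const W W.a₂ - xfun W -
        const W a ∧
    translate (Point.some a b h) (yfun W) =
      -(((yfun W - const W b) / (xfun W - const W a)) *
          (translate (Point.some a b h) (xfun W) - xfun W) + yfun W) -
        const W W.a₁ * translate (Point.some a b h) (xfun W) - const W W.a₃ := by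
  have hg := map_translate_gen (W := W) (Point.some a b h)
  obtain ⟨h', he⟩ := embedPt_some h
  obtain ⟨hd, -⟩ := ord_xfun_sub_const (W := W) a
  have hxne : xfun W ≠ const W a := sub_ne_zero.mp hd
  rw [he, gen, Point.map_some, Point.add_of_X_ne hxne, Point.some.injEq] at hg
  obtain ⟨hX, hY⟩ := hg
  rw [Affine.slope_of_X_ne hxne] at hX hY
  simp only [Affine.addX, Affine.addY, Affine.negAddY, Affine.negY, WeierstrassCurve.baseChange,
    WeierstrassCurve.map_a₁, WeierstrassCurve.map_a₂, WeierstrassCurve.map_a₃,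
    algebraMap_functionField] at hX hY
  exact ⟨hX, by rw [hY, hX]⟩

theorem galConj_translate (σ : k ≃ₐ[F] k) (P : (W'⁄k).Point) (f : (W'⁄k).FunctionField) :
    galConj (W' := W') σ (translate P f) =
      translate (Point.map (W' := W') σ.toAlgHom P) (galConj (W' := W') σ f) := by
  suffices (galConj (W' := W') σ).comp (translate P).toRingHom =
      (translate (Point.map (W' := W') σ.toAlgHom P)).toRingHom.comp (galConj (W' := W') σ) from
    DFunLike.congr_fun this f
  rcases P with _ | ⟨a, b, h⟩
  · ext g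
    simp [← Point.zero_def]
  rw [Point.map_some]
  have h1 := translate_some_formula h
  have h2 := translate_some_formula ((W'.baseChange_nonsingular σ.toAlgHom.injective a b).mpr h)
  refine IsLocalization.ringHom_ext (W'⁄k).CoordinateRing⁰ (coordinateRing_hom_ext (fun c => ?_) ?_ ?_)
  · change galConj (W' := W') σ (translate _ (const (W'⁄k) c)) =
      translate _ (galConj (W' := W') σ (const (W'⁄k) c))
    simp
  · change galConj (W' := W') σ (translate _ (xfun (W'⁄k))) =
      translate _ (galConj (W' := W') σ (xfun (W'⁄k)))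
    rw [galConj_xfun, h1.1, h2.1]
    simp [WeierstrassCurve.baseChange]
  · change galConj (W' := W') σ (translate _ (yfun (W'⁄k))) =
      translate _ (galConj (W' := W') σ (yfun (W'⁄k)))
    rw [galConj_yfun, h1.2, h2.2, h1.1, h2.1]
    simp [WeierstrassCurve.baseChange]

theorem ord_galConj (σ : k ≃ₐ[F] k) (P : (W'⁄k).Point) (f : (W'⁄k).FunctionField) :
    ord (Point.map (W' := W') σ.toAlgHom P) (galConj (W' := W') σ f) = ord P f := by
  rw [← ord_zero_translate, ← galConj_translate, ord_zero_galConj, ord_zero_translate]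

theorem map_mem_tors {n : ℕ} (σ : k →ₐ[F] k) (S : Tors (W'⁄k) n) :
    Point.map (W' := W') σ (S : (W'⁄k).Point) ∈ Tors (W'⁄k) n := by
  rw [Submodule.mem_torsionBy_iff, ← map_zsmul, tors_smul, map_zero]

/-- Equivariance of the Weil pairing. -/
theorem weilPairing_map {n : ℕ} (hn : (n : k) ≠ 0) (σ : k ≃ₐ[F] k) (S T : Tors (W'⁄k) n) :
    weilPairing hn (⟨_, map_mem_tors σ.toAlgHom S⟩ : Tors (W'⁄k) n)
      (⟨_, map_mem_tors σ.toAlgHom T⟩ : Tors (W'⁄k) n) = σ (weilPairing hn S T) := by
  obtain ⟨P, g, hP, hg, ho, h⟩ := exists_weilFun hn T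
  refine weilPairing_eq hn (P := Point.map (W' := W') σ.toAlgHom P) (g := galConj (W' := W') σ g) ?_
    ((map_ne_zero_iff _ (galConj (W' := W') σ).injective).mpr hg) (fun Q => ?_) ?_
  · rw [← map_zsmul, hP]
  · obtain ⟨Q', rfl⟩ : ∃ Q', Point.map (W' := W') σ.toAlgHom Q' = Q :=
      ⟨Point.map (W' := W') σ.symm.toAlgHom Q, by
        rcases Q with _ | ⟨x, y, hQ⟩
        · rfl
        · simp [Point.map_some]⟩
    have inj := Point.map_injective (W' := W') σ.toAlgHom
    rw [ord_galConj, ho, orbitDiv_apply, orbitDiv_apply]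
    simp only [← map_zsmul, inj.eq_iff, map_eq_zero_iff _ inj]
  · rw [← galConj_translate, h S, map_mul, galConj_const]

end

end FLTAgent.WeilPairing
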