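import Fermat.Agent.WeilPairing.Principal

/-!
# Maps of the function field given by points, translations

A point `G` of the curve over its function field which is not constant gives an endomorphism
`homOfPoint G` of the function field, sending the generic point to `G`.
-/

set_option autoImplicit false
set_option linter.unusedSectionVars false

open scoped nonZeroDivisors Polynomial.Bivariate WeierstrassCurve.Affine
open Polynomial WithZero
open WeierstrassCurve WeierstrassCurve.Affine WeierstrassCurve.Affine.CoordinateRing

namespace FLTAgent.WeilPairing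

noncomputable section

variable {k : Type*} [Field k] {W : Affine k}

section Eval

variable {M : Type*} [CommRing M]

/-- Evaluation of the coordinate ring at a point of the curve with values in `M`. -/
def evalHom (f : k →+* M) (x y : M) (h : (W.map f).toAffine.Equation x y) :
    W.CoordinateRing →+* M :=
  AdjoinRoot.lift (Polynomial.eval₂RingHom f x) y <| by
    rw [show (W.map f).toAffine.Equation x y ↔ _ from Iff.rfl, Affine.Equation,
      show (W.map f).toAffine.polynomial = _ from W.map_polynomial f, evalEval,
      eval_map] at h
    rw [← h, ← coe_eval₂RingHom, ← coe_evalRingHom]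
    change _ = ((Polynomial.evalRingHom x).comp (eval₂RingHom (mapRingHom f) (C y))) W.polynomial
    congr 1
    ext c <;> simp

@[simp] theorem evalHom_mk_C_C (f : k →+* M) (x y : M) (h : (W.map f).toAffine.Equation x y)
    (c : k) : evalHom f x y h (mk W (C (C c))) = f c := by
  simp [evalHom]

theorem evalHom_algebraMap (f : k →+* M) (x y : M) (h : (W.map f).toAffine.Equation x y)
    (c : k) : evalHom f x y h (algebraMap k W.CoordinateRing c) = f c :=
  evalHom_mk_C_C f x y h c

@[simp] theorem evalHom_X (f : k →+* M) (x y : M) (h : (W.map f).toAffine.Equation x y) :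
    evalHom f x y h (mk W (C X)) = x := by
  simp [evalHom]

@[simp] theorem evalHom_Y (f : k →+* M) (x y : M) (h : (W.map f).toAffine.Equation x y) :
    evalHom f x y h (mk W Y) = y := by
  simp [evalHom]

theorem coordinateRing_hom_ext {g₁ g₂ : W.CoordinateRing →+* M}
    (hC : ∀ c : k, g₁ (algebraMap k W.CoordinateRing c) = g₂ (algebraMap k W.CoordinateRing c))
    (hX : g₁ (mk W (C X)) = g₂ (mk W (C X))) (hY : g₁ (mk W Y) = g₂ (mk W Y)) : g₁ = g₂ := by
  refine Ideal.Quotient.ringHom_ext ?_
  refine Polynomial.ringHom_ext (fun p => ?_) hY
  have : (g₁.comp (mk W)).comp C = (g₂.comp (mk W)).comp C :=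
    Polynomial.ringHom_ext hC hX
  exact DFunLike.congr_fun this p

end Eval

theorem algebraMap_functionField : algebraMap k W.FunctionField = const W :=
  IsScalarTower.algebraMap_eq k W.CoordinateRing W.FunctionField

theorem functionField_equation : (W⁄W.FunctionField).Equation (xfun W) (yfun W) := by
  have h : algebraMap W.CoordinateRing W.FunctionField (mk W W.polynomial) = 0 := by
    rw [AdjoinRoot.mk_self, map_zero]
  unfold Affine.Equation
  rw [show (W⁄W.FunctionField).polynomial =
      W.polynomial.map (mapRingHom (algebraMap k W.FunctionField)) from W.map_polynomial _,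
    evalEval, eval_map, ← coe_eval₂RingHom, ← coe_evalRingHom]
  refine Eq.trans ?_ h
  change ((Polynomial.evalRingHom (xfun W)).comp
    (eval₂RingHom (mapRingHom (algebraMap k W.FunctionField)) (C (yfun W)))) W.polynomial =
    ((algebraMap W.CoordinateRing W.FunctionField).comp (mk W)) W.polynomial
  congr 1
  ext c <;> simp [xfun, yfun, algebraMap_functionField, const] <;> rfl

variable [W.IsElliptic] [DecidableEq k]

/-- A `DecidableEq` instance for the function field. -/
scoped instance instDecidableEqFunctionField : DecidableEq W.FunctionField := Classical.decEq _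

instance isElliptic_functionField : WeierstrassCurve.IsElliptic (W⁄W.FunctionField) :=
  inferInstanceAs (W.toAffine.map (algebraMap k W.FunctionField)).IsElliptic

variable (W) in
/-- The generic point. -/
def gen : (W⁄W.FunctionField).Point :=
  Point.some (xfun W) (yfun W) (equation_iff_nonsingular.mp functionField_equation)

/-- The constant points. -/
def embedPt : W.Point →+ (W⁄W.FunctionField).Point :=
  Point.map (W' := W) (S := k) (Algebra.ofId k W.FunctionField)

theorem embedPt_some {x y : k} (h : W.Nonsingular x y) :
    ∃ h', embedPt (Point.some x y h) = Point.some (const W x) (const W y) h' := by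
  rw [← algebraMap_functionField]
  exact ⟨_, rfl⟩

theorem embedPt_injective : Function.Injective (embedPt (W := W)) :=
  Point.map_injective _

variable [IsAlgClosed k]

theorem evalHom_injective {M : Type*} [Field M] (f : k →+* M) (x y : M)
    (h : (W.map f).toAffine.Equation x y)
    (hne : ¬ ∃ x₀ y₀ : k, W.Nonsingular x₀ y₀ ∧ f x₀ = x ∧ f y₀ = y) :
    Function.Injective (evalHom f x y h) := by
  rw [injective_iff_map_eq_zero]
  by_contra hcon
  push Not at hcon
  obtain ⟨a, ha, ha0⟩ := hcon
  have hker : RingHom.ker (evalHom f x y h) ≠ ⊥ := fun e => ha0 (by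
    simpa using (e ▸ RingHom.mem_ker.mpr ha : a ∈ (⊥ : Ideal W.CoordinateRing)))
  have := (RingHom.ker_isPrime (evalHom f x y h)).isMaximal hker
  obtain ⟨x₀, y₀, h₀, he⟩ := exists_eq_XYIdeal (RingHom.ker (evalHom f x y h))
  refine hne ⟨x₀, y₀, h₀, ?_, ?_⟩
  · have : XClass W x₀ ∈ RingHom.ker (evalHom f x y h) :=
      he ▸ Ideal.subset_span (Set.mem_insert _ _)
    rw [RingHom.mem_ker, XClass, C_sub, map_sub, map_sub, evalHom_X, evalHom_mk_C_C,
      sub_eq_zero] at this
    exact this.symm
  · have : YClass W (C y₀) ∈ RingHom.ker (evalHom f x y h) :=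
      he ▸ Ideal.subset_span (Set.mem_insert_of_mem _ rfl)
    rw [RingHom.mem_ker, YClass, map_sub, map_sub, evalHom_Y, evalHom_mk_C_C,
      sub_eq_zero] at this
    exact this.symm

/-- A point over the function field is nonconstant. -/
def NonConstant (G : (W⁄W.FunctionField).Point) : Prop :=
  ∀ P : W.Point, G ≠ embedPt P

theorem exists_algHom_of_nonConstant {G : (W⁄W.FunctionField).Point}
    (hG : NonConstant G) :
    ∃ φ : W.FunctionField →ₐ[k] W.FunctionField, Point.map (W' := W) φ (gen W) = G := by
  rcases G with _ | ⟨x, y, h⟩
  · exact absurd (map_zero embedPt).symm (hG 0)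
  have inj := evalHom_injective (algebraMap k W.FunctionField) x y h.left (by
    rintro ⟨x₀, y₀, h₀, rfl, rfl⟩
    exact hG (Point.some x₀ y₀ h₀) rfl)
  refine ⟨{ IsFractionRing.lift inj with
    commutes' := fun c => ?_ }, ?_⟩
  · change IsFractionRing.lift inj (algebraMap k W.FunctionField c) = algebraMap k W.FunctionField c
    conv_lhs => rw [IsScalarTower.algebraMap_apply k W.CoordinateRing W.FunctionField]
    exact (IsFractionRing.lift_algebraMap inj _).trans (evalHom_algebraMap _ x y h.left c)
  · rw [gen, Point.map_some]
    congr 1
    · exact (IsFractionRing.lift_algebraMap inj _).trans (evalHom_X _ _ _ _)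
    · exact (IsFractionRing.lift_algebraMap inj _).trans (evalHom_Y _ _ _ _)

theorem algHom_ext {φ₁ φ₂ : W.FunctionField →ₐ[k] W.FunctionField}
    (h : Point.map (W' := W) φ₁ (gen W) = Point.map (W' := W) φ₂ (gen W)) : φ₁ = φ₂ := by
  rw [gen, Point.map_some, Point.map_some, Point.some.injEq] at h
  refine AlgHom.coe_ringHom_injective (IsLocalization.ringHom_ext W.CoordinateRing⁰ ?_)
  refine coordinateRing_hom_ext (fun c => ?_) h.1 h.2
  simp [← IsScalarTower.algebraMap_apply]

theorem map_embedPt (φ : W.FunctionField →ₐ[k] W.FunctionField) (P : W.Point) :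
    Point.map (W' := W) φ (embedPt P) = embedPt P := by
  rcases P with _ | ⟨x, y, h⟩
  · rfl
  · exact (Point.map_map (W' := W) (Algebra.ofId k W.FunctionField) φ (Point.some x y h)).trans
      (by rw [Subsingleton.elim (φ.comp (Algebra.ofId k W.FunctionField))
        (Algebra.ofId k W.FunctionField)]; rfl)

theorem ord_xfun : ord (0 : W.Point) (xfun W) = -2 := by
  have h0 : (mk W (C X) : W.CoordinateRing) ≠ 0 := by
    have := XClass_ne_zero (W' := W) (0 : k)
    simpa [XClass] using this
  rw [xfun, ord_zero_algebraMap h0, show mk W (C X) = algebraMap k[X] W.CoordinateRing X from rfl,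
    Algebra.norm_algebraMap_of_basis (CoordinateRing.basis W)]
  simp

theorem nonConstant_gen_add (P : W.Point) : NonConstant (gen W + embedPt P) := by
  intro Q hQ
  rw [← eq_sub_iff_add_eq, ← map_sub] at hQ
  rcases hR : Q - P with _ | ⟨x, y, h⟩
  · rw [hR, ← Point.zero_def, map_zero] at hQ
    rw [gen] at hQ
    exact Point.some_ne_zero _ hQ
  · obtain ⟨h', he⟩ := embedPt_some h
    rw [hR, he, gen, Point.some.injEq] at hQ
    have := ord_xfun (W := W)
    rw [hQ.1, ord_const] at this
    norm_num at this

/-- Translation by a point, acting on functions by `f ↦ f (· + P)`. -/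
def translate (P : W.Point) : W.FunctionField →ₐ[k] W.FunctionField :=
  (exists_algHom_of_nonConstant (nonConstant_gen_add P)).choose

theorem map_translate_gen (P : W.Point) :
    Point.map (W' := W) (translate P) (gen W) = gen W + embedPt P :=
  (exists_algHom_of_nonConstant (nonConstant_gen_add P)).choose_spec

theorem translate_comp (P Q : W.Point) :
    (translate P).comp (translate Q) = translate (P + Q) := by
  refine algHom_ext ?_
  rw [← Point.map_map, map_translate_gen, map_translate_gen, map_add, map_embedPt,
    map_translate_gen, map_add, add_assoc]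

theorem translate_translate (P Q : W.Point) (f : W.FunctionField) :
    translate P (translate Q f) = translate (P + Q) f :=
  DFunLike.congr_fun (translate_comp P Q) f

@[simp] theorem translate_zero (f : W.FunctionField) : translate (0 : W.Point) f = f := by
  have : translate (0 : W.Point) = AlgHom.id k W.FunctionField := by
    refine algHom_ext ?_
    rw [map_translate_gen, map_zero, add_zero, gen, Point.map_some]
    rfl
  rw [this]; rfl

theorem translate_neg_translate (P : W.Point) (f : W.FunctionField) :
    translate (-P) (translate P f) = f := by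
  rw [translate_translate, neg_add_cancel, translate_zero]

@[simp] theorem translate_const (P : W.Point) (c : k) : translate P (const W c) = const W c := by
  rw [← algebraMap_functionField]; exact AlgHom.commutes _ c

end

end FLTAgent.WeilPairing
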