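import Fermat.Agent.WeilPairing.Det
import Fermat.Agent.WeilPairing.DetCyclotomic
import Mathlib.FieldTheory.Finite.Basic
import Mathlib.LinearAlgebra.Trace

/-!
# The endomorphism `1 - Frobenius` of an elliptic curve over a finite field

For `W'` over `F = 𝔽_q`, the endomorphism `ψ = 1 - φ` pulls functions back with orders preserved,
hence `e(ψ S, ψ T) = e(S, T) ^ #W'(F)` and `det ψ = #W'(F)` on `E[p]`.
-/

set_option autoImplicit false
set_option linter.unusedSectionVars false

open scoped nonZeroDivisors WeierstrassCurve.Affine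
open WeierstrassCurve WeierstrassCurve.Affine WeierstrassCurve.Affine.CoordinateRing

namespace FLTAgent.WeilPairing

noncomputable section

section Ord

variable {k : Type*} [Field k] {W : Affine k} [IsAlgClosed k] [W.IsElliptic] [DecidableEq k]

theorem ord_addX_of_poles {x y X Y : W.FunctionField} {q : ℕ} (hq : 2 ≤ q)
    (hxy : (W⁄W.FunctionField).Equation x y) (hXY : (W⁄W.FunctionField).Equation X Y)
    (hx : ord (0 : W.Point) x = -2) (hy : ord (0 : W.Point) y = -3)
    (hX : ord (0 : W.Point) X = -(2 * q : ℤ)) (hY : ord (0 : W.Point) Y = -(3 * q : ℤ)) :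
    ord (0 : W.Point) ((W⁄W.FunctionField).addX x X ((W⁄W.FunctionField).slope x X y Y)) = -2 := by
  have hx0 : x ≠ 0 := by rintro rfl; simp at hx
  have hy0 : y ≠ 0 := by rintro rfl; simp at hy
  have hX0 : X ≠ 0 := by rintro rfl; simp at hX; omega
  have hY0 : Y ≠ 0 := by rintro rfl; simp at hY; omega
  have hne : x ≠ X := by rintro rfl; omega
  have hd : ord (0 : W.Point) (X - x) = -(2 * q : ℤ) := by
    rw [sub_eq_add_neg, ← hX]
    exact ord_add_eq_of_lt _ hX0 (.inr (by rw [ord_neg]; omega))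
  have hd0 : X - x ≠ 0 := sub_ne_zero.mpr hne.symm
  set x3 := (W⁄W.FunctionField).addX x X ((W⁄W.FunctionField).slope x X y Y) with hx3
  set R := const W 1 * (X * x ^ 2) + const W (2 * W.a₂) * (x * X) + const W W.a₄ * X +
    const W W.a₄ * x + const W (2 * W.a₆) + const W (-W.a₃) * Y + const W (-W.a₃) * y +
    const W (-2) * (y * Y) + const W (-W.a₁) * (x * Y) + const W (-W.a₁) * (y * X) with hR
  have key : x3 * (X - x) ^ 2 = X ^ 2 * x + R := by
    have e1 := (equation_iff (W := (W⁄W.FunctionField : Affine W.FunctionField)) x y).mp hxy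
    have e2 := (equation_iff (W := (W⁄W.FunctionField : Affine W.FunctionField)) X Y).mp hXY
    simp only [WeierstrassCurve.baseChange, WeierstrassCurve.map_a₁, WeierstrassCurve.map_a₂,
      WeierstrassCurve.map_a₃, WeierstrassCurve.map_a₄, WeierstrassCurve.map_a₆,
      algebraMap_functionField] at e1 e2
    rw [hx3, Affine.slope_of_X_ne hne, Affine.addX, hR]
    simp only [WeierstrassCurve.baseChange, WeierstrassCurve.map_a₁, WeierstrassCurve.map_a₂,
      algebraMap_functionField, map_mul, map_neg, map_one, map_ofNat, one_mul]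
    have hd' : x - X ≠ 0 := sub_ne_zero.mpr hne
    field_simp
    linear_combination (x - X) ^ 2 * (e1 + e2)
  have hm : ∀ (c : k) (u : W.FunctionField), u = 0 ∨ -(4 * q : ℤ) - 1 ≤ ord (0 : W.Point) u →
      const W c * u = 0 ∨ -(4 * q : ℤ) - 1 ≤ ord (0 : W.Point) (const W c * u) :=
    fun c u h => ord_const_mul_ge _ c _ h
  have hRord : R = 0 ∨ -(4 * q : ℤ) - 1 ≤ ord (0 : W.Point) R := by
    have ha := fun {f g : W.FunctionField} => le_ord_add (0 : W.Point) (-(4 * q : ℤ) - 1) (f := f) (g := g)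
    refine ha (ha (ha (ha (ha (ha (ha (ha (ha ?_ ?_) ?_) ?_) ?_) ?_) ?_) ?_) ?_) ?_
    · exact hm _ _ (.inr (by rw [ord_mul _ hX0 (pow_ne_zero 2 hx0), ord_pow, hX, hx]; omega))
    · exact hm _ _ (.inr (by rw [ord_mul _ hx0 hX0]; omega))
    · exact hm _ _ (.inr (by omega))
    · exact hm _ _ (.inr (by omega))
    · exact .inr (by rw [ord_const]; omega)
    · exact hm _ _ (.inr (by omega))
    · exact hm _ _ (.inr (by omega))
    · exact hm _ _ (.inr (by rw [ord_mul _ hy0 hY0]; omega))
    · exact hm _ _ (.inr (by rw [ord_mul _ hx0 hY0]; omega))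
    · exact hm _ _ (.inr (by rw [ord_mul _ hy0 hX0]; omega))
  have hlead : ord (0 : W.Point) (X ^ 2 * x) = -(4 * q : ℤ) - 2 := by
    rw [ord_mul _ (pow_ne_zero 2 hX0) hx0, ord_pow, hX, hx]; push_cast; ring
  have hsum : ord (0 : W.Point) (X ^ 2 * x + R) = -(4 * q : ℤ) - 2 := by
    rw [← hlead]
    exact ord_add_eq_of_lt _ (mul_ne_zero (pow_ne_zero 2 hX0) hx0) (hRord.imp id (by omega))
  rcases eq_or_ne x3 0 with h0 | h0
  · rw [h0, zero_mul] at key
    rw [← key, ord_zero] at hsum
    omega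
  rw [← key, ord_mul _ h0 (pow_ne_zero 2 hd0), ord_pow, hd] at hsum
  push_cast at hsum
  omega

end Ord

variable {F k : Type*} [Field F] [Fintype F] [Field k] [Algebra F k] [IsAlgClosed k]
  [DecidableEq k] {W' : Affine F} [(W'⁄k).IsElliptic]

variable (W') in
/-- Frobenius on points. -/
def frobPt : (W'⁄k).Point →+ (W'⁄k).Point :=
  Point.map (W' := W') (FiniteField.frobeniusAlgHom F k)

variable (W') in
/-- Frobenius on points over the function field. -/
def frobPtL : ((W'⁄k : Affine k)⁄(W'⁄k).FunctionField).Point →+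
    ((W'⁄k : Affine k)⁄(W'⁄k).FunctionField).Point :=
  Point.map (W' := W') (FiniteField.frobeniusAlgHom F (W'⁄k).FunctionField)

variable (W') in
/-- The endomorphism `1 - φ`. -/
def oneSubFrob : (W'⁄k).Point →+ (W'⁄k).Point := AddMonoidHom.id _ - frobPt W'

theorem oneSubFrob_apply (P : (W'⁄k).Point) : oneSubFrob W' P = P - frobPt W' P := rfl

theorem frobPtL_some {x y : (W'⁄k).FunctionField}
    (h : ((W'⁄k : Affine k)⁄(W'⁄k).FunctionField).Nonsingular x y) :
    ∃ h', frobPtL W' (Point.some x y h) =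
      Point.some (x ^ Fintype.card F) (y ^ Fintype.card F) h' :=
  ⟨_, rfl⟩

theorem map_frobPtL (φ : (W'⁄k).FunctionField →ₐ[k] (W'⁄k).FunctionField)
    (G : ((W'⁄k : Affine k)⁄(W'⁄k).FunctionField).Point) :
    Point.map (W' := (W'⁄k)) φ (frobPtL W' G) = frobPtL W' (Point.map (W' := (W'⁄k)) φ G) := by
  rcases G with _ | ⟨x, y, h⟩
  · rfl
  · show Point.some (φ (x ^ Fintype.card F)) (φ (y ^ Fintype.card F)) _ =
      Point.some (φ x ^ Fintype.card F) (φ y ^ Fintype.card F) _
    exact (Point.some.injEq ..).mpr ⟨map_pow φ _ _, map_pow φ _ _⟩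

theorem frobPtL_embedPt (P : (W'⁄k).Point) :
    frobPtL W' (embedPt P) = embedPt (frobPt W' P) := by
  rcases P with _ | ⟨x, y, h⟩
  · rfl
  · obtain ⟨h', he⟩ := embedPt_some h
    obtain ⟨h'', he'⟩ := embedPt_some (W := (W'⁄k)) ((W'.baseChange_nonsingular
      (FiniteField.frobeniusAlgHom F k).injective x y).mpr h)
    rw [he]
    refine Eq.trans ?_ he'.symm
    show Point.some (const (W'⁄k) x ^ Fintype.card F) (const (W'⁄k) y ^ Fintype.card F) _ =
      Point.some (const (W'⁄k) (x ^ Fintype.card F)) (const (W'⁄k) (y ^ Fintype.card F)) _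
    exact (Point.some.injEq ..).mpr ⟨(map_pow _ _ _).symm, (map_pow _ _ _).symm⟩

variable (W') in
/-- The point `gen - φ gen`. -/
def oneSubFrobGen : ((W'⁄k : Affine k)⁄(W'⁄k).FunctionField).Point :=
  gen (W'⁄k) - frobPtL W' (gen (W'⁄k))

theorem exists_oneSubFrobGen_eq :
    ∃ x y h, oneSubFrobGen (k := k) W' = Point.some x y h ∧ ord (0 : (W'⁄k).Point) x = -2 := by
  set q := Fintype.card F with hq
  have hq2 : 2 ≤ q := Fintype.one_lt_card
  have hx := ord_xfun (W := (W'⁄k))
  have hy := ord_yfun (W := (W'⁄k))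
  obtain ⟨hF, heF⟩ := frobPtL_some (W' := W') (k := k)
    (equation_iff_nonsingular.mp functionField_equation :
      ((W'⁄k : Affine k)⁄(W'⁄k).FunctionField).Nonsingular (xfun (W'⁄k)) (yfun (W'⁄k)))
  rw [oneSubFrobGen, sub_eq_add_neg, gen, heF, Point.neg_some]
  set X := xfun (W'⁄k) ^ q with hXdef
  set Y := ((W'⁄k : Affine k)⁄(W'⁄k).FunctionField).negY X (yfun (W'⁄k) ^ q) with hYdef
  have hX : ord (0 : (W'⁄k).Point) X = -(2 * q : ℤ) := by
    rw [hXdef, ord_pow, hx]; ring
  have hne : xfun (W'⁄k) ≠ X := fun h => by rw [← h, hx] at hX; omega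
  have hYeq : (((W'⁄k) : Affine k)⁄(W'⁄k).FunctionField).Equation X Y :=
    (equation_neg ..).mpr
      hF.left
  have hY : ord (0 : (W'⁄k).Point) Y = -(3 * q : ℤ) := by
    rw [hYdef]
    have hyq : ord (0 : (W'⁄k).Point) (yfun (W'⁄k) ^ q) = -(3 * q : ℤ) := by
      rw [ord_pow, hy]; ring
    have hYn : yfun (W'⁄k) ^ q ≠ 0 := pow_ne_zero _ yfun_ne_zero
    have hneg : ((W'⁄k : Affine k)⁄(W'⁄k).FunctionField).negY X (yfun (W'⁄k) ^ q) =
        -(yfun (W'⁄k) ^ q) + (const (W'⁄k) (-(W'⁄k).a₁) * X + const (W'⁄k) (-(W'⁄k).a₃)) := by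
      simp only [Affine.negY, WeierstrassCurve.baseChange, WeierstrassCurve.map_a₁,
        WeierstrassCurve.map_a₃, map_neg, algebraMap_functionField]
      ring
    rw [hneg, ← hyq]
    refine (ord_add_eq_of_lt _ (neg_ne_zero.mpr hYn) ?_).trans (ord_neg _ _)
    rw [ord_neg, hyq]
    have hb := le_ord_add (0 : (W'⁄k).Point) (-(2 * q : ℤ))
      (ord_const_mul_ge _ (-(W'⁄k).a₁) _ (.inr hX.ge))
      (.inr (by rw [ord_const]; omega) :
        const (W'⁄k) (-(W'⁄k).a₃) = 0 ∨
          -(2 * q : ℤ) ≤ ord (0 : (W'⁄k).Point) (const (W'⁄k) (-(W'⁄k).a₃)))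
    exact hb.imp id (by omega)
  rw [Point.add_of_X_ne hne]
  exact ⟨_, _, _, rfl, ord_addX_of_poles hq2 functionField_equation hYeq hx hy hX hY⟩

theorem nonConstant_oneSubFrobGen : NonConstant (oneSubFrobGen (k := k) W') := by
  obtain ⟨x, y, h, he, ho⟩ := exists_oneSubFrobGen_eq (k := k) (W' := W')
  intro P hP
  rw [he] at hP
  rcases P with _ | ⟨a, b, hab⟩
  · exact Point.some_ne_zero h (hP.trans (map_zero embedPt))
  · obtain ⟨h', he'⟩ := embedPt_some hab
    rw [he', Point.some.injEq] at hP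
    rw [hP.1, ord_const] at ho
    omega

variable (W') in
/-- Pullback of functions along `1 - φ`. -/
def oneSubFrobPullback : (W'⁄k).FunctionField →ₐ[k] (W'⁄k).FunctionField :=
  (exists_algHom_of_nonConstant (nonConstant_oneSubFrobGen (k := k) (W' := W'))).choose

theorem map_oneSubFrobPullback_gen :
    Point.map (W' := (W'⁄k)) (oneSubFrobPullback W') (gen (W'⁄k)) = oneSubFrobGen (k := k) W' :=
  (exists_algHom_of_nonConstant (nonConstant_oneSubFrobGen (k := k) (W' := W'))).choose_spec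

theorem ord_oneSubFrobPullback_xfun :
    ord (0 : (W'⁄k).Point) (oneSubFrobPullback W' (xfun (W'⁄k))) = -2 := by
  obtain ⟨x, y, h, he, ho⟩ := exists_oneSubFrobGen_eq (k := k) (W' := W')
  have := map_oneSubFrobPullback_gen (k := k) (W' := W')
  rw [he, gen, Point.map_some, Point.some.injEq] at this
  rw [this.1, ho]

theorem map_translate_oneSubFrobGen (P : (W'⁄k).Point) :
    Point.map (W' := (W'⁄k)) (translate P)
      (Point.map (W' := (W'⁄k)) (oneSubFrobPullback W') (gen (W'⁄k))) =
    Point.map (W' := (W'⁄k)) (oneSubFrobPullback W') (gen (W'⁄k)) + embedPt (oneSubFrob W' P) := by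
  rw [map_oneSubFrobPullback_gen, oneSubFrobGen, map_sub, map_frobPtL, map_translate_gen, map_add,
    frobPtL_embedPt, oneSubFrob_apply, map_sub]
  abel

theorem translate_oneSubFrobPullback (P : (W'⁄k).Point) (f : (W'⁄k).FunctionField) :
    translate P (oneSubFrobPullback W' f) =
      oneSubFrobPullback W' (translate (oneSubFrob W' P) f) := by
  have : (translate P).comp (oneSubFrobPullback W') =
      (oneSubFrobPullback W').comp (translate (oneSubFrob W' P)) := by
    refine algHom_ext ?_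
    rw [← Point.map_map, ← Point.map_map, map_translate_oneSubFrobGen, map_translate_gen, map_add,
      map_embedPt]
  exact DFunLike.congr_fun this f

theorem ord_oneSubFrobPullback (P : (W'⁄k).Point) (f : (W'⁄k).FunctionField) :
    ord P (oneSubFrobPullback W' f) = ord (oneSubFrob W' P) f :=
  ord_algHom_of_map _ ord_oneSubFrobPullback_xfun P _ (map_translate_oneSubFrobGen P) f

theorem mem_range_algebraMap_of_pow_card_eq {x : k} (hx : x ^ Fintype.card F = x) :
    ∃ a : F, algebraMap F k a = x := by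
  classical
  by_contra hcon
  push Not at hcon
  let s : Finset k := Finset.univ.image (algebraMap F k)
  have hs : x ∉ s := by simpa [s] using hcon
  have hne : (Polynomial.X ^ Fintype.card F - Polynomial.X : Polynomial k) ≠ 0 :=
    FiniteField.X_pow_card_sub_X_ne_zero k Fintype.one_lt_card
  have hsub : insert x s ⊆
      (Polynomial.X ^ Fintype.card F - Polynomial.X : Polynomial k).roots.toFinset := by
    intro z hz
    rw [Multiset.mem_toFinset, Polynomial.mem_roots hne]
    rcases Finset.mem_insert.mp hz with rfl | hz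
    · simp [hx]
    · obtain ⟨a, -, rfl⟩ := Finset.mem_image.mp hz
      simp [← map_pow, FiniteField.pow_card]
  have h1 := (Finset.card_le_card hsub).trans (Multiset.toFinset_card_le _)
  rw [Finset.card_insert_of_notMem hs,
    Finset.card_image_of_injective _ (algebraMap F k).injective, Finset.card_univ] at h1
  have h2 := (Polynomial.card_roots' (Polynomial.X ^ Fintype.card F - Polynomial.X : Polynomial k))
  rw [FiniteField.X_pow_card_sub_X_natDegree_eq k Fintype.one_lt_card] at h2
  omega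

theorem oneSubFrob_eq_zero_iff [DecidableEq F] (P : (W'⁄k).Point) :
    oneSubFrob W' P = 0 ↔
      ∃ P₀ : (W'⁄F).Point, Point.map (W' := W') (Algebra.ofId F k) P₀ = P := by
  rw [oneSubFrob_apply, sub_eq_zero]
  constructor
  · intro h
    rcases P with _ | ⟨x, y, hP⟩
    · exact ⟨0, rfl⟩
    · rw [frobPt, Point.map_some, Point.some.injEq] at h
      obtain ⟨a, rfl⟩ := mem_range_algebraMap_of_pow_card_eq (F := F) h.1.symm
      obtain ⟨b, rfl⟩ := mem_range_algebraMap_of_pow_card_eq (F := F) h.2.symm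
      exact ⟨Point.some a b ((W'.baseChange_nonsingular (f := Algebra.ofId F k)
        (algebraMap F k).injective a b).mp hP), rfl⟩
  · rintro ⟨P₀, rfl⟩
    rcases P₀ with _ | ⟨a, b, h⟩
    · rfl
    · rw [frobPt, Point.map_some, Point.map_some]
      congr 1 <;>
      · show algebraMap F k _ = algebraMap F k _ ^ Fintype.card F
        rw [← map_pow, FiniteField.pow_card]

theorem card_ker_oneSubFrob [DecidableEq F] :
    Nat.card (oneSubFrob (k := k) W').ker = Nat.card (W'⁄F).Point := by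
  refine (Nat.card_congr (Equiv.ofBijective
    (fun P₀ : (W'⁄F).Point => (⟨Point.map (W' := W') (Algebra.ofId F k) P₀,
      AddMonoidHom.mem_ker.mpr ((oneSubFrob_eq_zero_iff _).mpr ⟨P₀, rfl⟩)⟩ :
      (oneSubFrob (k := k) W').ker)) ⟨?_, ?_⟩)).symm
  · intro P Q h
    exact Point.map_injective (W' := W') _ (congrArg Subtype.val h)
  · rintro ⟨P, hP⟩
    obtain ⟨P₀, rfl⟩ := (oneSubFrob_eq_zero_iff P).mp (AddMonoidHom.mem_ker.mp hP)
    exact ⟨P₀, rfl⟩

variable {p : ℕ} [hp : Fact p.Prime]

theorem weilPairing_oneSubFrob [DecidableEq F] (hpk : (p : k) ≠ 0) (S T : Tors (W'⁄k) p)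
    (hS : oneSubFrob W' (S : (W'⁄k).Point) ∈ Tors (W'⁄k) p)
    (hT : oneSubFrob W' (T : (W'⁄k).Point) ∈ Tors (W'⁄k) p) :
    weilPairing hpk (⟨_, hS⟩ : Tors (W'⁄k) p) ⟨_, hT⟩ =
      weilPairing hpk S T ^ Nat.card (W'⁄F).Point := by
  classical
  set ψ := oneSubFrob (k := k) W'
  set Ψ := oneSubFrobPullback (k := k) W'
  obtain ⟨P, g, hP, hg, ho, h⟩ := exists_weilFun hpk T
  have hpsiT : (p : ℤ) • ψ P = ψ (T : (W'⁄k).Point) := by rw [← map_zsmul, hP]
  obtain ⟨g₁, hg₁, ho₁⟩ := exists_ord_eq_orbitDiv hpk (P := ψ P)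
    (by rw [hpsiT, ← map_zsmul, tors_smul, map_zero])
  have hg₁' : Ψ g₁ ≠ 0 := (map_ne_zero_iff _ Ψ.injective).mpr hg₁
  obtain ⟨c, hc⟩ : ∃ c, translate (ψ (S : (W'⁄k).Point)) g₁ = const (W'⁄k) c * g₁ :=
    ⟨_, (exists_weilConst hpk (⟨_, hS⟩ : Tors (W'⁄k) p) ⟨_, hT⟩).choose_spec _ g₁ hpsiT hg₁ ho₁⟩
  rw [weilPairing_eq hpk (S := (⟨_, hS⟩ : Tors (W'⁄k) p)) (T := ⟨_, hT⟩) hpsiT hg₁ ho₁ hc]
  have : Finite (W'⁄F).Point := by
    refine Finite.of_injective
      (fun P : (W'⁄F).Point => match P with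
        | .zero => (none : Option (F × F))
        | .some x y _ => Option.some (x, y)) ?_
    rintro (_ | _) (_ | _) he <;> simp_all
  have : Finite ψ.ker := Nat.finite_of_card_ne_zero (by
    rw [card_ker_oneSubFrob]; exact (Nat.card_pos (α := (W'⁄F).Point)).ne')
  let _ : Fintype ψ.ker := Fintype.ofFinite _
  let z : ψ.ker → (W'⁄k).Point := fun u => divPt hpk (u : (W'⁄k).Point)
  have hz : ∀ u, (p : ℤ) • z u = u := fun u => zsmul_divPt hpk _
  let G := ∏ u : ψ.ker, translate (-z u) g
  have hG : G ≠ 0 := Finset.prod_ne_zero_iff.mpr fun u _ => translate_ne_zero _ hg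
  obtain ⟨d, hd0, hd⟩ := exists_const_mul_of_ord_eq hg₁' hG fun Q => by
    rw [ord_oneSubFrobPullback, ho₁, orbitDiv_apply, hpsiT, ord_prod Q _ _
      (fun u _ => translate_ne_zero _ hg)]
    simp only [ord_translate, ho, orbitDiv_apply, zsmul_add, zsmul_neg, hz, hP,
      Finset.sum_sub_distrib]
    have key : ∀ A : (W'⁄k).Point, (∑ u : ψ.ker,
        if (p : ℤ) • Q + -(u : (W'⁄k).Point) = A then (1 : ℤ) else 0) =
          if (p : ℤ) • ψ Q = ψ A then 1 else 0 := by
      intro A
      have hiff : ∀ u : ψ.ker, (p : ℤ) • Q + -(u : (W'⁄k).Point) = A ↔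
          (u : (W'⁄k).Point) = (p : ℤ) • Q - A := fun u => by
        rw [← sub_eq_add_neg, sub_eq_iff_eq_add, eq_sub_iff_add_eq, eq_comm,
          add_comm (u : (W'⁄k).Point) A]
      simp only [hiff]
      by_cases hA : (p : ℤ) • ψ Q = ψ A
      · have hmem : (p : ℤ) • Q - A ∈ ψ.ker := by
          rw [AddMonoidHom.mem_ker, map_sub, map_zsmul, hA, sub_self]
        rw [if_pos hA, Finset.sum_eq_single ⟨_, hmem⟩ (fun b _ hb => if_neg fun e => hb (Subtype.ext e))
          (fun he => absurd (Finset.mem_univ _) he), if_pos rfl]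
      · rw [if_neg hA, Finset.sum_eq_zero fun u _ => if_neg fun e => hA ?_]
        rw [← sub_eq_zero, ← map_zsmul, ← map_sub, ← e]
        exact u.2
    rw [key, key, map_zero]
  have hGS : translate (S : (W'⁄k).Point) G =
      const (W'⁄k) (weilPairing hpk S T ^ Nat.card (W'⁄F).Point) * G := by
    rw [map_prod, Finset.prod_congr rfl (g := fun u =>
      const (W'⁄k) (weilPairing hpk S T) * translate (-z u) g) (fun u _ => by
        rw [translate_translate, add_comm, ← translate_translate, h S, map_mul, translate_const]),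
      Finset.prod_mul_distrib, Finset.prod_const, Finset.card_univ, ← Nat.card_eq_fintype_card,
      card_ker_oneSubFrob, map_pow]
  have h1 := translate_oneSubFrobPullback (S : (W'⁄k).Point) g₁
  rw [hc, map_mul, hd, map_mul, translate_const, hGS,
    show Ψ (const (W'⁄k) c) = const (W'⁄k) c from by
      rw [← algebraMap_functionField]; exact Ψ.commutes c, ← mul_assoc, ← mul_assoc] at h1
  have h2 := mul_right_cancel₀ hG h1
  rw [mul_comm (const (W'⁄k) c)] at h2
  exact (const_injective _ (mul_left_cancel₀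
    ((map_ne_zero_iff _ (const_injective _)).mpr hd0) h2)).symm

theorem trace_eq_of_det {V : Type*} [AddCommGroup V] [Module (ZMod p) V]
    (hV : Module.finrank (ZMod p) V = 2) (f : Module.End (ZMod p) V) :
    LinearMap.trace (ZMod p) V f = 1 + LinearMap.det f - LinearMap.det (1 - f) := by
  have : Module.Finite (ZMod p) V := Module.finite_of_finrank_eq_succ hV
  let b := Module.finBasisOfFinrankEq (ZMod p) V hV
  rw [LinearMap.trace_eq_matrix_trace (ZMod p) b, ← LinearMap.det_toMatrix b, ← LinearMap.det_toMatrix b,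
    Matrix.trace_fin_two, Matrix.det_fin_two, Matrix.det_fin_two, map_sub,
    LinearMap.toMatrix_one]
  simp only [Matrix.sub_apply, Matrix.one_apply_eq, Matrix.one_apply_ne (zero_ne_one' (Fin 2)),
    Matrix.one_apply_ne (zero_ne_one' (Fin 2)).symm]
  ring

/-- The trace of Frobenius on `E[p]` over a finite field. -/
theorem galoisTrace_frobenius_finiteField [DecidableEq F] (hpk : (p : k) ≠ 0) (σ : k ≃ₐ[F] k)
    (hσ : ∀ x : k, σ x = x ^ Fintype.card F) :
    Point.galoisTrace F (K := k) W' p σ =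
      (Fintype.card F : ZMod p) + 1 - (Nat.card (W'⁄F).Point : ZMod p) := by
  rw [Point.galoisTrace_def, trace_eq_of_det (FLTAgent.Torsion.finrank_torsionBy_prime W' p hpk),
    det_galoisRepModuleEnd_eq_of_forall_pow W' p hpk σ _ fun ζ _ => hσ ζ,
    det_eq_of_pairing hpk _ (Nat.card (W'⁄F).Point) fun S T => ?_]
  · ring
  · have hpt : ∀ R : Submodule.torsionBy ℤ (W'⁄k).Point (p : ℤ),
        (((1 - Point.galoisRepModuleEnd F W' p σ : Module.End (ZMod p) _) R :
          Submodule.torsionBy ℤ (W'⁄k).Point (p : ℤ)) : (W'⁄k).Point) =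
          oneSubFrob W' (R : (W'⁄k).Point) := by
      intro R
      show (R : (W'⁄k).Point) - σ • (R : (W'⁄k).Point) = _
      rw [oneSubFrob_apply, frobPt,
        ← show σ.toAlgHom = FiniteField.frobeniusAlgHom F k from AlgHom.ext fun x => hσ x]
      rfl
    have hmem : ∀ R : Submodule.torsionBy ℤ (W'⁄k).Point (p : ℤ),
        oneSubFrob W' (R : (W'⁄k).Point) ∈ Tors (W'⁄k) p := fun R => by
      rw [← hpt]; exact (_ : Submodule.torsionBy ℤ (W'⁄k).Point (p : ℤ)).2
    refine Eq.trans ?_ (weilPairing_oneSubFrob hpk (toTors S) (toTors T) (hmem S) (hmem T))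
    show weilPairing hpk _ _ = _
    congr 1 <;> exact Subtype.ext (hpt _)

end

end FLTAgent.WeilPairing
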