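import Fermat.Agent.WeilPairing.GenericPoint
import Mathlib.Tactic.LinearCombination
import Mathlib.Tactic.FieldSimp

/-!
# Orders of translated functions

`ord Q (translate P f) = ord (Q + P) f`.
-/

set_option autoImplicit false
set_option linter.unusedSectionVars false

open scoped nonZeroDivisors Polynomial.Bivariate WeierstrassCurve.Affine
open Polynomial WithZero
open WeierstrassCurve WeierstrassCurve.Affine WeierstrassCurve.Affine.CoordinateRing

namespace FLTAgent.WeilPairing

noncomputable section

variable {k : Type*} [Field k] {W : Affine k} [IsAlgClosed k] [W.IsElliptic]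

theorem ord_const_mul_ge (P : W.Point) (c : k) {f : W.FunctionField} (m : ℤ)
    (hf : f = 0 ∨ m ≤ ord P f) : const W c * f = 0 ∨ m ≤ ord P (const W c * f) := by
  rcases eq_or_ne c 0 with rfl | hc
  · exact .inl (by simp)
  rcases eq_or_ne f 0 with rfl | hf0
  · exact .inl (by simp)
  refine .inr ?_
  rw [ord_mul P ((map_ne_zero_iff _ (const_injective W)).mpr hc) hf0, ord_const, zero_add]
  exact hf.resolve_left hf0

theorem le_ord_sub (P : W.Point) {f g : W.FunctionField} (m : ℤ)
    (hf : f = 0 ∨ m ≤ ord P f) (hg : g = 0 ∨ m ≤ ord P g) : f - g = 0 ∨ m ≤ ord P (f - g) := by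
  rw [sub_eq_add_neg]
  exact le_ord_add P m hf (by simpa using hg)

theorem ord_sq_eq {P : W.Point} {f : W.FunctionField} : ord P (f ^ 2) = 2 * ord P f := by
  rw [ord_pow]; rfl

/-- If `u, w` satisfy the equation and `u` has a double pole, then `w` has a triple pole. -/
theorem ord_eq_neg_three {P : W.Point} {u w : W.FunctionField}
    (h : (W⁄W.FunctionField).Equation u w) (hu : ord P u = -2) : ord P w = -3 := by
  have hu0 : u ≠ 0 := by rintro rfl; simp at hu
  rw [equation_iff] at h
  simp only [WeierstrassCurve.baseChange, WeierstrassCurve.map_a₁, WeierstrassCurve.map_a₂,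
    WeierstrassCurve.map_a₃, WeierstrassCurve.map_a₄, WeierstrassCurve.map_a₆,
    algebraMap_functionField] at h
  set R := u ^ 3 + const W W.a₂ * u ^ 2 + const W W.a₄ * u + const W W.a₆ with hRdef
  have hu3 : ord P (u ^ 3) = -6 := by rw [ord_pow, hu]; rfl
  have hR : ord P R = -6 := by
    rw [hRdef, add_assoc, add_assoc, ← hu3]
    refine ord_add_eq_of_lt P (pow_ne_zero 3 hu0) ?_
    have : (const W W.a₂ * u ^ 2 + (const W W.a₄ * u + const W W.a₆)) = 0 ∨
        -5 ≤ ord P (const W W.a₂ * u ^ 2 + (const W W.a₄ * u + const W W.a₆)) :=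
      le_ord_add P _ (ord_const_mul_ge P _ _ (.inr (by rw [ord_pow, hu]; norm_num)))
        (le_ord_add P _ (ord_const_mul_ge P _ _ (.inr (by omega)))
          (.inr (by rw [ord_const]; norm_num)))
    exact this.imp id (by omega)
  rcases eq_or_ne w 0 with rfl | hw0
  · rw [show R = 0 by rw [← h]; ring] at hR
    simp at hR
  by_contra hne
  rcases lt_or_gt_of_ne hne with hlt | hgt
  · have : ord P R = 2 * ord P w := by
      rw [← h, add_assoc, ← ord_sq_eq]
      refine ord_add_eq_of_lt P (pow_ne_zero 2 hw0) ?_
      have : const W W.a₁ * u * w + const W W.a₃ * w = 0 ∨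
          ord P w - 2 ≤ ord P (const W W.a₁ * u * w + const W W.a₃ * w) :=
        le_ord_add P _
          (by rw [mul_assoc]; exact ord_const_mul_ge P _ _ (.inr (by rw [ord_mul P hu0 hw0]; omega)))
          (ord_const_mul_ge P _ _ (.inr (by omega)))
      rw [ord_sq_eq]
      exact this.imp id (by omega)
    omega
  · have : w ^ 2 + const W W.a₁ * u * w + const W W.a₃ * w = 0 ∨
        -5 ≤ ord P (w ^ 2 + const W W.a₁ * u * w + const W W.a₃ * w) :=
      le_ord_add P _ (le_ord_add P _ (.inr (by rw [ord_sq_eq]; omega))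
        (by rw [mul_assoc]; exact ord_const_mul_ge P _ _ (.inr (by rw [ord_mul P hu0 hw0]; omega))))
        (ord_const_mul_ge P _ _ (.inr (by omega)))
    rw [h] at this
    rcases this with h0 | h5
    · simp [h0] at hR
    · omega

theorem ord_yfun [DecidableEq k] : ord (0 : W.Point) (yfun W) = -3 :=
  ord_eq_neg_three functionField_equation ord_xfun

theorem ord_aeval_of_pole {P : W.Point} {u : W.FunctionField} (hu : ord P u = -2) (p : k[X])
    (hp : p ≠ 0) :
    p.eval₂ (const W) u ≠ 0 ∧ ord P (p.eval₂ (const W) u) = -2 * p.natDegree := by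
  have hu0 : u ≠ 0 := by rintro rfl; simp at hu
  induction hn : p.natDegree using Nat.strong_induction_on generalizing p with
  | _ n ih =>
    rcases Nat.eq_zero_or_pos n with rfl | hpos
    · obtain ⟨c, rfl⟩ := natDegree_eq_zero.mp hn
      rw [eval₂_C]
      exact ⟨(map_ne_zero_iff _ (const_injective W)).mpr (by simpa using hp), by simp [ord_const]⟩
    · have hdeg : p.divX.natDegree = p.natDegree - 1 := natDegree_divX_eq_natDegree_tsub_one
      have hd0 : p.divX ≠ 0 := by
        intro h0
        have := divX_eq_zero_iff.mp h0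
        rw [this, natDegree_C] at hn
        omega
      obtain ⟨hne, hord⟩ := ih _ (by omega) p.divX hd0 rfl
      have he : p.eval₂ (const W) u = u * p.divX.eval₂ (const W) u + const W (p.coeff 0) := by
        conv_lhs => rw [← X_mul_divX_add p]
        rw [eval₂_add, eval₂_mul, eval₂_X, eval₂_C]
      have ho : ord P (u * p.divX.eval₂ (const W) u) = -2 * n := by
        rw [ord_mul P hu0 hne, hu, hord, hdeg, hn, Nat.cast_sub (by omega)]; ring
      have : ord P (p.eval₂ (const W) u) = -2 * n := by
        rw [he, ← ho]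
        exact ord_add_eq_of_lt P (mul_ne_zero hu0 hne) (.inr (by rw [ord_const]; omega))
      refine ⟨fun h0 => ?_, this⟩
      rw [h0, ord_zero] at this
      omega

theorem ord_eval_pole {P : W.Point} {u w : W.FunctionField} (hu : ord P u = -2)
    (hw : ord P w = -3) (p q : k[X])
    (h : p • (1 : W.CoordinateRing) + q • mk W Y ≠ 0) :
    p.eval₂ (const W) u + q.eval₂ (const W) u * w ≠ 0 ∧
    ord P (p.eval₂ (const W) u + q.eval₂ (const W) u * w) =
      -((Algebra.norm k[X] (p • (1 : W.CoordinateRing) + q • mk W Y)).natDegree : ℤ) := by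
  have hw0 : w ≠ 0 := by rintro rfl; simp at hw
  rcases eq_or_ne q 0 with rfl | hq
  · have hp : p ≠ 0 := by rintro rfl; simp at h
    obtain ⟨hne, ho⟩ := ord_aeval_of_pole hu p hp
    have hd : (Algebra.norm k[X] (p • (1 : W.CoordinateRing) + (0 : k[X]) • mk W Y)).natDegree =
        2 * p.natDegree := by
      refine natDegree_eq_of_degree_eq_some ?_
      rw [degree_norm_smul_basis, degree_eq_natDegree hp]
      simp [two_mul]
    simp only [eval₂_zero, zero_mul, add_zero] at hd ⊢
    exact ⟨hne, by rw [hd, ho]; push_cast; ring⟩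
  obtain ⟨hqne, hqo⟩ := ord_aeval_of_pole hu q hq
  have hqw : ord P (q.eval₂ (const W) u * w) = -(2 * q.natDegree + 3) := by
    rw [ord_mul P hqne hw0, hqo, hw]; ring
  rcases eq_or_ne p 0 with rfl | hp
  · have hd : (Algebra.norm k[X] ((0 : k[X]) • (1 : W.CoordinateRing) + q • mk W Y)).natDegree =
        2 * q.natDegree + 3 := by
      refine natDegree_eq_of_degree_eq_some ?_
      rw [degree_norm_smul_basis, degree_eq_natDegree hq]
      simp [two_mul]
    simp only [eval₂_zero, zero_add] at hd ⊢
    exact ⟨mul_ne_zero hqne hw0, by rw [hd, hqw]; push_cast; ring⟩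
  obtain ⟨hpne, hpo⟩ := ord_aeval_of_pole hu p hp
  have hd : (Algebra.norm k[X] (p • (1 : W.CoordinateRing) + q • mk W Y)).natDegree =
      max (2 * p.natDegree) (2 * q.natDegree + 3) := by
    refine natDegree_eq_of_degree_eq_some ?_
    rw [degree_norm_smul_basis, degree_eq_natDegree hp, degree_eq_natDegree hq]
    simp [two_mul]
    exact (WithBot.coe_max _ _).symm
  rcases lt_or_gt_of_ne (show 2 * p.natDegree ≠ 2 * q.natDegree + 3 by omega) with hlt | hgt
  · have : ord P (p.eval₂ (const W) u + q.eval₂ (const W) u * w) =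
        ord P (q.eval₂ (const W) u * w) := by
      rw [add_comm]
      exact ord_add_eq_of_lt P (mul_ne_zero hqne hw0) (.inr (by omega))
    refine ⟨fun h0 => ?_, by rw [this, hqw, hd, max_eq_right hlt.le]; push_cast; ring⟩
    rw [h0, ord_zero, hqw] at this
    omega
  · have : ord P (p.eval₂ (const W) u + q.eval₂ (const W) u * w) =
        ord P (p.eval₂ (const W) u) :=
      ord_add_eq_of_lt P hpne (.inr (by omega))
    refine ⟨fun h0 => ?_, by rw [this, hpo, hd, max_eq_left hgt.le]; push_cast; ring⟩
    rw [h0, ord_zero, hpo] at this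
    omega

theorem algHom_algebraMap_eq (φ : W.FunctionField →ₐ[k] W.FunctionField) (p q : k[X]) :
    φ (algebraMap W.CoordinateRing W.FunctionField (p • (1 : W.CoordinateRing) + q • mk W Y)) =
      p.eval₂ (const W) (φ (xfun W)) + q.eval₂ (const W) (φ (xfun W)) * φ (yfun W) := by
  have hp : ∀ r : k[X], φ (algebraMap W.CoordinateRing W.FunctionField (CoordinateRing.mk W (C r))) =
      r.eval₂ (const W) (φ (xfun W)) := by
    intro r
    have : (φ.toRingHom.comp ((algebraMap W.CoordinateRing W.FunctionField).comp
        ((CoordinateRing.mk W).comp C))) = Polynomial.eval₂RingHom (const W) (φ (xfun W)) := by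
      refine Polynomial.ringHom_ext (fun c => ?_) (by simp [xfun])
      simp only [RingHom.comp_apply, coe_eval₂RingHom, eval₂_C, AlgHom.toRingHom_eq_coe,
        RingHom.coe_coe]
      rw [← algebraMap_functionField]
      exact (φ.commutes c)
    exact DFunLike.congr_fun this r
  rw [CoordinateRing.smul, CoordinateRing.smul, mul_one, map_add, map_mul, map_add, map_mul,
    hp, hp]
  rfl

/-- An endomorphism of the function field for which `x` keeps a double pole at infinity keeps all
orders at infinity. -/
theorem ord_zero_algHom [DecidableEq k] (φ : W.FunctionField →ₐ[k] W.FunctionField)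
    (hφ : ord (0 : W.Point) (φ (xfun W)) = -2) (f : W.FunctionField) :
    ord (0 : W.Point) (φ f) = ord (0 : W.Point) f := by
  rcases eq_or_ne f 0 with rfl | hf
  · simp
  have heq : (W⁄W.FunctionField).Equation (φ (xfun W)) (φ (yfun W)) :=
    (W.baseChange_equation (f := φ) φ.injective (xfun W) (yfun W)).mpr functionField_equation
  have hy := ord_eq_neg_three heq hφ
  have key : ∀ a : W.CoordinateRing, a ≠ 0 →
      φ (algebraMap W.CoordinateRing W.FunctionField a) ≠ 0 ∧
        ord (0 : W.Point) (φ (algebraMap W.CoordinateRing W.FunctionField a)) =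
          ord (0 : W.Point) (algebraMap W.CoordinateRing W.FunctionField a) := by
    intro a ha
    obtain ⟨p, q, rfl⟩ := exists_smul_basis_eq a
    rw [algHom_algebraMap_eq, ord_zero_algebraMap ha]
    exact ord_eval_pole hφ hy p q ha
  obtain ⟨a, b, hb, rfl⟩ := IsFractionRing.div_surjective (A := W.CoordinateRing) f
  have ha : a ≠ 0 := by rintro rfl; simp at hf
  have hb' := nonZeroDivisors.ne_zero hb
  have inj := IsFractionRing.injective W.CoordinateRing W.FunctionField
  rw [map_div₀, ord_div _ (key a ha).1 (key b hb').1, (key a ha).2, (key b hb').2,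
    ord_div _ ((map_ne_zero_iff _ inj).mpr ha) ((map_ne_zero_iff _ inj).mpr hb')]

end

end FLTAgent.WeilPairing
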