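import Fermat.Agent.WeilPairing.SimplePole
import Fermat.Agent.Torsion.Count

/-!
# The Weil pairing

For `n` invertible in the algebraically closed field `k` and `S, T` killed by `n`, choose `P` with
`n • P = T` and a function `g` with divisor `∑_{n • R = 0} ((P + R) - R)`. Translation by `S`
multiplies `g` by the constant `weilPairing S T`.
-/

set_option autoImplicit false
set_option linter.unusedSectionVars false

open scoped nonZeroDivisors Polynomial.Bivariate WeierstrassCurve.Affine
open Polynomial WithZero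
open WeierstrassCurve WeierstrassCurve.Affine WeierstrassCurve.Affine.CoordinateRing

namespace FLTAgent.WeilPairing

noncomputable section

variable {k : Type*} [Field k] {W : Affine k} [IsAlgClosed k] [W.IsElliptic] [DecidableEq k]
  {n : ℕ}

variable (W) in
/-- The points killed by `n`, as a finset. -/
def torsFinset (hn : (n : k) ≠ 0) : Finset W.Point :=
  letI : Fintype (Submodule.torsionBy ℤ W.Point (n : ℤ)) :=
    @Fintype.ofFinite _ (FLTAgent.Torsion.finite_torsionBy (W := W) fun h => hn (by simp [h]))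
  (Finset.univ : Finset (Submodule.torsionBy ℤ W.Point (n : ℤ))).map (Function.Embedding.subtype _)

theorem mem_torsFinset (hn : (n : k) ≠ 0) {P : W.Point} :
    P ∈ torsFinset W hn ↔ (n : ℤ) • P = 0 := by
  simp [torsFinset, Submodule.mem_torsionBy_iff]

theorem card_torsFinset (hn : (n : k) ≠ 0) : (torsFinset W hn).card = n ^ 2 := by
  let _ : Fintype (Submodule.torsionBy ℤ W.Point (n : ℤ)) :=
    @Fintype.ofFinite _ (FLTAgent.Torsion.finite_torsionBy (W := W) fun h => hn (by simp [h]))
  rw [← FLTAgent.Torsion.natCard_torsionBy (W := W) n hn, torsFinset, Finset.card_map, Finset.card_univ,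
    Nat.card_eq_fintype_card]

/-- The divisor `∑_{n • R = 0} ((P + R) - R)`. -/
def orbitDiv (hn : (n : k) ≠ 0) (P : W.Point) : W.Point →₀ ℤ :=
  ∑ R ∈ torsFinset W hn, (Finsupp.single (P + R) 1 - Finsupp.single R 1)

theorem orbitDiv_apply (hn : (n : k) ≠ 0) (P Q : W.Point) :
    orbitDiv hn P Q =
      (if (n : ℤ) • Q = (n : ℤ) • P then 1 else 0) - if (n : ℤ) • Q = 0 then 1 else 0 := by
  classical
  rw [orbitDiv, Finset.sum_sub_distrib, Finsupp.sub_apply, Finsupp.finsetSum_apply,
    Finsupp.finsetSum_apply]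
  congr 1
  · simp only [Finsupp.single_apply, ← eq_sub_iff_add_eq']
    rw [Finset.sum_ite_eq' (torsFinset W hn) (Q - P) fun _ => (1 : ℤ)]
    simp [mem_torsFinset, zsmul_sub, sub_eq_zero]
  · simp only [Finsupp.single_apply]
    rw [Finset.sum_ite_eq' (torsFinset W hn) Q fun _ => (1 : ℤ)]
    simp [mem_torsFinset]

theorem exists_ord_eq_orbitDiv (hn : (n : k) ≠ 0) {P : W.Point}
    (hP : (n : ℤ) • ((n : ℤ) • P) = 0) :
    ∃ g : W.FunctionField, g ≠ 0 ∧ ∀ Q, ord Q g = orbitDiv hn P Q := by
  refine exists_ord_eq _ (by simp [orbitDiv, map_sum]) ?_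
  rw [orbitDiv, map_sum]
  simp only [map_sub, pointSum_single, one_zsmul, add_sub_cancel_right, Finset.sum_const,
    card_torsFinset]
  rw [← natCast_zsmul, Nat.cast_pow, pow_two, mul_smul, hP]

/-- A point `P` with `n • P = T`. -/
def divPt (hn : (n : k) ≠ 0) (T : W.Point) : W.Point :=
  (FLTAgent.Torsion.zsmul_surjective (n := (n : ℤ))
    (Int.natCast_ne_zero.mpr fun h => hn (by simp [h])) T).choose

theorem zsmul_divPt (hn : (n : k) ≠ 0) (T : W.Point) : (n : ℤ) • divPt hn T = T :=
  (FLTAgent.Torsion.zsmul_surjective (n := (n : ℤ))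
    (Int.natCast_ne_zero.mpr fun h => hn (by simp [h])) T).choose_spec

theorem translate_ne_zero (P : W.Point) {g : W.FunctionField} (hg : g ≠ 0) : translate P g ≠ 0 :=
  fun h => hg (by simpa [translate_neg_translate] using congrArg (translate (-P)) h)

theorem ord_translate_eq_of_torsion (hn : (n : k) ≠ 0) {P : W.Point} {g : W.FunctionField}
    (hg : ∀ Q, ord Q g = orbitDiv hn P Q) {S : W.Point} (hS : (n : ℤ) • S = 0) (Q : W.Point) :
    ord Q (translate S g) = ord Q g := by
  rw [ord_translate, hg, hg, orbitDiv_apply, orbitDiv_apply, zsmul_add, hS, add_zero]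

variable (W) in
/-- The torsion points. -/
abbrev Tors (n : ℕ) := Submodule.torsionBy ℤ W.Point (n : ℤ)

theorem tors_smul (S : Tors W n) : (n : ℤ) • (S : W.Point) = 0 :=
  (Submodule.mem_torsionBy_iff _ _).mp S.2

theorem exists_weilConst (hn : (n : k) ≠ 0) (S T : Tors W n) :
    ∃ c : k, ∀ (P : W.Point) (g : W.FunctionField), (n : ℤ) • P = T → g ≠ 0 →
      (∀ Q, ord Q g = orbitDiv hn P Q) → translate (S : W.Point) g = const W c * g := by
  obtain ⟨g₀, hg₀, ho₀⟩ := exists_ord_eq_orbitDiv hn (P := divPt hn (T : W.Point))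
    (by rw [zsmul_divPt, tors_smul])
  obtain ⟨c, -, hc⟩ := exists_const_mul_of_ord_eq
    (translate_ne_zero (S : W.Point) hg₀) hg₀
    (ord_translate_eq_of_torsion hn ho₀ (tors_smul S))
  refine ⟨c, fun P g hP hg ho => ?_⟩
  obtain ⟨d, -, rfl⟩ := exists_const_mul_of_ord_eq hg hg₀ fun Q => by
    rw [ho, ho₀, orbitDiv_apply, orbitDiv_apply, hP, zsmul_divPt]
  rw [map_mul, translate_const, hc, mul_left_comm]

/-- The Weil pairing. -/
def weilPairing (hn : (n : k) ≠ 0) (S T : Tors W n) : k := (exists_weilConst hn S T).choose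

theorem weilPairing_eq (hn : (n : k) ≠ 0) {S T : Tors W n} {P : W.Point} {g : W.FunctionField}
    (hP : (n : ℤ) • P = T) (hg : g ≠ 0) (ho : ∀ Q, ord Q g = orbitDiv hn P Q) {c : k}
    (hc : translate (S : W.Point) g = const W c * g) : weilPairing hn S T = c := by
  have := (exists_weilConst hn S T).choose_spec P g hP hg ho
  rw [hc] at this
  exact (const_injective W (mul_right_cancel₀ hg this)).symm

theorem exists_weilFun (hn : (n : k) ≠ 0) (T : Tors W n) :
    ∃ (P : W.Point) (g : W.FunctionField), (n : ℤ) • P = T ∧ g ≠ 0 ∧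
      (∀ Q, ord Q g = orbitDiv hn P Q) ∧
      ∀ S : Tors W n, translate (S : W.Point) g = const W (weilPairing hn S T) * g := by
  obtain ⟨g, hg, ho⟩ := exists_ord_eq_orbitDiv hn (P := divPt hn (T : W.Point))
    (by rw [zsmul_divPt, tors_smul])
  exact ⟨_, g, zsmul_divPt hn _, hg, ho,
    fun S => (exists_weilConst hn S T).choose_spec _ g (zsmul_divPt hn _) hg ho⟩

theorem weilPairing_ne_zero (hn : (n : k) ≠ 0) (S T : Tors W n) : weilPairing hn S T ≠ 0 := by
  obtain ⟨P, g, -, hg, -, h⟩ := exists_weilFun hn T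
  intro h0
  have := h S
  rw [h0, map_zero, zero_mul] at this
  exact translate_ne_zero (S : W.Point) hg this

theorem weilPairing_add_left (hn : (n : k) ≠ 0) (S S' T : Tors W n) :
    weilPairing hn (S + S') T = weilPairing hn S T * weilPairing hn S' T := by
  obtain ⟨P, g, hP, hg, ho, h⟩ := exists_weilFun hn T
  refine weilPairing_eq hn hP hg ho ?_
  rw [Submodule.coe_add, ← translate_translate, h S', map_mul, translate_const, h S, map_mul]
  ring

theorem weilPairing_add_right (hn : (n : k) ≠ 0) (S T T' : Tors W n) :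
    weilPairing hn S (T + T') = weilPairing hn S T * weilPairing hn S T' := by
  obtain ⟨P, g, hP, hg, ho, h⟩ := exists_weilFun hn T
  obtain ⟨P', g', hP', hg', ho', h'⟩ := exists_weilFun hn T'
  have hne := translate_ne_zero (-P') hg
  refine weilPairing_eq hn (P := P + P') (g := translate (-P') g * g') ?_ (mul_ne_zero hne hg')
    (fun Q => ?_) ?_
  · rw [zsmul_add, hP, hP']; rfl
  · rw [ord_mul _ hne hg', ord_translate, ho, ho', orbitDiv_apply, orbitDiv_apply, orbitDiv_apply,
      zsmul_add, zsmul_add, zsmul_neg, ← sub_eq_add_neg]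
    simp only [sub_eq_iff_eq_add, zero_add]
    split_ifs <;> ring
  · rw [map_mul, translate_translate, add_comm, ← translate_translate, h S, h' S, map_mul,
      translate_const, map_mul]
    ring

theorem weilPairing_self (hn : (n : k) ≠ 0) (T : Tors W n) : weilPairing hn T T = 1 := by
  obtain ⟨P, g, hP, hg, ho, h⟩ := exists_weilFun hn T
  have hF : ∀ i : ℕ, translate (-((i : ℤ) • P)) g ≠ 0 := fun i => translate_ne_zero _ hg
  let G : W.FunctionField := ∏ i ∈ Finset.range n, translate (-((i : ℤ) • P)) g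
  have hG : G ≠ 0 := Finset.prod_ne_zero_iff.mpr fun i _ => hF i
  obtain ⟨c, hc⟩ := exists_const_of_ord_nonneg (f := G) fun Q => by
    have key : ∀ i : ℕ, ord Q (translate (-((i : ℤ) • P)) g) =
        (fun j : ℕ => if (n : ℤ) • Q = ((j : ℤ)) • (T : W.Point) then (1 : ℤ) else 0) (i + 1) -
          (fun j : ℕ => if (n : ℤ) • Q = ((j : ℤ)) • (T : W.Point) then (1 : ℤ) else 0) i := by
      intro i
      rw [ord_translate, ho, orbitDiv_apply, hP, zsmul_add, zsmul_neg,
        smul_comm (n : ℤ) (i : ℤ) P, hP, ← sub_eq_add_neg]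
      simp only [sub_eq_iff_eq_add, Nat.cast_add, Nat.cast_one, add_zsmul, one_zsmul,
        add_comm (T : W.Point), zero_add]
    rw [ord_prod Q _ _ fun i _ => hF i, Finset.sum_congr rfl fun i _ => key i,
      Finset.sum_range_sub (fun j : ℕ =>
        if (n : ℤ) • Q = ((j : ℤ)) • (T : W.Point) then (1 : ℤ) else 0)]
    simp
  -- comparing `G` with its translate by `P`
  have hshift := congrArg (translate P) hc
  rw [translate_const, ← hc, map_prod] at hshift
  simp only [translate_translate] at hshift
  have e1 : ∀ i : ℕ, P + -(((i + 1 : ℕ) : ℤ) • P) = -((i : ℤ) • P) := fun i => by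
    rw [Nat.cast_add, Nat.cast_one, add_zsmul, one_zsmul]; abel
  rcases Nat.eq_zero_or_pos n with h0 | hpos
  · exact absurd (by simp [h0]) hn
  obtain ⟨m, rfl⟩ : ∃ m, n = m + 1 := ⟨n - 1, by omega⟩
  have lhs : ∏ i ∈ Finset.range (m + 1), translate (P + -((i : ℤ) • P)) g =
      translate P g * ∏ i ∈ Finset.range m, translate (-((i : ℤ) • P)) g := by
    rw [Finset.prod_range_succ', mul_comm]
    congr 1
    · simp
    · exact Finset.prod_congr rfl fun i _ => by rw [e1]
  simp only [G] at hshift
  rw [lhs, Finset.prod_range_succ, mul_comm] at hshift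
  have h3 := mul_left_cancel₀ (Finset.prod_ne_zero_iff.mpr fun i _ => hF i) hshift
  have h4 := congrArg (translate ((m : ℤ) • P)) h3
  rw [translate_translate, translate_translate, add_neg_cancel, translate_zero,
    show (m : ℤ) • P + P = (T : W.Point) by
      rw [← hP, Nat.cast_add, Nat.cast_one, add_zsmul, one_zsmul], h T] at h4
  refine const_injective W ?_
  rw [map_one]
  exact mul_right_cancel₀ hg (h4.trans (one_mul g).symm)

theorem weilPairing_zero_left (hn : (n : k) ≠ 0) (T : Tors W n) : weilPairing hn 0 T = 1 := by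
  obtain ⟨P, g, hP, hg, ho, -⟩ := exists_weilFun hn T
  exact weilPairing_eq hn hP hg ho (by simp)

theorem weilPairing_nsmul_left (hn : (n : k) ≠ 0) (m : ℕ) (S T : Tors W n) :
    weilPairing hn (m • S) T = weilPairing hn S T ^ m := by
  induction m with
  | zero => simp [weilPairing_zero_left]
  | succ m ih => rw [succ_nsmul, weilPairing_add_left, ih, pow_succ]

theorem weilPairing_pow (hn : (n : k) ≠ 0) (S T : Tors W n) : weilPairing hn S T ^ n = 1 := by
  rw [← weilPairing_nsmul_left, show n • S = 0 from Subtype.ext <| by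
    rw [Submodule.coe_smul_of_tower, ← natCast_zsmul]; exact tors_smul S, weilPairing_zero_left]

theorem weilPairing_swap (hn : (n : k) ≠ 0) (S T : Tors W n) :
    weilPairing hn S T * weilPairing hn T S = 1 := by
  have h := weilPairing_self hn (S + T)
  rw [weilPairing_add_left, weilPairing_add_right, weilPairing_add_right, weilPairing_self,
    weilPairing_self, one_mul, mul_one] at h
  exact h

/-- The Weil pairing is nondegenerate. -/
theorem eq_zero_of_forall_weilPairing_eq_one (hn : (n : k) ≠ 0) {T : Tors W n}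
    (hT : ∀ S, weilPairing hn S T = 1) : T = 0 := by
  classical
  obtain ⟨P, g, hP, hg, ho, h⟩ := exists_weilFun hn T
  by_contra hne
  have hT0 : (T : W.Point) ≠ 0 := fun e => hne (Subtype.ext e)
  set S := torsFinset W hn with hS
  have hgo : ∀ R ∈ S, ord R g = -1 := fun R hR => by
    rw [mem_torsFinset] at hR
    rw [ho, orbitDiv_apply, hP, hR, if_neg hT0.symm, if_pos rfl]; norm_num
  have hO : (0 : W.Point) ∈ S := (mem_torsFinset hn).mpr (zsmul_zero _)
  have hinv : ∀ R ∈ S, translate R g = g := fun R hR => by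
    have := h ⟨R, (Submodule.mem_torsionBy_iff _ _).mpr ((mem_torsFinset hn).mp hR)⟩
    rwa [hT, map_one, one_mul] at this
  obtain ⟨c, hc⟩ := exists_leading_coeff (f := g) (hgo 0 hO).ge
  set G := g + const W c * ∑ R ∈ S.erase 0, lineFun R with hG
  have hreg : ∀ Q : W.Point, Q ≠ 0 → 0 ≤ ord Q G := by
    intro Q hQ
    by_cases hQS : Q ∈ S
    · have hsplit : G = (g + const W c * lineFun Q) +
          const W c * ∑ R ∈ (S.erase 0).erase Q, lineFun R := by
        rw [hG, ← Finset.add_sum_erase _ _ (Finset.mem_erase.mpr ⟨hQ, hQS⟩)]; ring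
      rw [hsplit]
      refine ord_add_nonneg ?_ (ord_const_mul_nonneg c (ord_sum_nonneg _ _ fun R hR =>
        ord_lineFun_nonneg hQ (Finset.ne_of_mem_erase hR).symm))
      rw [← ord_zero_translate Q, map_add, map_mul, translate_const, hinv Q hQS,
        show g + const W c * translate Q (lineFun Q) = (g - const W c * poleFun W) +
          const W c * (translate Q (lineFun Q) + poleFun W) by ring]
      exact ord_add_nonneg hc (ord_const_mul_nonneg c (ord_translate_lineFun_add_poleFun hQ))
    · refine ord_add_nonneg ?_ (ord_const_mul_nonneg c (ord_sum_nonneg _ _ fun R hR =>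
        ord_lineFun_nonneg hQ fun e => hQS (e ▸ Finset.mem_of_mem_erase hR)))
      rw [ho, orbitDiv_apply, if_neg (show ¬(n : ℤ) • Q = 0 from fun e =>
        hQS ((mem_torsFinset hn).mpr e))]
      split_ifs <;> norm_num
  set N := (S.erase 0).card with hN
  have hsum : G - const W (c * (N + 1)) * poleFun W = (g - const W c * poleFun W) +
      const W c * ∑ R ∈ S.erase 0, (lineFun R - poleFun W) := by
    rw [hG, Finset.sum_sub_distrib, Finset.sum_const, nsmul_eq_mul, ← hN, map_mul, map_add,
      map_natCast, map_one]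
    ring
  have hG0 : 0 ≤ ord (0 : W.Point) (G - const W (c * (N + 1)) * poleFun W) := by
    rw [hsum]
    exact ord_add_nonneg hc (ord_const_mul_nonneg c (ord_sum_nonneg _ _ fun R hR =>
      ord_lineFun_at_zero (Finset.ne_of_mem_erase hR)))
  obtain ⟨d, hd⟩ := exists_const_of_simple_pole hreg (by
    rw [show G = (G - const W (c * (N + 1)) * poleFun W) + const W (c * (N + 1)) * poleFun W by
      ring]
    rcases le_ord_add (0 : W.Point) (-1) (.inr (by omega : (-1 : ℤ) ≤ ord (0 : W.Point)
        (G - const W (c * (N + 1)) * poleFun W)))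
      (ord_const_mul_ge _ (c * (N + 1)) _ (.inr (ord_poleFun (W := W)).ge)) with h' | h'
    · rw [h']; simp
    · exact h')
  have hzero : c * ((N : k) + 1) = 0 := by
    refine eq_zero_of_ord_poleFun_mul_nonneg (W := W) ?_
    rw [show const W (c * (N + 1)) * poleFun W = G - (G - const W (c * (N + 1)) * poleFun W) by
      ring]
    exact ord_sub_nonneg (by rw [hd, ord_const]) hG0
  have hcard : (N : k) + 1 = (n : k) ^ 2 := by
    rw [hN, ← Nat.cast_one, ← Nat.cast_add, Finset.card_erase_add_one hO, card_torsFinset,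
      Nat.cast_pow]
  rw [hcard, mul_eq_zero, or_iff_left (pow_ne_zero 2 hn)] at hzero
  rw [hzero, map_zero, zero_mul, sub_zero, hgo 0 hO] at hc
  norm_num at hc

end

end FLTAgent.WeilPairing
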