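import Fermat.Agent.WeilPairing.Divisor

/-!
# Functions with given divisor, constants, leading coefficients at infinity
-/

set_option autoImplicit false
set_option linter.unusedSectionVars false

open scoped nonZeroDivisors Polynomial.Bivariate
open Polynomial WithZero
open WeierstrassCurve WeierstrassCurve.Affine WeierstrassCurve.Affine.CoordinateRing

namespace FLTAgent.WeilPairing

noncomputable section

variable {k : Type*} [Field k] {W : Affine k} [IsAlgClosed k] [W.IsElliptic]

theorem mem_range_algebraMap_of_ord_nonneg {f : W.FunctionField}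
    (h : ∀ P : W.Point, P ≠ 0 → 0 ≤ ord P f) :
    f ∈ (algebraMap W.CoordinateRing W.FunctionField).range := by
  refine IsDedekindDomain.HeightOneSpectrum.mem_integers_of_valuation_le_one _ f fun v => ?_
  have := v.isPrime.isMaximal v.ne_bot
  obtain ⟨x, y, hxy, hv⟩ := exists_eq_XYIdeal v.asIdeal
  obtain rfl : v = heightOne hxy := IsDedekindDomain.HeightOneSpectrum.ext hv
  rcases eq_or_ne f 0 with rfl | hf
  · simp
  have h' := (le_ord_iff (Point.some x y hxy) hf 0).mp (h _ (Point.some_ne_zero hxy))
  simpa [valAt] using h'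

theorem nsmul_degree_add_lt_iff (p : k[X]) (e d : ℕ) :
    2 • p.degree + (e : WithBot ℕ) < (d : WithBot ℕ) ↔ ∀ i, d ≤ 2 * i + e → p.coeff i = 0 := by
  rcases eq_or_ne p 0 with rfl | hp
  · simp [bot_lt_iff_ne_bot]
  have hcast : 2 • p.degree + (e : WithBot ℕ) = ((2 * p.natDegree + e : ℕ) : WithBot ℕ) := by
    rw [degree_eq_natDegree hp, two_nsmul, two_mul, Nat.cast_add, Nat.cast_add]
  rw [hcast, Nat.cast_lt]
  constructor
  · intro h i hi
    exact coeff_eq_zero_of_natDegree_lt (by omega)
  · intro h
    by_contra hlt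
    exact leadingCoeff_ne_zero.mpr hp (h p.natDegree (by omega))

theorem degree_norm_lt_iff (p q : k[X]) (d : ℕ) :
    (Algebra.norm k[X] (p • (1 : W.CoordinateRing) + q • mk W Y)).degree < (d : WithBot ℕ) ↔
      (∀ i, d ≤ 2 * i → p.coeff i = 0) ∧ ∀ i, d ≤ 2 * i + 3 → q.coeff i = 0 := by
  have hp := nsmul_degree_add_lt_iff p 0 d
  have hq := nsmul_degree_add_lt_iff q 3 d
  simp only [Nat.cast_zero, add_zero, Nat.cast_ofNat] at hp hq
  rw [degree_norm_smul_basis, max_lt_iff, hp, hq]

theorem eq_algebraMap_of_degree_norm_le_zero {a : W.CoordinateRing}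
    (h : (Algebra.norm k[X] a).degree ≤ 0) : ∃ c : k, a = algebraMap k W.CoordinateRing c := by
  obtain ⟨p, q, rfl⟩ := exists_smul_basis_eq a
  have h1 := (degree_norm_lt_iff p q 1).mp (h.trans_lt (by exact_mod_cast Nat.zero_lt_one))
  have hq : q = 0 := Polynomial.ext fun i => by simpa using h1.2 i (by omega)
  refine ⟨p.coeff 0, ?_⟩
  have hp : p = C (p.coeff 0) := Polynomial.ext fun i => by
    rcases i with _ | i
    · simp
    · rw [coeff_C_of_ne_zero (Nat.succ_ne_zero i)]
      exact h1.1 _ (by omega)
  rw [hq, zero_smul, add_zero, hp, CoordinateRing.smul, mul_one, coeff_C_zero]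
  rfl

/-- A function without poles is constant. -/
theorem exists_const_of_ord_nonneg {f : W.FunctionField} (h : ∀ P : W.Point, 0 ≤ ord P f) :
    ∃ c : k, f = const W c := by
  obtain ⟨a, rfl⟩ := mem_range_algebraMap_of_ord_nonneg fun P _ => h P
  rcases eq_or_ne a 0 with rfl | ha
  · exact ⟨0, by simp⟩
  have h0 := h 0
  rw [ord_zero_algebraMap ha] at h0
  obtain ⟨c, rfl⟩ := eq_algebraMap_of_degree_norm_le_zero (a := a) <| by
    rw [degree_eq_natDegree (mt (norm_eq_zero_iff' W).mp ha)]
    have : (Algebra.norm k[X] a).natDegree = 0 := by omega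
    simp [this]
  exact ⟨c, rfl⟩

/-- Two nonzero functions with the same orders everywhere differ by a constant. -/
theorem exists_const_mul_of_ord_eq {f g : W.FunctionField} (hf : f ≠ 0) (hg : g ≠ 0)
    (h : ∀ P : W.Point, ord P f = ord P g) : ∃ c : k, c ≠ 0 ∧ f = const W c * g := by
  obtain ⟨c, hc⟩ := exists_const_of_ord_nonneg (f := f / g) fun P => by
    rw [ord_div P hf hg, h, sub_self]
  refine ⟨c, ?_, by rw [← hc, div_mul_cancel₀ f hg]⟩
  rintro rfl
  simp [hf, hg] at hc

/-- Abel–Jacobi: a divisor of degree zero with zero point sum is principal. -/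
theorem exists_ord_eq [DecidableEq k] (D : W.Point →₀ ℤ) (hdeg : degree D = 0)
    (hsum : pointSum D = 0) : ∃ f : W.FunctionField, f ≠ 0 ∧ ∀ P, ord P f = D P := by
  classical
  set D' := D.erase 0 with hD'
  let S : Multiset W.Point :=
    ∑ P ∈ D'.support, (D' P).toNat • ({P} : Multiset W.Point)
  let T : Multiset W.Point :=
    ∑ P ∈ D'.support, (-D' P).toNat • ({P} : Multiset W.Point)
  have hcount : ∀ P, (S.count P : ℤ) - T.count P = D' P := fun P => by
    simp only [S, T, Multiset.count_sum', Multiset.count_nsmul, Multiset.count_singleton]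
    rw [Finset.sum_eq_single P (fun b _ hb => by simp [Ne.symm hb]) (by
        intro hP; simp [Finsupp.notMem_support_iff.mp hP]),
      Finset.sum_eq_single P (fun b _ hb => by simp [Ne.symm hb]) (by
        intro hP; simp [Finsupp.notMem_support_iff.mp hP])]
    simp
  have hS : (0 : W.Point) ∉ S := by
    rw [← Multiset.count_eq_zero]
    simp [S, D']
  have hT : (0 : W.Point) ∉ T := by
    rw [← Multiset.count_eq_zero]
    simp [T, D']
  have hdiv : divisorOf S - divisorOf T = D' := Finsupp.ext fun P => by
    simp [divisorOf_apply, hcount]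
  have hD : D = D' + Finsupp.single 0 (D 0) := (Finsupp.erase_add_single 0 D).symm
  have hsum' : S.sum = T.sum := by
    rw [hD, map_add, pointSum_single, zsmul_zero, add_zero, ← hdiv, map_sub,
      pointSum_divisorOf, pointSum_divisorOf, sub_eq_zero] at hsum
    exact hsum
  have hu : ∀ U : Multiset W.Point,
      ((U.map idealUnit).prod : FractionalIdeal W.CoordinateRing⁰ W.FunctionField) =
        ((U.map idealOf).prod : Ideal W.CoordinateRing) := by
    intro U
    induction U using Multiset.induction_on with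
    | empty => simp
    | cons P U ih => simp [ih, coe_idealUnit]
  have hcls : ∀ U : Multiset W.Point, Point.toClass U.sum =
      Additive.ofMul (ClassGroup.mk W.FunctionField (U.map idealUnit).prod) := by
    intro U
    induction U using Multiset.induction_on with
    | empty => simp
    | cons P U ih =>
      rw [Multiset.sum_cons, map_add, ih, toClass_eq, Multiset.map_cons, Multiset.prod_cons,
        map_mul, ofMul_mul]
  have hc := congrArg Point.toClass hsum'
  rw [hcls, hcls] at hc
  obtain ⟨a, b, ha, hb, hab⟩ :=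
    (ClassGroup.mk_eq_mk_of_coe_ideal (hu S) (hu T)).mp (Additive.ofMul.injective hc)
  have hA := (map_ne_zero_iff _ (IsFractionRing.injective W.CoordinateRing W.FunctionField)).mpr ha
  have hB := (map_ne_zero_iff _ (IsFractionRing.injective W.CoordinateRing W.FunctionField)).mpr hb
  refine ⟨algebraMap _ _ b / algebraMap _ _ a, div_ne_zero hB hA, ?_⟩
  obtain ⟨Sa, hSa, hpa⟩ := exists_multiset (Ideal.span {a}) (by simpa using ha)
  obtain ⟨Sb, hSb, hpb⟩ := exists_multiset (Ideal.span {b}) (by simpa using hb)
  have hmul : Sa + S = Sb + T := by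
    refine Multiset.map_injective idealOf_injective ?_
    have hSa' : (0 : W.Point) ∉ Sa + S := by simp [hSa, hS]
    have hSb' : (0 : W.Point) ∉ Sb + T := by simp [hSb, hT]
    rw [← normalizedFactors_prod_idealOf hSa', ← normalizedFactors_prod_idealOf hSb',
      Multiset.map_add, Multiset.prod_add, Multiset.map_add, Multiset.prod_add, hpa, hpb, hab]
  intro P
  rw [ord_div P hB hA]
  rcases P with _ | ⟨x, y, h⟩
  · show ord (0 : W.Point) _ - ord (0 : W.Point) _ = D 0
    rw [ord_zero_algebraMap hb, ord_zero_algebraMap ha, ← card_eq_natDegree_norm hSb hpb,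
      ← card_eq_natDegree_norm hSa hpa]
    rw [hD, map_add, degree_single, ← hdiv, map_sub, degree_divisorOf, degree_divisorOf] at hdeg
    have := congrArg Multiset.card hmul
    simp only [Multiset.card_add] at this
    omega
  · rw [ord_eq_count hSb hb hpb h, ord_eq_count hSa ha hpa h]
    have h1 := hcount (Point.some x y h)
    have h2 := congrArg (Multiset.count (Point.some x y h)) hmul
    simp only [Multiset.count_add] at h2
    rw [hD', Finsupp.erase_ne (Point.some_ne_zero h)] at h1
    omega

theorem smul_one_add_smul_Y_sub (p q p' q' : k[X]) (c : k) :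
    (p • (1 : W.CoordinateRing) + q • mk W Y) -
        algebraMap k W.CoordinateRing c * (p' • (1 : W.CoordinateRing) + q' • mk W Y) =
      (p - C c * p') • (1 : W.CoordinateRing) + (q - C c * q') • mk W Y := by
  rw [CoordinateRing.smul, CoordinateRing.smul, CoordinateRing.smul, CoordinateRing.smul,
    CoordinateRing.smul, CoordinateRing.smul, C_sub, C_sub, C_mul, C_mul, map_sub, map_sub,
    map_mul, map_mul, show algebraMap k W.CoordinateRing c = mk W (C (C c)) from rfl]
  ring

/-- Two elements of the coordinate ring with the same pole order at infinity have proportional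
leading terms. -/
theorem exists_degree_norm_sub_lt {a b : W.CoordinateRing} (hb : b ≠ 0)
    (h : (Algebra.norm k[X] a).degree ≤ (Algebra.norm k[X] b).degree) :
    ∃ c : k, (Algebra.norm k[X] (a - algebraMap k W.CoordinateRing c * b)).degree <
      (Algebra.norm k[X] b).degree := by
  have hn := mt (norm_eq_zero_iff' W).mp hb
  set n := (Algebra.norm k[X] b).natDegree with hn'
  have hbn : (Algebra.norm k[X] b).degree = (n : WithBot ℕ) := degree_eq_natDegree hn
  obtain ⟨p, q, rfl⟩ := exists_smul_basis_eq a
  obtain ⟨p', q', rfl⟩ := exists_smul_basis_eq b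
  rw [hbn] at h
  have ha1 := (degree_norm_lt_iff p q (n + 1)).mp
    (h.trans_lt (by exact_mod_cast Nat.lt_succ_self n))
  have hb1 := (degree_norm_lt_iff p' q' (n + 1)).mp
    (hbn.le.trans_lt (by exact_mod_cast Nat.lt_succ_self n))
  have hb2 : ¬ ((∀ i, n ≤ 2 * i → p'.coeff i = 0) ∧ ∀ i, n ≤ 2 * i + 3 → q'.coeff i = 0) :=
    fun hc => absurd ((degree_norm_lt_iff p' q' n).mpr hc) (not_lt.mpr hbn.ge)
  rw [hbn]
  simp_rw [smul_one_add_smul_Y_sub, degree_norm_lt_iff, coeff_sub, coeff_C_mul]
  rw [not_and_or] at hb2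
  rcases hb2 with hb2 | hb2 <;> push Not at hb2 <;> obtain ⟨i, hi, hne⟩ := hb2
  · have hin : 2 * i = n := le_antisymm (not_lt.mp fun hlt => hne (hb1.1 i hlt)) hi
    refine ⟨p.coeff i / p'.coeff i, fun j hj => ?_, fun j hj => ?_⟩
    · rcases eq_or_ne j i with rfl | hji
      · rw [div_mul_cancel₀ _ hne, sub_self]
      · rw [ha1.1 j (by omega), hb1.1 j (by omega), mul_zero, sub_zero]
    · rw [ha1.2 j (by omega), hb1.2 j (by omega), mul_zero, sub_zero]
  · have hin : 2 * i + 3 = n := le_antisymm (not_lt.mp fun hlt => hne (hb1.2 i hlt)) hi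
    refine ⟨q.coeff i / q'.coeff i, fun j hj => ?_, fun j hj => ?_⟩
    · rw [ha1.1 j (by omega), hb1.1 j (by omega), mul_zero, sub_zero]
    · rcases eq_or_ne j i with rfl | hji
      · rw [div_mul_cancel₀ _ hne, sub_self]
      · rw [ha1.2 j (by omega), hb1.2 j (by omega), mul_zero, sub_zero]

/-- A function regular at infinity is congruent to a constant there. -/
theorem exists_const_ord_sub_pos {f : W.FunctionField} (hf : 0 ≤ ord (0 : W.Point) f) :
    ∃ c : k, f - const W c = 0 ∨ 0 < ord (0 : W.Point) (f - const W c) := by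
  obtain ⟨a, b, hb, rfl⟩ := IsFractionRing.div_surjective (A := W.CoordinateRing) f
  have hb0 : b ≠ 0 := nonZeroDivisors.ne_zero hb
  rcases eq_or_ne a 0 with rfl | ha0
  · exact ⟨0, .inl (by simp)⟩
  have inj := IsFractionRing.injective W.CoordinateRing W.FunctionField
  have hA := (map_ne_zero_iff _ inj).mpr ha0
  have hB := (map_ne_zero_iff _ inj).mpr hb0
  rw [ord_div _ hA hB, ord_zero_algebraMap ha0, ord_zero_algebraMap hb0] at hf
  obtain ⟨c, hc⟩ := exists_degree_norm_sub_lt (a := a) hb0 (by
    rw [degree_eq_natDegree (mt (norm_eq_zero_iff' W).mp ha0),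
      degree_eq_natDegree (mt (norm_eq_zero_iff' W).mp hb0)]
    exact_mod_cast (by omega : (Algebra.norm k[X] a).natDegree ≤ (Algebra.norm k[X] b).natDegree))
  refine ⟨c, ?_⟩
  have he : algebraMap W.CoordinateRing W.FunctionField a / algebraMap _ _ b - const W c =
      algebraMap _ _ (a - algebraMap k W.CoordinateRing c * b) / algebraMap _ _ b := by
    rw [map_sub, map_mul, const, RingHom.comp_apply, sub_div, mul_div_cancel_right₀ _ hB]
  rcases eq_or_ne (a - algebraMap k W.CoordinateRing c * b) 0 with h0 | h0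
  · exact .inl (by rw [he, h0, map_zero, zero_div])
  refine .inr ?_
  rw [he, ord_div _ ((map_ne_zero_iff _ inj).mpr h0) hB, ord_zero_algebraMap h0,
    ord_zero_algebraMap hb0]
  have := natDegree_lt_natDegree (mt (norm_eq_zero_iff' W).mp h0) hc
  omega

end

end FLTAgent.WeilPairing
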