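import Fermat.Agent.WeilPairing.Translate

/-!
# Functions with simple poles

The function `lineFun R = (y - y(-R)) / (x - x(R))` has simple poles at `0` and at `R` with opposite
leading coefficients, and no other pole.
-/

set_option autoImplicit false
set_option linter.unusedSectionVars false

open scoped nonZeroDivisors Polynomial.Bivariate WeierstrassCurve.Affine
open Polynomial WithZero
open WeierstrassCurve WeierstrassCurve.Affine WeierstrassCurve.Affine.CoordinateRing

namespace FLTAgent.WeilPairing

noncomputable section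

variable {k : Type*} [Field k] {W : Affine k} [IsAlgClosed k] [W.IsElliptic]

theorem ord_add_nonneg {P : W.Point} {f g : W.FunctionField} (hf : 0 ≤ ord P f)
    (hg : 0 ≤ ord P g) : 0 ≤ ord P (f + g) := by
  rcases le_ord_add P 0 (.inr hf) (.inr hg) with h | h
  · simp [h]
  · exact h

theorem ord_sub_nonneg {P : W.Point} {f g : W.FunctionField} (hf : 0 ≤ ord P f)
    (hg : 0 ≤ ord P g) : 0 ≤ ord P (f - g) := by
  rw [sub_eq_add_neg]
  exact ord_add_nonneg hf (by rwa [ord_neg])

theorem ord_const_mul_nonneg {P : W.Point} (c : k) {f : W.FunctionField} (hf : 0 ≤ ord P f) :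
    0 ≤ ord P (const W c * f) := by
  rcases ord_const_mul_ge P c 0 (.inr hf) with h | h
  · simp [h]
  · exact h

theorem ord_sum_nonneg {P : W.Point} {ι : Type*} (s : Finset ι) (f : ι → W.FunctionField)
    (hf : ∀ i ∈ s, 0 ≤ ord P (f i)) : 0 ≤ ord P (∑ i ∈ s, f i) :=
  Finset.sum_induction f (fun g => 0 ≤ ord P g) (fun _ _ => ord_add_nonneg) (by simp) hf

theorem xfun_ne_zero : xfun W ≠ 0 := by
  classical
  intro h; have := ord_xfun (W := W); rw [h] at this; simp at this

theorem yfun_ne_zero : yfun W ≠ 0 := by
  classical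
  intro h; have := ord_yfun (W := W); rw [h] at this; simp at this

variable (W) in
/-- A function with a simple pole at infinity. -/
def poleFun : W.FunctionField := yfun W / xfun W

theorem poleFun_ne_zero : poleFun W ≠ 0 := div_ne_zero yfun_ne_zero xfun_ne_zero

variable [DecidableEq k]

theorem ord_poleFun : ord (0 : W.Point) (poleFun W) = -1 := by
  rw [poleFun, ord_div _ yfun_ne_zero xfun_ne_zero, ord_yfun, ord_xfun]; norm_num

theorem exists_leading_coeff {f : W.FunctionField} (hf : -1 ≤ ord (0 : W.Point) f) :
    ∃ c : k, 0 ≤ ord (0 : W.Point) (f - const W c * poleFun W) := by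
  rcases eq_or_ne f 0 with rfl | hf0
  · exact ⟨0, by simp⟩
  obtain ⟨c, hc⟩ := exists_const_ord_sub_pos (f := f / poleFun W)
    (by rw [ord_div _ hf0 poleFun_ne_zero, ord_poleFun]; omega)
  refine ⟨c, ?_⟩
  rw [show f - const W c * poleFun W = (f / poleFun W - const W c) * poleFun W by
    rw [sub_mul, div_mul_cancel₀ _ poleFun_ne_zero]]
  rcases eq_or_ne (f / poleFun W - const W c) 0 with h0 | h0
  · simp [h0]
  · rw [ord_mul _ h0 poleFun_ne_zero, ord_poleFun]
    have := hc.resolve_left h0
    omega

theorem eq_zero_of_ord_poleFun_mul_nonneg {c : k}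
    (h : 0 ≤ ord (0 : W.Point) (const W c * poleFun W)) : c = 0 := by
  by_contra hc
  rw [ord_mul _ ((map_ne_zero_iff _ (const_injective W)).mpr hc) poleFun_ne_zero, ord_const,
    ord_poleFun] at h
  omega

/-- No function has a single simple pole. -/
theorem exists_const_of_simple_pole {f : W.FunctionField}
    (h : ∀ P : W.Point, P ≠ 0 → 0 ≤ ord P f) (h0 : -1 ≤ ord (0 : W.Point) f) :
    ∃ c : k, f = const W c := by
  obtain ⟨a, rfl⟩ := mem_range_algebraMap_of_ord_nonneg h
  rcases eq_or_ne a 0 with rfl | ha
  · exact ⟨0, by simp⟩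
  rw [ord_zero_algebraMap ha] at h0
  have hne := natDegree_norm_ne_one a
  obtain ⟨c, rfl⟩ := eq_algebraMap_of_degree_norm_le_zero (a := a) <| by
    rw [degree_eq_natDegree (mt (norm_eq_zero_iff' W).mp ha)]
    have : (Algebra.norm k[X] a).natDegree = 0 := by omega
    simp [this]
  exact ⟨c, rfl⟩

theorem ord_eq_zero_of_notMem {x y : k} (h : W.Nonsingular x y) {a : W.CoordinateRing}
    (ha : a ∉ XYIdeal W x (C y)) :
    ord (Point.some x y h) (algebraMap W.CoordinateRing W.FunctionField a) = 0 := by
  simp only [ord, valAt]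
  rw [(IsDedekindDomain.HeightOneSpectrum.valuation_eq_one_iff_notMem (heightOne h)).mpr ha]
  simp

theorem algebraMap_notMem {x y : k} (h : W.Nonsingular x y) {c : k} (hc : c ≠ 0) :
    algebraMap k W.CoordinateRing c ∉ XYIdeal W x (C y) :=
  fun hm => (isMaximal_XYIdeal h.left).ne_top
    (Ideal.eq_top_of_isUnit_mem _ hm ((Ne.isUnit hc).map _))

theorem XClass_notMem {x y : k} (h : W.Nonsingular x y) {a : k} (ha : x ≠ a) :
    XClass W a ∉ XYIdeal W x (C y) := by
  intro hm
  have := (XYIdeal W x (C y)).sub_mem hm (Ideal.subset_span (Set.mem_insert (XClass W x) _))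
  rw [XClass, XClass, ← map_sub, ← C_sub, sub_sub_sub_cancel_left, ← C_sub] at this
  exact algebraMap_notMem h (sub_ne_zero.mpr ha) this

theorem YClass_notMem {x y : k} (h : W.Nonsingular x y) {b : k} (hb : y ≠ b) :
    YClass W (C b) ∉ XYIdeal W x (C y) := by
  intro hm
  have := (XYIdeal W x (C y)).sub_mem hm
    (Ideal.subset_span (Set.mem_insert_of_mem _ (rfl : YClass W (C y) = YClass W (C y))))
  rw [YClass, YClass, ← map_sub, sub_sub_sub_cancel_left, ← C_sub, ← C_sub] at this
  exact algebraMap_notMem h (sub_ne_zero.mpr hb) this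

/-- The slope of the line through the generic point and `-R`. -/
def lineFun : W.Point → W.FunctionField
  | .zero => 0
  | .some a b _ => (yfun W - const W (W.negY a b)) / (xfun W - const W a)

theorem ord_lineFun_sub_poleFun {β a : k} :
    0 ≤ ord (0 : W.Point) ((yfun W - const W β) / (xfun W - const W a) - poleFun W) := by
  obtain ⟨hd, hdo⟩ := ord_xfun_sub_const (W := W) a
  rw [poleFun, div_sub_div _ _ hd xfun_ne_zero,
    show (yfun W - const W β) * xfun W - (xfun W - const W a) * yfun W =
      const W (-β) * xfun W + const W a * yfun W by rw [map_neg]; ring]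
  rcases eq_or_ne (const W (-β) * xfun W + const W a * yfun W) 0 with h0 | h0
  · rw [h0]; simp
  have hb := (le_ord_add (0 : W.Point) (-3)
    (ord_const_mul_ge _ (-β) _ (.inr (by have := ord_xfun (W := W); omega)))
    (ord_const_mul_ge _ a _ (.inr (ord_yfun (W := W)).ge))).resolve_left h0
  rw [ord_div _ h0 (mul_ne_zero hd xfun_ne_zero), ord_mul _ hd xfun_ne_zero, hdo, ord_xfun]
  omega

theorem ord_lineFun_at_zero {R : W.Point} (hR : R ≠ 0) :
    0 ≤ ord (0 : W.Point) (lineFun R - poleFun W) := by
  rcases R with _ | ⟨a, b, h⟩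
  · exact absurd rfl hR
  · exact ord_lineFun_sub_poleFun

theorem lineFun_identity (a b : k) (h : W.Equation a b) :
    (yfun W - const W b) * (yfun W - const W (W.negY a b)) =
      (xfun W - const W a) * (xfun W ^ 2 + const W (a + W.a₂) * xfun W +
        const W (a ^ 2 + W.a₂ * a + W.a₄) - const W W.a₁ * yfun W) := by
  have e0 := congrArg (const W) ((equation_iff (W := W) a b).mp h)
  have eg := (equation_iff (W := (W⁄W.FunctionField : Affine W.FunctionField)) (xfun W) (yfun W)).mp
    functionField_equation
  simp only [map_add, map_mul, map_pow] at e0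
  simp only [WeierstrassCurve.baseChange, WeierstrassCurve.map_a₁, WeierstrassCurve.map_a₂,
    WeierstrassCurve.map_a₃, WeierstrassCurve.map_a₄, WeierstrassCurve.map_a₆,
    algebraMap_functionField] at eg
  simp only [Affine.negY, map_add, map_sub, map_mul, map_pow, map_neg]
  linear_combination eg - e0

theorem translate_lineFun {a b : k} (h : W.Nonsingular a b) :
    translate (Point.some a b h) (lineFun (Point.some a b h)) =
      -((yfun W - const W b) / (xfun W - const W a)) - const W W.a₁ := by
  have hg := map_translate_gen (W := W) (Point.some a b h)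
  obtain ⟨h', he⟩ := embedPt_some h
  obtain ⟨hd, -⟩ := ord_xfun_sub_const (W := W) a
  have hxne : xfun W ≠ const W a := sub_ne_zero.mp hd
  rw [he, gen, Point.map_some, Point.add_of_X_ne hxne, Point.some.injEq] at hg
  obtain ⟨hX, hY⟩ := hg
  set P := Point.some a b h
  have hline : lineFun P = (yfun W - const W (W.negY a b)) / (xfun W - const W a) := rfl
  rw [hline, map_div₀, map_sub, map_sub, translate_const, translate_const]
  have hne : translate P (xfun W) - const W a ≠ 0 := by
    rw [← translate_const P a, ← map_sub]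
    exact (map_ne_zero_iff _ (translate P).injective).mpr hd
  rw [div_eq_iff hne]
  rw [Affine.slope_of_X_ne hxne] at hX hY
  simp only [Affine.addX, Affine.addY, Affine.negAddY, Affine.negY, WeierstrassCurve.baseChange,
    WeierstrassCurve.map_a₁, WeierstrassCurve.map_a₂, WeierstrassCurve.map_a₃,
    algebraMap_functionField] at hX hY
  rw [hY, hX]
  simp only [Affine.negY, map_sub, map_mul, map_neg]
  field_simp
  ring

theorem ord_translate_lineFun_add_poleFun {R : W.Point} (hR : R ≠ 0) :
    0 ≤ ord (0 : W.Point) (translate R (lineFun R) + poleFun W) := by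
  rcases R with _ | ⟨a, b, h⟩
  · exact absurd rfl hR
  rw [translate_lineFun, show -((yfun W - const W b) / (xfun W - const W a)) - const W W.a₁ +
    poleFun W = -(((yfun W - const W b) / (xfun W - const W a)) - poleFun W) - const W W.a₁ by ring]
  exact ord_sub_nonneg (by rw [ord_neg]; exact ord_lineFun_sub_poleFun) (by rw [ord_const])

theorem ord_lineFun_nonneg {R Q : W.Point} (hQ : Q ≠ 0) (hQR : Q ≠ R) :
    0 ≤ ord Q (lineFun R) := by
  rcases R with _ | ⟨a, b, h⟩
  · simp [lineFun]
  rcases Q with _ | ⟨x, y, hxy⟩
  · exact absurd rfl hQ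
  have hd := (ord_xfun_sub_const (W := W) a).1
  have hX : xfun W - const W a = algebraMap W.CoordinateRing W.FunctionField (XClass W a) := by
    rw [XClass, C_sub, map_sub, map_sub]; rfl
  rcases eq_or_ne x a with rfl | hxa
  · have hyb : y ≠ b := by rintro rfl; exact hQR rfl
    have hb : yfun W - const W b = algebraMap W.CoordinateRing W.FunctionField (YClass W (C b)) := by
      rw [YClass, map_sub, map_sub]; rfl
    have hne : yfun W - const W b ≠ 0 := by
      rw [hb]
      exact (map_ne_zero_iff _ (IsFractionRing.injective _ _)).mpr (YClass_ne_zero _)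
    set num := CoordinateRing.mk W (C (X ^ 2 + C (x + W.a₂) * X +
      C (x ^ 2 + W.a₂ * x + W.a₄)) - C (C W.a₁) * Y) with hnum
    have hnum' : algebraMap W.CoordinateRing W.FunctionField num = xfun W ^ 2 +
        const W (x + W.a₂) * xfun W + const W (x ^ 2 + W.a₂ * x + W.a₄) - const W W.a₁ * yfun W := by
      rw [hnum]
      simp only [map_add, map_sub, map_mul, map_pow]
      simp [xfun, yfun, const]
      rfl
    have : lineFun (Point.some x b h) =
        algebraMap W.CoordinateRing W.FunctionField num / (yfun W - const W b) := by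
      rw [lineFun, div_eq_div_iff hd hne, hnum', mul_comm (yfun W - const W _),
        lineFun_identity x b h.left]
      ring
    rw [this]
    rcases eq_or_ne (algebraMap W.CoordinateRing W.FunctionField num) 0 with h0 | h0
    · simp [h0]
    rw [ord_div _ h0 hne]
    have h1 := ord_algebraMap_nonneg hxy num
    have h2 := ord_eq_zero_of_notMem hxy (YClass_notMem hxy hyb)
    rw [← hb] at h2
    omega
  · show 0 ≤ ord _ ((yfun W - const W (W.negY a b)) / (xfun W - const W a))
    rcases eq_or_ne (yfun W - const W (W.negY a b)) 0 with h0 | h0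
    · rw [h0]; simp
    rw [ord_div _ h0 hd]
    have h1 := ord_algebraMap_nonneg hxy (YClass W (C (W.negY a b)))
    have h1' : algebraMap W.CoordinateRing W.FunctionField (YClass W (C (W.negY a b))) =
        yfun W - const W (W.negY a b) := by rw [YClass, map_sub, map_sub]; rfl
    have h2 := ord_eq_zero_of_notMem hxy (XClass_notMem hxy hxa)
    rw [← hX] at h2
    rw [h1'] at h1
    omega

end

end FLTAgent.WeilPairing
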