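import Fermat.Agent.WeilPairing.OrdTranslate

/-!
# Compatibility of orders with translations
-/

set_option autoImplicit false
set_option linter.unusedSectionVars false

open scoped nonZeroDivisors Polynomial.Bivariate WeierstrassCurve.Affine
open Polynomial WithZero
open WeierstrassCurve WeierstrassCurve.Affine WeierstrassCurve.Affine.CoordinateRing

namespace FLTAgent.WeilPairing

noncomputable section

variable {k : Type*} [Field k] {W : Affine k} [IsAlgClosed k] [W.IsElliptic] [DecidableEq k]

theorem ord_quadratic_ge (c₀ c₁ c₂ c₃ c₄ : k) :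
    const W c₀ * xfun W ^ 2 + const W c₁ * (xfun W * yfun W) + const W c₂ * xfun W +
        const W c₃ * yfun W + const W c₄ = 0 ∨
      -5 ≤ ord (0 : W.Point) (const W c₀ * xfun W ^ 2 + const W c₁ * (xfun W * yfun W) +
        const W c₂ * xfun W + const W c₃ * yfun W + const W c₄) := by
  have hx := ord_xfun (W := W)
  have hy := ord_yfun (W := W)
  have hx0 : xfun W ≠ 0 := by intro h; rw [h] at hx; simp at hx
  have hy0 : yfun W ≠ 0 := by intro h; rw [h] at hy; simp at hy
  exact le_ord_add _ _ (le_ord_add _ _ (le_ord_add _ _ (le_ord_add _ _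
    (ord_const_mul_ge _ _ _ (.inr (by rw [ord_sq_eq]; omega)))
    (ord_const_mul_ge _ _ _ (.inr (by rw [ord_mul _ hx0 hy0]; omega))))
    (ord_const_mul_ge _ _ _ (.inr (by omega))))
    (ord_const_mul_ge _ _ _ (.inr (by omega))))
    (.inr (by rw [ord_const]; norm_num))

theorem ord_xfun_sub_const (x₀ : k) :
    xfun W - const W x₀ ≠ 0 ∧ ord (0 : W.Point) (xfun W - const W x₀) = -2 := by
  have hx := ord_xfun (W := W)
  have hx0 : xfun W ≠ 0 := by intro h; rw [h] at hx; simp at hx
  have hne : xfun W - const W x₀ ≠ 0 := by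
    intro h
    rw [sub_eq_zero] at h
    rw [h, ord_const] at hx
    norm_num at hx
  refine ⟨hne, ?_⟩
  rw [sub_eq_add_neg, ← hx]
  exact ord_add_eq_of_lt _ hx0 (.inr (by rw [ord_neg, ord_const, hx]; norm_num))

theorem translate_xy_sub {x₀ y₀ : k} (h : W.Nonsingular x₀ y₀) :
    (translate (Point.some x₀ y₀ h) (xfun W) - const W x₀ = 0 ∨
      0 < ord (0 : W.Point) (translate (Point.some x₀ y₀ h) (xfun W) - const W x₀)) ∧
    (translate (Point.some x₀ y₀ h) (yfun W) - const W y₀ = 0 ∨
      0 < ord (0 : W.Point) (translate (Point.some x₀ y₀ h) (yfun W) - const W y₀)) := by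
  have hg := map_translate_gen (W := W) (Point.some x₀ y₀ h)
  obtain ⟨h', he⟩ := embedPt_some h
  obtain ⟨hdne, hdord⟩ := ord_xfun_sub_const (W := W) x₀
  have hxne : xfun W ≠ const W x₀ := sub_ne_zero.mp hdne
  rw [he, gen, Point.map_some, Point.add_of_X_ne hxne, Point.some.injEq] at hg
  obtain ⟨hX, hY⟩ := hg
  set X' := translate (Point.some x₀ y₀ h) (xfun W)
  set Y' := translate (Point.some x₀ y₀ h) (yfun W)
  set d := xfun W - const W x₀ with hd
  have e0 := (equation_iff (W := W) x₀ y₀).mp h.left
  have e0' := congrArg (const W) e0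
  simp only [map_add, map_mul, map_pow] at e0'
  have eg := (equation_iff (W := (W⁄W.FunctionField : Affine W.FunctionField)) (xfun W) (yfun W)).mp
    functionField_equation
  simp only [WeierstrassCurve.baseChange, WeierstrassCurve.map_a₁, WeierstrassCurve.map_a₂,
    WeierstrassCurve.map_a₃, WeierstrassCurve.map_a₄, WeierstrassCurve.map_a₆,
    algebraMap_functionField] at eg
  set A := W.a₄ + 2 * W.a₂ * x₀ + 3 * x₀ ^ 2 - W.a₁ * y₀ with hA
  set B := -(2 * y₀ + W.a₁ * x₀ + W.a₃) with hB
  set C₀ := W.a₆ + y₀ ^ 2 + W.a₁ * x₀ * y₀ - W.a₂ * x₀ ^ 2 - 2 * x₀ ^ 3 with hC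
  have hA' := congrArg (const W) hA
  have hB' := congrArg (const W) hB
  have hC' := congrArg (const W) hC
  simp only [map_add, map_sub, map_mul, map_pow, map_neg, map_ofNat] at hA' hB' hC'
  rw [Affine.slope_of_X_ne hxne] at hX hY
  simp only [Affine.addX, Affine.addY, Affine.negAddY, Affine.negY, WeierstrassCurve.baseChange,
    WeierstrassCurve.map_a₁, WeierstrassCurve.map_a₂, WeierstrassCurve.map_a₃,
    algebraMap_functionField, ← hd] at hX hY
  have hXnum : (X' - const W x₀) * d ^ 2 =
      const W 0 * xfun W ^ 2 + const W 0 * (xfun W * yfun W) + const W A * xfun W +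
        const W B * yfun W + const W C₀ := by
    rw [hX, hA', hB', hC', map_zero]
    field_simp
    rw [hd]
    linear_combination eg
  have hYnum : (Y' - const W y₀) * d ^ 3 =
      const W (-W.a₁ * A - 3 * B * x₀ - B * W.a₂) * xfun W ^ 2 +
        const W (-A) * (xfun W * yfun W) +
        const W (A * y₀ - W.a₁ * C₀ + W.a₁ * A * x₀ + 3 * B * x₀ ^ 2 - B * W.a₄) * xfun W +
        const W (B * y₀ - C₀ + W.a₁ * B * x₀ + B * W.a₃) * yfun W +
        const W (C₀ * y₀ + W.a₁ * C₀ * x₀ - B * x₀ ^ 3 - B * W.a₆) := by
    rw [hY]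
    simp only [map_add, map_sub, map_mul, map_pow, map_neg, map_ofNat, hA', hB', hC']
    field_simp
    rw [hd]
    linear_combination ((2 * const W y₀ + const W W.a₁ * const W x₀ + const W W.a₃)
      - (yfun W - const W y₀) - const W W.a₁ * (xfun W - const W x₀)) * eg
  have fin : ∀ (Z : W.FunctionField) (m : ℕ) (c₀ c₁ c₂ c₃ c₄ : k),
      Z * d ^ m = const W c₀ * xfun W ^ 2 + const W c₁ * (xfun W * yfun W) +
        const W c₂ * xfun W + const W c₃ * yfun W + const W c₄ → 3 ≤ m →
      Z = 0 ∨ 0 < ord (0 : W.Point) Z := by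
    intro Z m c₀ c₁ c₂ c₃ c₄ hZ hm
    rcases eq_or_ne Z 0 with h0 | h0
    · exact .inl h0
    refine .inr ?_
    have hb := (ord_quadratic_ge (W := W) c₀ c₁ c₂ c₃ c₄).resolve_left
      (hZ ▸ mul_ne_zero h0 (pow_ne_zero m hdne))
    rw [← hZ, ord_mul _ h0 (pow_ne_zero m hdne), ord_pow, hdord] at hb
    have : (3 : ℤ) ≤ m := by exact_mod_cast hm
    omega
  refine ⟨?_, fin _ 3 _ _ _ _ _ hYnum le_rfl⟩
  rcases eq_or_ne (X' - const W x₀) 0 with h0 | h0
  · exact .inl h0
  refine .inr ?_
  rw [map_zero, zero_mul, zero_mul, zero_add, zero_add] at hXnum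
  have hb := (le_ord_add (0 : W.Point) (-3 : ℤ) (le_ord_add (0 : W.Point) (-3 : ℤ)
      (ord_const_mul_ge _ A _ (.inr (by have := ord_xfun (W := W); omega)))
      (ord_const_mul_ge _ B _ (.inr (ord_yfun (W := W)).ge)))
    (.inr (by rw [ord_const]; norm_num : (-3 : ℤ) ≤ ord (0 : W.Point) (const W C₀)))).resolve_left
      (hXnum ▸ mul_ne_zero h0 (pow_ne_zero 2 hdne))
  rw [← hXnum, ord_mul _ h0 (pow_ne_zero 2 hdne), ord_pow, hdord] at hb
  omega

theorem exists_sub_const_mem {x₀ y₀ : k} (h : W.Nonsingular x₀ y₀) (s : W.CoordinateRing) :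
    ∃ c : k, s - algebraMap k W.CoordinateRing c ∈ XYIdeal W x₀ (C y₀) := by
  refine ⟨quotientXYIdealEquiv h.left (Ideal.Quotient.mk _ s), ?_⟩
  rw [← Ideal.Quotient.eq_zero_iff_mem, map_sub, sub_eq_zero,
    Ideal.Quotient.mk_algebraMap]
  apply (quotientXYIdealEquiv h.left).injective
  rw [AlgEquiv.commutes]
  simp

/-- The order at infinity of a translated function is the order at the translation point. -/
theorem ord_zero_translate (P : W.Point) (f : W.FunctionField) :
    ord (0 : W.Point) (translate P f) = ord P f := by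
  rcases P with _ | ⟨x₀, y₀, h⟩
  · rw [← Point.zero_def, translate_zero]
  rcases eq_or_ne f 0 with rfl | hf
  · simp
  set P := Point.some x₀ y₀ h with hP
  let v := (valInfty W).comap (translate P).toRingHom
  have hv : ∀ g : W.FunctionField, v g = valInfty W (translate P g) := fun g => rfl
  obtain ⟨hx, hy⟩ := translate_xy_sub h
  have small : ∀ g : W.FunctionField, g = 0 ∨ 0 < ord (0 : W.Point) g → valInfty W g < 1 := by
    rintro g (rfl | hg)
    · simp
    · have hg0 : g ≠ 0 := by rintro rfl; simp at hg
      rw [← valAt_zero (W := W), valAt_eq_exp _ hg0, ← WithZero.exp_zero, exp_lt_exp]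
      omega
  have hconst : ∀ c : k, valInfty W (const W c) ≤ 1 := fun c => by
    rcases eq_or_ne c 0 with rfl | hc
    · simp
    · rw [← valAt_zero (W := W), valAt_eq_exp _ ((map_ne_zero_iff _ (const_injective W)).mpr hc),
        ord_const]
      simp
  have hconst' : ∀ c : k, c ≠ 0 → valInfty W (const W c) = 1 := fun c hc => by
    rw [← valAt_zero (W := W), valAt_eq_exp _ ((map_ne_zero_iff _ (const_injective W)).mpr hc),
      ord_const]
    simp
  -- `v` is at most one on regular functions
  have hle : ∀ a : W.CoordinateRing, v (algebraMap W.CoordinateRing W.FunctionField a) ≤ 1 := by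
    let O := v.integer.comap (algebraMap W.CoordinateRing W.FunctionField)
    have hc' : ∀ c : k, algebraMap k W.CoordinateRing c ∈ O := fun c => by
      show v _ ≤ 1
      rw [hv, ← RingHom.comp_apply, ← const, translate_const]
      exact hconst c
    have hX : CoordinateRing.mk W (C X) ∈ O := by
      show v _ ≤ 1
      rw [hv, show translate P (algebraMap _ _ (CoordinateRing.mk W (C X))) =
        (translate P (xfun W) - const W x₀) + const W x₀ by simp [xfun]]
      exact (Valuation.map_add _ _ _).trans (max_le (small _ hx).le (hconst _))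
    have hY : CoordinateRing.mk W Y ∈ O := by
      show v _ ≤ 1
      rw [hv, show translate P (algebraMap _ _ (CoordinateRing.mk W Y)) =
        (translate P (yfun W) - const W y₀) + const W y₀ by simp [yfun]]
      exact (Valuation.map_add _ _ _).trans (max_le (small _ hy).le (hconst _))
    have hCp : ∀ p : k[X], CoordinateRing.mk W (C p) ∈ O := fun p => by
      induction p using Polynomial.induction_on' with
      | add p q hp hq => simpa [map_add] using O.add_mem hp hq
      | monomial n c =>
        rw [← Polynomial.C_mul_X_pow_eq_monomial, map_mul, map_mul, map_pow, map_pow]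
        exact O.mul_mem (hc' c) (O.pow_mem hX n)
    intro a
    obtain ⟨p, q, rfl⟩ := exists_smul_basis_eq a
    show _ ∈ O
    rw [CoordinateRing.smul, CoordinateRing.smul, mul_one]
    exact O.add_mem (hCp p) (O.mul_mem (hCp q) hY)
  have hlt : ∀ a ∈ XYIdeal W x₀ (C y₀),
      v (algebraMap W.CoordinateRing W.FunctionField a) < 1 := by
    intro a ha
    rw [XYIdeal, Ideal.mem_span_pair] at ha
    obtain ⟨r, s, rfl⟩ := ha
    rw [map_add, map_mul, map_mul]
    refine Valuation.map_add_lt _ ?_ ?_ <;> rw [map_mul]
    · refine mul_lt_one_of_nonneg_of_lt_one_right (hle r) zero_le ?_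
      rw [hv, show algebraMap W.CoordinateRing W.FunctionField (XClass W x₀) =
        xfun W - const W x₀ by rw [XClass, C_sub, map_sub, map_sub]; rfl, map_sub, translate_const]
      exact small _ hx
    · refine mul_lt_one_of_nonneg_of_lt_one_right (hle s) zero_le ?_
      rw [hv, show algebraMap W.CoordinateRing W.FunctionField (YClass W (C y₀)) =
        yfun W - const W y₀ by rw [YClass, map_sub, map_sub]; rfl, map_sub, translate_const]
      exact small _ hy
  have hunit : ∀ s ∉ XYIdeal W x₀ (C y₀),
      v (algebraMap W.CoordinateRing W.FunctionField s) = 1 := by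
    intro s hs
    obtain ⟨c, hc⟩ := exists_sub_const_mem h s
    have hc0 : c ≠ 0 := by rintro rfl; simp at hc; exact hs hc
    have h1 : v (algebraMap _ _ (algebraMap k W.CoordinateRing c)) = 1 := by
      rw [hv, ← RingHom.comp_apply, ← const, translate_const]
      exact hconst' c hc0
    calc v (algebraMap W.CoordinateRing W.FunctionField s)
        = v (algebraMap _ _ (algebraMap k W.CoordinateRing c) +
            algebraMap _ _ (s - algebraMap k W.CoordinateRing c)) := by
          rw [← map_add, add_sub_cancel]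
      _ = 1 := by rw [Valuation.map_add_eq_of_lt_left _ (h1.symm ▸ hlt _ hc), h1]
  -- `v` is a power of the adic valuation, and surjective
  have hequal : ∀ g : W.FunctionField, valAt P g = 1 → v g = 1 := by
    intro g hg
    have hg0 : g ≠ 0 := by rintro rfl; simp at hg
    obtain ⟨a, b, hab⟩ := (heightOne h).exists_primeCompl_mul_eq_of_integer (K := W.FunctionField) g hg.le
    have hvb := hunit b b.2
    have h2 := congrArg (valAt P) hab
    rw [map_mul, hg, one_mul] at h2
    have : valAt P (algebraMap W.CoordinateRing W.FunctionField b) = 1 :=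
      (IsDedekindDomain.HeightOneSpectrum.valuation_eq_one_iff_notMem _).mpr b.2
    rw [this] at h2
    have ha : a ∉ XYIdeal W x₀ (C y₀) :=
      (IsDedekindDomain.HeightOneSpectrum.valuation_eq_one_iff_notMem (heightOne h)).mp h2.symm
    have h3 := congrArg v hab
    rw [map_mul, hvb, mul_one, hunit a ha] at h3
    exact h3
  obtain ⟨π, hπ⟩ := (heightOne h).valuation_exists_uniformizer W.FunctionField
  have hπ0 : π ≠ 0 := by rintro rfl; simp at hπ; exact WithZero.exp_ne_zero hπ.symm
  set e := ord (0 : W.Point) (translate P π) with he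
  have hmul : ∀ g : W.FunctionField, g ≠ 0 →
      ord (0 : W.Point) (translate P g) = ord P g * e := by
    intro g hg
    set n := ord P g with hn
    have h1 : valAt P (g / π ^ n) = 1 := by
      rw [map_div₀, map_zpow₀, valAt_eq_exp P hg, show valAt P π = exp (-1 : ℤ) from hπ,
        ← exp_zsmul, ← hn, smul_eq_mul, mul_neg, mul_one, div_self exp_ne_zero]
    have h2 := hequal _ h1
    rw [hv, map_div₀, map_zpow₀, map_div₀, map_zpow₀, div_eq_one_iff_eq
      (zpow_ne_zero _ ((Valuation.ne_zero_iff _).mpr
        ((map_ne_zero_iff _ (translate P).injective).mpr hπ0)))] at h2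
    have h3 := congrArg log h2
    rw [log_zpow] at h3
    simp only [e, ord, valAt_zero, h3, smul_eq_mul]
    ring
  obtain ⟨u, hu⟩ : ∃ u : W.FunctionField, u ≠ 0 ∧ ord (0 : W.Point) u = -1 := by
    refine ⟨yfun W / xfun W, div_ne_zero ?_ ?_, ?_⟩
    · intro h0; have := ord_yfun (W := W); rw [h0] at this; simp at this
    · intro h0; have := ord_xfun (W := W); rw [h0] at this; simp at this
    · rw [ord_div _ (by intro h0; have := ord_yfun (W := W); rw [h0] at this; simp at this)
        (by intro h0; have := ord_xfun (W := W); rw [h0] at this; simp at this),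
        ord_yfun, ord_xfun]
      norm_num
  have he1 : e = 1 ∨ e = -1 := by
    have h0 := hmul (translate (-P) u) ((map_ne_zero_iff _ (translate (-P)).injective).mpr hu.1)
    rw [translate_translate, add_neg_cancel, translate_zero, hu.2] at h0
    exact Int.eq_one_or_neg_one_of_mul_eq_neg_one' h0.symm |>.elim
      (fun a => .inr a.2) (fun a => .inl a.2)
  have he0 : 0 < e := by
    have h0 := hlt (XClass W x₀) (Ideal.subset_span (Set.mem_insert _ _))
    have hne := (map_ne_zero_iff _ (IsFractionRing.injective W.CoordinateRing W.FunctionField)).mpr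
      (XClass_ne_zero (W' := W) x₀)
    have h1 := hmul _ hne
    have h2 : 0 ≤ ord P (algebraMap W.CoordinateRing W.FunctionField (XClass W x₀)) :=
      ord_algebraMap_nonneg h (XClass W x₀)
    rw [hv, ← valAt_zero (W := W), valAt_eq_exp (0 : W.Point) (f := translate P _) ((map_ne_zero_iff _ (translate P).injective).mpr hne),
      ← WithZero.exp_zero, exp_lt_exp, h1] at h0
    rcases he1 with h' | h'
    · omega
    · rw [h'] at h0; omega
  rcases he1 with h' | h'
  · rw [hmul f hf, h', mul_one]
  · omega

/-- Orders and translations. -/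
theorem ord_translate (Q P : W.Point) (f : W.FunctionField) :
    ord Q (translate P f) = ord (Q + P) f := by
  rw [← ord_zero_translate Q, translate_translate, ord_zero_translate]

/-- An endomorphism sending the generic point to `G` pulls orders back along a point map `ψ` as
soon as translating `G` by `P` gives `G + ψ P`. -/
theorem ord_algHom_of_map (φ : W.FunctionField →ₐ[k] W.FunctionField)
    (hφ : ord (0 : W.Point) (φ (xfun W)) = -2) (P Q : W.Point)
    (h : Point.map (W' := W) (translate P) (Point.map (W' := W) φ (gen W)) =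
      Point.map (W' := W) φ (gen W) + embedPt Q) (f : W.FunctionField) :
    ord P (φ f) = ord Q f := by
  rw [← ord_zero_translate P]
  have : (translate P).comp φ = φ.comp (translate Q) := by
    refine algHom_ext ?_
    rw [← Point.map_map, ← Point.map_map, h, map_translate_gen, map_add, map_embedPt]
  rw [← AlgHom.comp_apply, this, AlgHom.comp_apply, ord_zero_algHom φ hφ, ord_zero_translate]

end

end FLTAgent.WeilPairing
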