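import Fermat.Agent.WeilPairing.Dedekind
import Mathlib.RingTheory.Valuation.ExtendToLocalization
import Mathlib.RingTheory.Polynomial.UniqueFactorization
import Mathlib.RingTheory.Norm.Basic

/-!
# Orders of functions at the points of an elliptic curve

For `P : W.Point` and `f : W.FunctionField`, `ord P f : ℤ` is the order of `f` at `P`. At an affine
point it is the adic valuation at `⟨X - x, Y - y⟩`; at infinity it is minus the degree of the norm.
-/

set_option autoImplicit false

open scoped nonZeroDivisors Polynomial.Bivariate
open Polynomial WithZero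
open WeierstrassCurve WeierstrassCurve.Affine WeierstrassCurve.Affine.CoordinateRing

namespace FLTAgent.WeilPairing

noncomputable section

variable {k : Type*} [Field k] (W : Affine k)

/-- The function `x` in the function field. -/
def xfun : W.FunctionField := algebraMap W.CoordinateRing _ (mk W (C X))

/-- The function `y` in the function field. -/
def yfun : W.FunctionField := algebraMap W.CoordinateRing _ (mk W Y)

/-- The constant functions. -/
def const : k →+* W.FunctionField :=
  (algebraMap W.CoordinateRing W.FunctionField).comp (algebraMap k W.CoordinateRing)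

theorem const_injective : Function.Injective (const W) := (const W).injective

theorem degree_norm_add_le (f g : W.CoordinateRing) :
    (Algebra.norm k[X] (f + g)).degree ≤
      max (Algebra.norm k[X] f).degree (Algebra.norm k[X] g).degree := by
  obtain ⟨p, q, rfl⟩ := exists_smul_basis_eq f
  obtain ⟨p', q', rfl⟩ := exists_smul_basis_eq g
  rw [add_add_add_comm, ← add_smul, ← add_smul, degree_norm_smul_basis, degree_norm_smul_basis,
    degree_norm_smul_basis, max_le_iff]
  constructor
  · rcases le_max_iff.mp (degree_add_le p p') with h | h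
    · exact le_max_of_le_left (le_max_of_le_left (nsmul_le_nsmul_right h 2))
    · exact le_max_of_le_right (le_max_of_le_left (nsmul_le_nsmul_right h 2))
  · rcases le_max_iff.mp (degree_add_le q q') with h | h
    · exact le_max_of_le_left (le_max_of_le_right (add_le_add_left (nsmul_le_nsmul_right h 2) 3))
    · exact le_max_of_le_right (le_max_of_le_right (add_le_add_left (nsmul_le_nsmul_right h 2) 3))

theorem norm_eq_zero_iff' {f : W.CoordinateRing} : Algebra.norm k[X] f = 0 ↔ f = 0 :=
  Algebra.norm_eq_zero_iff_of_basis (CoordinateRing.basis W)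

/-- The valuation at infinity on the coordinate ring: `exp (degree of the norm)`. -/
def infValuation : Valuation W.CoordinateRing ℤᵐ⁰ where
  toFun f := WithBot.recBotCoe 0 (fun d : ℕ => exp (d : ℤ)) (Algebra.norm k[X] f).degree
  map_zero' := by simp [(norm_eq_zero_iff' W).mpr rfl]
  map_one' := by rw [map_one, degree_one]; rfl
  map_mul' f g := by
    rw [map_mul, degree_mul]
    generalize (Algebra.norm k[X] f).degree = a
    generalize (Algebra.norm k[X] g).degree = b
    cases a <;> cases b <;> first | simp | skip
    rw [← WithBot.coe_add, WithBot.recBotCoe_coe]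
    push_cast
    rw [exp_add]
  map_add_le_max' f g := by
    have h := degree_norm_add_le W f g
    revert h
    generalize (Algebra.norm k[X] (f + g)).degree = c
    generalize (Algebra.norm k[X] f).degree = a
    generalize (Algebra.norm k[X] g).degree = b
    cases a <;> cases b <;> cases c <;> simp

theorem infValuation_of_ne_zero {f : W.CoordinateRing} (hf : f ≠ 0) :
    infValuation W f = exp ((Algebra.norm k[X] f).natDegree : ℤ) := by
  show WithBot.recBotCoe (C := fun _ => ℤᵐ⁰) 0 (fun d : ℕ => exp (d : ℤ))
    (Algebra.norm k[X] f).degree = _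
  rw [degree_eq_natDegree (mt (norm_eq_zero_iff' W).mp hf)]
  rfl

/-- The valuation at infinity on the function field. -/
def valInfty : Valuation W.FunctionField ℤᵐ⁰ :=
  (infValuation W).extendToLocalization (S := W.CoordinateRing⁰)
    (fun f hf => by
      show infValuation W f ≠ 0
      rw [infValuation_of_ne_zero W (nonZeroDivisors.ne_zero hf)]
      exact exp_ne_zero) W.FunctionField

theorem valInfty_algebraMap (f : W.CoordinateRing) :
    valInfty W (algebraMap W.CoordinateRing W.FunctionField f) = infValuation W f :=
  Valuation.extendToLocalization_apply_map_apply _ _ _ f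

variable {W}
variable [IsAlgClosed k] [W.IsElliptic]

/-- The height one prime attached to an affine point. -/
def heightOne {x y : k} (h : W.Nonsingular x y) :
    IsDedekindDomain.HeightOneSpectrum W.CoordinateRing where
  asIdeal := XYIdeal W x (C y)
  isPrime := (isMaximal_XYIdeal h.left).isPrime
  ne_bot := (Submodule.ne_bot_iff _).mpr
    ⟨XClass W x, Ideal.subset_span (Set.mem_insert _ _), XClass_ne_zero x⟩

/-- The valuation attached to a point. -/
def valAt : W.Point → Valuation W.FunctionField ℤᵐ⁰
  | .zero => valInfty W
  | .some _ _ h => (heightOne h).valuation W.FunctionField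

@[simp] theorem valAt_zero : valAt (0 : W.Point) = valInfty W := rfl

/-- The order of a function at a point, with junk value `0` at the zero function. -/
def ord (P : W.Point) (f : W.FunctionField) : ℤ := -log (valAt P f)

theorem valAt_ne_zero (P : W.Point) {f : W.FunctionField} (hf : f ≠ 0) : valAt P f ≠ 0 :=
  (Valuation.ne_zero_iff _).mpr hf

theorem valAt_eq_exp (P : W.Point) {f : W.FunctionField} (hf : f ≠ 0) :
    valAt P f = exp (-ord P f) := by
  rw [ord, neg_neg, exp_log (valAt_ne_zero P hf)]

@[simp] theorem ord_zero (P : W.Point) : ord P (0 : W.FunctionField) = 0 := by simp [ord]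

@[simp] theorem ord_one (P : W.Point) : ord P (1 : W.FunctionField) = 0 := by simp [ord]

theorem ord_mul (P : W.Point) {f g : W.FunctionField} (hf : f ≠ 0) (hg : g ≠ 0) :
    ord P (f * g) = ord P f + ord P g := by
  simp [ord, map_mul, log_mul (valAt_ne_zero P hf) (valAt_ne_zero P hg), add_comm]

@[simp] theorem ord_inv (P : W.Point) (f : W.FunctionField) : ord P f⁻¹ = -ord P f := by
  simp [ord]

theorem ord_div (P : W.Point) {f g : W.FunctionField} (hf : f ≠ 0) (hg : g ≠ 0) :
    ord P (f / g) = ord P f - ord P g := by
  rw [div_eq_mul_inv, ord_mul P hf (inv_ne_zero hg), ord_inv, sub_eq_add_neg]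

theorem ord_pow (P : W.Point) (f : W.FunctionField) (n : ℕ) : ord P (f ^ n) = n * ord P f := by
  simp [ord, log_pow]

@[simp] theorem ord_neg (P : W.Point) (f : W.FunctionField) : ord P (-f) = ord P f := by
  simp [ord, Valuation.map_neg]

theorem ord_prod (P : W.Point) {ι : Type*} (s : Finset ι) (f : ι → W.FunctionField)
    (h : ∀ i ∈ s, f i ≠ 0) : ord P (∏ i ∈ s, f i) = ∑ i ∈ s, ord P (f i) := by
  classical
  induction s using Finset.induction_on with
  | empty => simp
  | insert a s ha ih =>
    have hs : ∀ i ∈ s, f i ≠ 0 := fun i hi => h i (Finset.mem_insert_of_mem hi)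
    rw [Finset.prod_insert ha, Finset.sum_insert ha, ord_mul P (h a (Finset.mem_insert_self a s))
      (Finset.prod_ne_zero_iff.mpr hs), ih hs]

theorem le_ord_iff (P : W.Point) {f : W.FunctionField} (hf : f ≠ 0) (m : ℤ) :
    m ≤ ord P f ↔ valAt P f ≤ exp (-m) := by
  rw [valAt_eq_exp P hf, exp_le_exp, neg_le_neg_iff]

theorem le_ord_add (P : W.Point) {f g : W.FunctionField} (m : ℤ)
    (hf : f = 0 ∨ m ≤ ord P f) (hg : g = 0 ∨ m ≤ ord P g) : f + g = 0 ∨ m ≤ ord P (f + g) := by
  rcases eq_or_ne (f + g) 0 with h | h
  · exact .inl h
  have key : ∀ u : W.FunctionField, (u = 0 ∨ m ≤ ord P u) → valAt P u ≤ exp (-m) := by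
    rintro u (rfl | hu)
    · simp
    · rcases eq_or_ne u 0 with rfl | hu'
      · simp
      · exact (le_ord_iff P hu' m).mp hu
  exact .inr ((le_ord_iff P h m).mpr ((Valuation.map_add _ f g).trans (max_le (key f hf) (key g hg))))

theorem ord_add_eq_of_lt (P : W.Point) {f g : W.FunctionField} (hf : f ≠ 0)
    (h : g = 0 ∨ ord P f < ord P g) : ord P (f + g) = ord P f := by
  rcases eq_or_ne g 0 with rfl | hg
  · simp
  · simp only [ord]
    rw [Valuation.map_add_eq_of_lt_left]
    rw [valAt_eq_exp P hf, valAt_eq_exp P hg, exp_lt_exp]
    exact neg_lt_neg (h.resolve_left hg)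

theorem ord_algebraMap_nonneg {x y : k} (h : W.Nonsingular x y) (a : W.CoordinateRing) :
    0 ≤ ord (Point.some x y h) (algebraMap W.CoordinateRing W.FunctionField a) := by
  rcases eq_or_ne (algebraMap W.CoordinateRing W.FunctionField a) 0 with h0 | h0
  · simp [h0]
  · rw [le_ord_iff _ h0]
    simpa [valAt] using (heightOne h).valuation_le_one a

theorem ord_zero_algebraMap {a : W.CoordinateRing} (ha : a ≠ 0) :
    ord (0 : W.Point) (algebraMap W.CoordinateRing W.FunctionField a) =
      -((Algebra.norm k[X] a).natDegree : ℤ) := by
  simp [ord, valInfty_algebraMap, infValuation_of_ne_zero W ha]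

theorem ord_const (P : W.Point) (c : k) : ord P (const W c) = 0 := by
  rcases eq_or_ne c 0 with rfl | hc
  · simp
  rcases P with _ | ⟨x, y, h⟩
  · show ord (0 : W.Point) (const W c) = 0
    rw [const, RingHom.comp_apply, ord_zero_algebraMap ((map_ne_zero_iff _
      (FaithfulSMul.algebraMap_injective k W.CoordinateRing)).mpr hc),
      IsScalarTower.algebraMap_apply k k[X] W.CoordinateRing,
      Algebra.norm_algebraMap_of_basis (CoordinateRing.basis W)]
    simp
  · have hu : IsUnit (algebraMap k W.CoordinateRing c) := (Ne.isUnit hc).map _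
    simp only [ord, valAt, const, RingHom.comp_apply]
    rw [(IsDedekindDomain.HeightOneSpectrum.valuation_eq_one_iff_notMem _).mpr
      fun hm => (heightOne h).isPrime.ne_top (Ideal.eq_top_of_isUnit_mem _ hm hu)]
    simp

end

end FLTAgent.WeilPairing
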